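/-
S15 / (M3b), sub-brick (helper17): the characteristic-zero cusp dichotomy at level `M`.

For a prime `p ∣ M`, every place `v` of the function field of `X₀(M)` over `ℚ̄` with
`ord_v j < 0` (a cusp) satisfies

  `ord_v j_p = p · ord_v j`   (type `∞`)      or      `ord_v j = p · ord_v j_p`   (type `0`).

Proof: main's S24 dictionary.  `v` is the cusp place of some `g ∈ SL₂(ℤ)`
(`PlaceDict.exists_placeCusp_of_ord_neg`), its `ord` is the `q_M`-order at the cusp divided by the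
multiplicity (`PlaceDict.valCusp_eq_mul_ord`), and the `q_M`-order of `z ↦ J(p · g⁻¹ z)` is read
off the Hermite normal form `J((a z + b)/e)`, `a e = p` (`HNFMod.trans_Jabd`,
`CuspTop.ordInf_Jabd`): it is `-(p M)` if `(a, e) = (p, 1)` and `-(M / p)` if `(a, e) = (1, p)`,
while `j` itself has order `-M`.
-/
import Mathlib
import Fermat.Agent.S24.PlaceDict
import Fermat.Agent.S24.CuspJ
import Fermat.Agent.S24.ValPt

set_option autoImplicit false

noncomputable section

namespace Fermat.Agent.S15P.M3.CuspDich17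

open UpperHalfPlane ModularForm AlgebraicCurve CongruenceSubgroup
open scoped MatrixGroups Manifold
open Fermat.Agent.S24

variable (M : ℕ) [NeZero M]

theorem fm_X (d : Dv M) : fm M (MvPolynomial.X d) = jFormal M d := by
  unfold fm
  rw [MvPolynomial.aeval_X]

/-- The `q_M`-order of `z ↦ J(d · g⁻¹ z)` at `i∞`, through the Hermite normal form. -/
theorem exists_ordInf_trans_Jabd (g : SL(2, ℤ)) (d : Dv M) :
    ∃ a e : ℕ, a * e = d.1 ∧ 0 < a ∧ 0 < e ∧
      ordInf M (trans g (Jabd d.1 0 1)) = -((a * (M / e) : ℕ) : ℤ) := by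
  have hM : 0 < M := Nat.pos_of_ne_zero (NeZero.ne M)
  have hd : 0 < d.1 := Nat.pos_of_ne_zero d.neZero.ne
  obtain ⟨a, b, e, hae, -, ha, he, -, htr⟩ := HNFMod.trans_Jabd g d.1 hd
  have heM : e ∣ M := (Dvd.intro_left a hae).trans d.2
  exact ⟨a, e, hae, ha, he, by rw [htr, CuspTop.ordInf_Jabd M a b e hM ha he heM]⟩

theorem jFormal_ne_zero (d : Dv M) : jFormal M d ≠ 0 := by
  have hM : 0 < M := Nat.pos_of_ne_zero (NeZero.ne M)
  intro h0
  rw [← fm_X, ValPt.fm_eq_zero_iff, HNFMod.ev_X] at h0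
  obtain ⟨a, e, hae, ha, he, hord⟩ := exists_ordInf_trans_Jabd M 1 d
  have h1 : trans 1 (Jabd d.1 0 1) = 0 := by
    funext z
    show Jabd d.1 0 1 ((1 : SL(2, ℤ))⁻¹ • z) = 0
    rw [h0]; rfl
  rw [h1, OrdInf.ordInf_zero] at hord
  have heM : e ∣ M := (Dvd.intro_left a hae).trans d.2
  have hpos : 0 < a * (M / e) :=
    Nat.mul_pos ha (Nat.div_pos (Nat.le_of_dvd hM heM) he)
  omega

/-- The `q_M`-order of `j(q^d)` at the cusp `g⁻¹ ∞`. -/
theorem exists_valCusp_jFormal (g : SL(2, ℤ)) (d : Dv M) :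
    ∃ a e : ℕ, a * e = d.1 ∧ 0 < a ∧ 0 < e ∧
      valCusp M g (jFormal M d) = -((a * (M / e) : ℕ) : ℤ) := by
  have hM : 0 < M := Nat.pos_of_ne_zero (NeZero.ne M)
  obtain ⟨a, e, hae, ha, he, hord⟩ := exists_ordInf_trans_Jabd M g d
  refine ⟨a, e, hae, ha, he, ?_⟩
  have hrep : IsRep M (jFormal M d) (MvPolynomial.X d) 1 :=
    ⟨by rw [map_one]; exact one_ne_zero, by rw [fm_X, map_one, div_one]⟩
  rw [QExp.valCusp_eq_of_isRep M g (jFormal_ne_zero M d) hrep, HNFMod.ev_X, map_one, hord]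
  have h1 : trans g (1 : ℍ → ℂ) = 1 := rfl
  rw [h1, (CuspVal.HasOrdInf.one M).ordInf_eq hM, sub_zero]

/-- `j` has `q_M`-order `-M` at every cusp. -/
theorem valCusp_jBar (g : SL(2, ℤ)) : valCusp M g (jBar M) = -(M : ℤ) := by
  obtain ⟨a, e, hae, ha, he, h⟩ := exists_valCusp_jFormal M g ⟨1, one_dvd M⟩
  have ha1 : a = 1 := Nat.eq_one_of_mul_eq_one_right hae
  have he1 : e = 1 := Nat.eq_one_of_mul_eq_one_left hae
  subst ha1 he1
  have h' : valCusp M g (jBar M) = -((1 * (M / 1) : ℕ) : ℤ) := h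
  rw [h', one_mul, Nat.div_one]

/-- `j(q^p)` has `q_M`-order `-(p M)` or `-(M / p)` at every cusp. -/
theorem valCusp_jFormal_prime {p : ℕ} (hp : p.Prime) (hpM : p ∣ M) (g : SL(2, ℤ)) :
    valCusp M g (jFormal M ⟨p, hpM⟩) = -((p * M : ℕ) : ℤ) ∨
      valCusp M g (jFormal M ⟨p, hpM⟩) = -((M / p : ℕ) : ℤ) := by
  obtain ⟨a, e, hae, ha, he, h⟩ := exists_valCusp_jFormal M g ⟨p, hpM⟩
  have hae' : a * e = p := hae
  rcases (Nat.dvd_prime hp).1 (Dvd.intro e hae') with ha1 | hap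
  · right
    subst ha1
    rw [one_mul] at hae'
    subst hae'
    rw [h, one_mul]
  · left
    subst hap
    have he1 : e = 1 := by
      have : a * e = a * 1 := by rw [hae', mul_one]
      exact Nat.eq_of_mul_eq_mul_left ha this
    subst he1
    rw [h, Nat.div_one]

/-- The dichotomy at a cusp, in `q_M`-orders. -/
theorem valCusp_dichotomy {p : ℕ} (hp : p.Prime) (hpM : p ∣ M) (g : SL(2, ℤ)) :
    valCusp M g (jFormal M ⟨p, hpM⟩) = p * valCusp M g (jBar M) ∨
      valCusp M g (jBar M) = p * valCusp M g (jFormal M ⟨p, hpM⟩) := by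
  rcases valCusp_jFormal_prime M hp hpM g with h | h
  · left
    rw [h, valCusp_jBar]
    push_cast; ring
  · right
    rw [h, valCusp_jBar]
    obtain ⟨k, rfl⟩ := hpM
    rw [Nat.mul_div_cancel_left k hp.pos]
    push_cast; ring

/-- **The characteristic-zero cusp dichotomy at level `M`.**  At a place where `j` has a pole,
either `ord j_p = p · ord j` (type `∞`) or `ord j = p · ord j_p` (type `0`). -/
theorem cusp_dichotomy {p : ℕ} (hp : p.Prime) (hpM : p ∣ M) (v : Place KQ (FN M))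
    (hv : v.ord (jBar M) < 0) :
    v.ord (jFormal M ⟨p, hpM⟩) = p * v.ord (jBar M) ∨
      v.ord (jBar M) = p * v.ord (jFormal M ⟨p, hpM⟩) := by
  obtain ⟨x, rfl⟩ := PlaceDict.exists_placeCusp_of_ord_neg M v hv
  have hm : (0 : ℤ) < (PlaceDict.mulCusp M x.out : ℤ) := by
    exact_mod_cast PlaceDict.mulCusp_pos M x.out
  have h1 := PlaceDict.valCusp_eq_mul_ord M x.out (jFormal_ne_zero M ⟨p, hpM⟩)
  have h2 := PlaceDict.valCusp_eq_mul_ord M x.out (CuspJ.jBar_ne_zero M)
  rcases valCusp_dichotomy M hp hpM x.out with h | h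
  · left
    rw [h1, h2] at h
    have : (PlaceDict.mulCusp M x.out : ℤ) * (PlaceDict.placeCusp M x.out).ord (jFormal M ⟨p, hpM⟩)
        = (PlaceDict.mulCusp M x.out : ℤ) * (p * (PlaceDict.placeCusp M x.out).ord (jBar M)) := by
      rw [h]; ring
    exact mul_left_cancel₀ hm.ne' this
  · right
    rw [h1, h2] at h
    have : (PlaceDict.mulCusp M x.out : ℤ) * (PlaceDict.placeCusp M x.out).ord (jBar M)
        = (PlaceDict.mulCusp M x.out : ℤ) *
          (p * (PlaceDict.placeCusp M x.out).ord (jFormal M ⟨p, hpM⟩)) := by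
      rw [h]; ring
    exact mul_left_cancel₀ hm.ne' this

/-- At a cusp, `j_p` has a pole as well. -/
theorem ord_jFormal_prime_neg {p : ℕ} (hp : p.Prime) (hpM : p ∣ M) (v : Place KQ (FN M))
    (hv : v.ord (jBar M) < 0) : v.ord (jFormal M ⟨p, hpM⟩) < 0 := by
  have hp0 : (0 : ℤ) < p := by exact_mod_cast hp.pos
  rcases cusp_dichotomy M hp hpM v hv with h | h
  · rw [h]; exact mul_neg_of_pos_of_neg hp0 hv
  · by_contra hcon
    rw [not_lt] at hcon
    have : (0 : ℤ) ≤ p * v.ord (jFormal M ⟨p, hpM⟩) := mul_nonneg hp0.le hcon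
    omega

end Fermat.Agent.S15P.M3.CuspDich17
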