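/-
S15 / (M3c) (helper11): uniqueness of the place of type `∞` over a non-integral point of `X₀(p)`.

Let `p` be a prime, `ℓ ≥ 5` a prime `≠ p`, `A` a valuation ring of `ℚ̄` over `ℓ`, and `(b, a)` a
pair of algebraic numbers with `b ∉ A` and `|a / b^p| = 1`.  Then there is AT MOST ONE place `x`
of the function field of `X₀(p)` over `ℚ̄` with `j(x) = b` and `j_p(x) = a`
(`place_unique_of_type_inf`).  No moduli input and no statement about the reduction of cusps is
assumed: everything is proved here from the place reduction `r` of the good pair `(p, ℓ)`.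

Proof.  Apply the Fricke involution: `x̃ = w x` lies over `(j, j_p) = (a, b)` and
`c = b / a^p` is in the maximal ideal of `A`.  Let `x̄ = J̄(q^p)` be the reduced base function.
* `x̃` is a zero of `1/j_p - 1/b`, and `1/b ≡ 0`: so `r x̃` is a pole of `x̄` (zeros go to zeros:
  the zero masses agree, `[F : L(x)] = [F̄ : k(x̄)]`).
* The poles of `x̄`: the cusp `∞̄` (mass `p`, the `q`-order) and, as the total mass is
  `[F̄ : k(x̄)] = p + 1`, exactly one other pole `Q₀`, of mass `1`.
* `r x̃ ≠ ∞̄`: the integral function `y = j_p - c j^p` has reduction `x̄`, so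
  `-p = ord_∞̄ x̄ = ∑_{r P = ∞̄} ord_P y`.  The only pole of `j_p` above `∞̄` is the cusp `∞`
  (mass `p` already), where `ord y ≥ -p`; at every other `P` above `∞̄` the functions `j_p`, `j`
  are regular (a pole of `j` is a pole of `j_p`: `CuspDich17`), so `ord_P y ≥ 0`; and
  `ord_x̃ y ≥ 1`.  Hence the sum is `≥ 1 - p`, a contradiction.
* So `r x̃ = Q₀ = r x̃'`, and the fibre formula at `Q₀`,
  `1 = ord_{Q₀} (1/x̄) = ∑_{r P = Q₀, j_p(P) = b} ord_P (1/j_p - 1/b)`, gives `x̃ = x̃'`.
-/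
import Mathlib
import Fermat.Agent.CAR.Ell.CuspMap
import Fermat.Agent.CAR.Ell.FrickeRed
import Fermat.Agent.CAR.Ell.Inst
import Fermat.Agent.CAR.LiftInv
import Fermat.Agent.Lib.FF.PlaceInf
import Fermat.Agent.Lib.Red.BranchInst
import Fermat.Agent.S24.FrickeRamif
import Fermat.Agent.S20.IndexGamma0
import Fermat.Agent.S15P.M3.CuspDich17
import Fermat.Agent.ESJ.Red.R2Good

set_option autoImplicit false
set_option linter.unusedSectionVars false

namespace Fermat.Agent.S15P.M3.Unique11

open ModularCurve AlgebraicCurve Fermat.Agent.S28 Fermat.Agent.S24 Fermat.Agent.Lib.Red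
open scoped IntermediateField

noncomputable section

/-! ### Combinatorics of masses -/

/-- Two points of mass `≥ 1` in a family of nonnegative masses of total mass `≤ 1` coincide. -/
theorem eq_of_sum_le_one {α : Type*} [DecidableEq α] (S : Finset α) (t : α → ℤ)
    (h0 : ∀ P ∈ S, 0 ≤ t P) (hsum : ∑ P ∈ S, t P ≤ 1) {x x' : α} (hx : x ∈ S) (hx' : x' ∈ S)
    (h1 : 1 ≤ t x) (h1' : 1 ≤ t x') : x = x' := by
  by_contra hne
  have hsub : ({x, x'} : Finset α) ⊆ S := by
    intro P hP
    rcases Finset.mem_insert.mp hP with rfl | hP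
    · exact hx
    · rw [Finset.mem_singleton.mp hP]
      exact hx'
  have h2 := Finset.sum_le_sum_of_subset_of_nonneg hsub (f := t) (fun P hP _ => h0 P hP)
  rw [Finset.sum_pair hne] at h2
  omega

/-- A lower bound for a sum with one exceptional term. -/
theorem sum_ge_of_one_pos {α : Type*} [DecidableEq α] (S : Finset α) (t : α → ℤ) (P₀ x : α)
    (m : ℤ) (hm : 0 ≤ m) (hx : x ∈ S) (hxP : x ≠ P₀) (h0 : ∀ P ∈ S, P ≠ P₀ → 0 ≤ t P)
    (hP₀ : -m ≤ t P₀) (hx1 : 1 ≤ t x) : 1 - m ≤ ∑ P ∈ S, t P := by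
  by_cases hP : P₀ ∈ S
  · rw [← Finset.add_sum_erase S t hP]
    have hx' : x ∈ S.erase P₀ := Finset.mem_erase.mpr ⟨hxP, hx⟩
    have h2 : t x ≤ ∑ P ∈ S.erase P₀, t P :=
      Finset.single_le_sum (f := t)
        (fun P hP' => h0 P (Finset.mem_of_mem_erase hP') (Finset.ne_of_mem_erase hP')) hx'
    omega
  · have h2 : t x ≤ ∑ P ∈ S, t P :=
      Finset.single_le_sum (f := t) (fun P hP' => h0 P hP' (fun h => hP (h ▸ hP'))) hx
    omega

/-! ### Orders at a place -/

section Ord

variable {K F : Type*} [Field K] [Field F] [Algebra K F]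

theorem ne_zero_of_ord_pos (v : Place K F) {f : F} (h : 0 < v.ord f) : f ≠ 0 := by
  rintro rfl
  rw [Place.ord_zero] at h
  exact lt_irrefl _ h

/-- `f(v) = c ≠ 0` implies `ord_v f = 0`. -/
theorem ord_eq_zero_of_sub_pos (v : Place K F) {f : F} {c : K} (hc : c ≠ 0)
    (h : 0 < v.ord (f - algebraMap K F c)) : v.ord f = 0 := by
  have hfc : f - algebraMap K F c ≠ 0 := ne_zero_of_ord_pos v h
  have hc0 : algebraMap K F c ≠ 0 := (map_ne_zero _).mpr hc
  have hcord : v.ord (algebraMap K F c) = 0 := Fermat.Agent.S24.ord_algebraMap v c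
  have hf : f ≠ 0 := by
    rintro rfl
    rw [zero_sub, RH.ord_neg, hcord] at h
    exact lt_irrefl _ h
  have h1 := ord_add_ge v hfc hc0 (by rwa [sub_add_cancel])
  rw [sub_add_cancel, hcord] at h1
  have h2 := ord_sub_ge v hf hfc (by rwa [sub_sub_cancel])
  rw [sub_sub_cancel, hcord] at h2
  omega

/-- `f(v) = c ≠ 0`: the order of `1/f - 1/c` is the order of `f - c`. -/
theorem ord_inv_sub_inv (v : Place K F) {f : F} {c : K} (hc : c ≠ 0)
    (h : 0 < v.ord (f - algebraMap K F c)) :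
    v.ord (f⁻¹ - algebraMap K F c⁻¹) = v.ord (f - algebraMap K F c) := by
  have hf0 := ord_eq_zero_of_sub_pos v hc h
  have hfc : f - algebraMap K F c ≠ 0 := ne_zero_of_ord_pos v h
  have hc0 : algebraMap K F c ≠ 0 := (map_ne_zero _).mpr hc
  have hf : f ≠ 0 := by
    rintro rfl
    rw [zero_sub, RH.ord_neg, Fermat.Agent.S24.ord_algebraMap] at h
    exact lt_irrefl _ h
  have e : f⁻¹ - algebraMap K F c⁻¹ =
      -((f - algebraMap K F c) * (f⁻¹ * algebraMap K F c⁻¹)) := by
    rw [map_inv₀]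
    field_simp
    ring
  have hc0' : algebraMap K F c⁻¹ ≠ 0 := (map_ne_zero _).mpr (inv_ne_zero hc)
  rw [e, RH.ord_neg, v.ord_mul hfc (mul_ne_zero (inv_ne_zero hf) hc0'),
    v.ord_mul (inv_ne_zero hf) hc0', v.ord_inv, hf0, Fermat.Agent.S24.ord_algebraMap]
  ring

/-- `j_p(v) = b`, `j(v) = a`, `c a^n = b`: the function `j_p - c j^n` vanishes at `v`. -/
theorem ord_sub_mul_pow_pos (v : Place K F) {f g : F} {a b c : K} (n : ℕ)
    (hf : 0 < v.ord (f - algebraMap K F b)) (hg : 0 < v.ord (g - algebraMap K F a))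
    (hcab : c * a ^ n = b) (hne : f - algebraMap K F c * g ^ n ≠ 0) :
    0 < v.ord (f - algebraMap K F c * g ^ n) := by
  have hgmem : g ∈ v.toValuationSubring := by
    have h1 : g - algebraMap K F a ∈ v.toValuationSubring := mem_of_ord_nonneg v hg.le
    have h2 := v.toValuationSubring.add_mem _ _ h1 (v.algebraMap_mem' a)
    rwa [sub_add_cancel] at h2
  set G : F := ∑ i ∈ Finset.range n, g ^ i * algebraMap K F a ^ (n - 1 - i) with hG
  have hGmem : G ∈ v.toValuationSubring :=
    sum_mem fun i _ => v.toValuationSubring.mul_mem _ _ (pow_mem hgmem i)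
      (pow_mem (v.algebraMap_mem' a) _)
  have e : f - algebraMap K F c * g ^ n =
      (f - algebraMap K F b) - algebraMap K F c * (G * (g - algebraMap K F a)) := by
    rw [hG, geom_sum₂_mul, ← hcab, map_mul, map_pow]
    ring
  have h0 : v.adicValuation (f - algebraMap K F b) ≤ WithZero.exp (-1 : ℤ) := by
    rw [v.adicValuation_le_exp_iff]
    right
    omega
  have h1 : v.adicValuation (g - algebraMap K F a) ≤ WithZero.exp (-1 : ℤ) := by
    rw [v.adicValuation_le_exp_iff]
    right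
    omega
  have h2 : v.adicValuation G ≤ 1 := v.adicValuation_le_one_of_mem hGmem
  have h3 : v.adicValuation (algebraMap K F c) ≤ 1 := v.adicValuation_algebraMap_le_one c
  have h4 : v.adicValuation (algebraMap K F c * (G * (g - algebraMap K F a))) ≤
      WithZero.exp (-1 : ℤ) := by
    rw [map_mul, map_mul]
    calc v.adicValuation (algebraMap K F c) * (v.adicValuation G *
          v.adicValuation (g - algebraMap K F a))
        ≤ 1 * (1 * WithZero.exp (-1 : ℤ)) := by gcongr
      _ = WithZero.exp (-1 : ℤ) := by rw [one_mul, one_mul]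
  have hle : v.adicValuation (f - algebraMap K F c * g ^ n) ≤ WithZero.exp (-1 : ℤ) := by
    rw [e]
    exact v.adicValuation.map_sub_le h0 h4
  rw [v.adicValuation_le_exp_iff] at hle
  rcases hle with h0 | h1
  · exact absurd h0 hne
  · omega

end Ord

/-! ### Zeros of `x - z` specialise to zeros of `x̄ - z̄` -/

section FF

variable {L : Type*} [Field L] [Algebra ℚ L] [IsAlgClosed L] {A : ValuationSubring L}
  {k : Type} [Field k] [IsAlgClosed k] {π : A →+* k} {N : ℕ} [NeZero N]

/-- `r_* div (x - z) = div (x̄ - z̄)` for a base function and `z ∈ A`. -/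
theorem mapDomain_div_x_sub (hπ : ∀ a : A, ¬ IsUnit a → π a = 0) (hsurj : Function.Surjective π)
    (hNk : (N : k) ≠ 0) (B : BaseFn.Data A π N)
    {r : Place L ↥(laurentBaseChange L (modularFunctionFieldFull N)) →
      Place k ↥(modularFunctionFieldFullC k N)}
    (hr : IsPlaceReductionAlong A π N r) (z : A) :
    ∃ D : Divisor L ↥(laurentBaseChange L (modularFunctionFieldFull N)),
      (∀ P, D P = P.ord (B.x - algebraMap L _ (z : L))) ∧
        ∀ Q, Finsupp.mapDomain r D Q = Q.ord (B.xt hπ hNk - algebraMap k _ (π z)) := by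
  have hfinL : Module.Finite ↥(L⟮B.x⟯) ↥(laurentBaseChange L (modularFunctionFieldFull N)) :=
    B.finite_L hπ hsurj hNk
  have htrk : Transcendental k (B.xt hπ hNk) := B.transcendental_xt hπ hNk
  set y : LaurentSeries A := B.X - HahnSeries.C z with hy
  have hyL : coeffMap A.subtype y =
      ((B.x - algebraMap L _ (z : L) : ↥(laurentBaseChange L (modularFunctionFieldFull N))) :
        LaurentSeries L) := by
    rw [hy, map_sub]
    show incl A B.X - incl A (HahnSeries.C z) = _
    rw [incl_C, ← Fermat.Agent.CAR.Ell.coe_algebraMap_laurentBaseChange (N := N) (z : L)]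
    rfl
  have hyk : coeffMap π y =
      ((B.xt hπ hNk - algebraMap k _ (π z) : ↥(modularFunctionFieldFullC k N)) :
        LaurentSeries k) := by
    rw [hy, map_sub]
    show rbar A π B.X - rbar A π (HahnSeries.C z) = _
    rw [rbar_C, ← B.coe_xt hπ hNk, ← Fermat.Agent.CAR.Ell.coe_algebraMap_fullC (N := N) (π z)]
    rfl
  have hmemL : coeffMap A.subtype y ∈ laurentBaseChange L (modularFunctionFieldFull N) := by
    rw [hyL]
    exact Subtype.property _
  have hmemk : coeffMap π y ∈ modularFunctionFieldFullC k N := by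
    rw [hyk]
    exact Subtype.property _
  have heL : (⟨coeffMap A.subtype y, hmemL⟩ : ↥(laurentBaseChange L (modularFunctionFieldFull N)))
      = B.x - algebraMap L _ (z : L) := Subtype.ext hyL
  have hek : (⟨coeffMap π y, hmemk⟩ : ↥(modularFunctionFieldFullC k N)) =
      B.xt hπ hNk - algebraMap k _ (π z) := Subtype.ext hyk
  have hne : coeffMap π y ≠ 0 := by
    intro h0
    have h1 : B.xt hπ hNk - algebraMap k _ (π z) = 0 := by
      apply Subtype.ext
      rw [← hyk, h0]
      rfl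
    exact htrk (by rw [sub_eq_zero.mp h1]; exact isAlgebraic_algebraMap _)
  have hfin : {P : Place L ↥(laurentBaseChange L (modularFunctionFieldFull N)) |
      P.ord (B.x - algebraMap L _ (z : L)) ≠ 0}.Finite :=
    Fermat.Agent.Lib.FF.CharP.finite_ord_ne_zero B.x _
  refine ⟨Finsupp.ofSupportFinite (fun P => P.ord (B.x - algebraMap L _ (z : L))) hfin,
    fun P => rfl, fun Q => ?_⟩
  have h := hr.2 y hmemL hmemk hne
    (Finsupp.ofSupportFinite (fun P => P.ord (B.x - algebraMap L _ (z : L))) hfin)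
    (fun P => by rw [heL]; rfl) Q
  rw [h, hek]

/-- **Zeros of `x - z` specialise to zeros of `x̄ - z̄`** (`z ∈ A`, `B` a base function). -/
theorem ord_xt_sub_pos (hπ : ∀ a : A, ¬ IsUnit a → π a = 0) (hsurj : Function.Surjective π)
    (hNk : (N : k) ≠ 0) (B : BaseFn.Data A π N)
    {r : Place L ↥(laurentBaseChange L (modularFunctionFieldFull N)) →
      Place k ↥(modularFunctionFieldFullC k N)}
    (hr : IsPlaceReductionAlong A π N r) (z : A)
    (P : Place L ↥(laurentBaseChange L (modularFunctionFieldFull N)))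
    (hP : 0 < P.ord (B.x - algebraMap L _ (z : L))) :
    0 < (r P).ord (B.xt hπ hNk - algebraMap k _ (π z)) := by
  classical
  have hfinL : Module.Finite ↥(L⟮B.x⟯) ↥(laurentBaseChange L (modularFunctionFieldFull N)) :=
    B.finite_L hπ hsurj hNk
  have hfink : Module.Finite ↥(k⟮B.xt hπ hNk⟯) ↥(modularFunctionFieldFullC k N) :=
    B.finite_k hπ hsurj hNk
  have htrL : Transcendental L B.x := B.transcendental_x hπ hNk
  have htrk : Transcendental k (B.xt hπ hNk) := B.transcendental_xt hπ hNk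
  obtain ⟨D, hD, hpush⟩ := mapDomain_div_x_sub hπ hsurj hNk B hr z
  obtain ⟨hZL, hsumL⟩ := Fermat.Agent.Lib.FF.CharP.placesOver_finite_sum B.x htrL (z : L)
  obtain ⟨hZk, hsumk⟩ := Fermat.Agent.Lib.FF.CharP.placesOver_finite_sum (B.xt hπ hNk) htrk (π z)
  have hZ : ∀ P', P' ∈ hZL.toFinset ↔ 0 < D P' := by
    intro P'
    rw [Set.Finite.mem_toFinset, hD]
    rfl
  have hsum : ∑ P' ∈ hZL.toFinset, D P' ≤ ∑ Q' ∈ hZk.toFinset,
      Q'.ord (B.xt hπ hNk - algebraMap k _ (π z)) := by
    rw [hsumk, ← B.finrank_eq hπ hsurj hNk, ← hsumL]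
    exact le_of_eq (Finset.sum_congr rfl fun P' _ => hD P')
  have hmem := Fermat.Agent.CAR.Ell.mapsTo_of_mapDomain r D _ hpush hZL.toFinset hZ hZk.toFinset
    hsum P ((hZ P).mpr (by rw [hD]; exact hP))
  rw [Set.Finite.mem_toFinset] at hmem
  exact hmem

/-- **Fibre bound.** The order of a zero `P` of `x - z` is at most the order of `x̄ - z̄` at
`r P`. -/
theorem ord_sub_le (hπ : ∀ a : A, ¬ IsUnit a → π a = 0) (hsurj : Function.Surjective π)
    (hNk : (N : k) ≠ 0) (B : BaseFn.Data A π N)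
    {r : Place L ↥(laurentBaseChange L (modularFunctionFieldFull N)) →
      Place k ↥(modularFunctionFieldFullC k N)}
    (hr : IsPlaceReductionAlong A π N r) (z : A)
    (P : Place L ↥(laurentBaseChange L (modularFunctionFieldFull N)))
    (hP : 0 < P.ord (B.x - algebraMap L _ (z : L))) :
    P.ord (B.x - algebraMap L _ (z : L)) ≤ (r P).ord (B.xt hπ hNk - algebraMap k _ (π z)) := by
  classical
  have hQ := ord_xt_sub_pos hπ hsurj hNk B hr z P hP
  have hfinL := B.finite_L hπ hsurj hNk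
  obtain ⟨hZL, -⟩ := Fermat.Agent.Lib.FF.CharP.placesOver_finite_sum B.x
    (B.transcendental_x hπ hNk) (z : L)
  have hZ : ∀ P', P' ∈ hZL.toFinset ↔ 0 < P'.ord (B.x - algebraMap L _ (z : L)) := by
    intro P'
    rw [Set.Finite.mem_toFinset]
    rfl
  rw [Fermat.Agent.CAR.Ell.ord_xt_sub_eq_sum hπ hsurj hNk B hr z hZL.toFinset hZ (r P) hQ]
  have h2 := Finset.single_le_sum (s := hZL.toFinset)
    (f := fun P' => if r P' = r P then P'.ord (B.x - algebraMap L _ (z : L)) else 0)
    (fun P' hP' => by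
      have := (hZ P').mp hP'
      show 0 ≤ ite _ _ _
      split_ifs
      · omega
      · exact le_rfl) ((hZ P).mpr hP)
  simp only [if_true] at h2
  exact h2

/-- **Fibre bound for two places.** Two distinct zeros `P ≠ P'` of `x - z` with the same
reduction: the sum of their orders is at most the order of `x̄ - z̄` there. -/
theorem ord_sub_add_le (hπ : ∀ a : A, ¬ IsUnit a → π a = 0) (hsurj : Function.Surjective π)
    (hNk : (N : k) ≠ 0) (B : BaseFn.Data A π N)
    {r : Place L ↥(laurentBaseChange L (modularFunctionFieldFull N)) →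
      Place k ↥(modularFunctionFieldFullC k N)}
    (hr : IsPlaceReductionAlong A π N r) (z : A)
    (P P' : Place L ↥(laurentBaseChange L (modularFunctionFieldFull N)))
    (hP : 0 < P.ord (B.x - algebraMap L _ (z : L)))
    (hP' : 0 < P'.ord (B.x - algebraMap L _ (z : L))) (hne : P ≠ P') (hrr : r P' = r P) :
    P.ord (B.x - algebraMap L _ (z : L)) + P'.ord (B.x - algebraMap L _ (z : L)) ≤
      (r P).ord (B.xt hπ hNk - algebraMap k _ (π z)) := by
  classical
  have hQ := ord_xt_sub_pos hπ hsurj hNk B hr z P hP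
  have hfinL := B.finite_L hπ hsurj hNk
  obtain ⟨hZL, -⟩ := Fermat.Agent.Lib.FF.CharP.placesOver_finite_sum B.x
    (B.transcendental_x hπ hNk) (z : L)
  have hZ : ∀ P', P' ∈ hZL.toFinset ↔ 0 < P'.ord (B.x - algebraMap L _ (z : L)) := by
    intro P'
    rw [Set.Finite.mem_toFinset]
    rfl
  rw [Fermat.Agent.CAR.Ell.ord_xt_sub_eq_sum hπ hsurj hNk B hr z hZL.toFinset hZ (r P) hQ]
  have hsub : ({P, P'} : Finset _) ⊆ hZL.toFinset := by
    intro R hR
    rcases Finset.mem_insert.mp hR with rfl | hR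
    · exact (hZ _).mpr hP
    · rw [Finset.mem_singleton.mp hR]
      exact (hZ _).mpr hP'
  have h2 := Finset.sum_le_sum_of_subset_of_nonneg hsub
    (f := fun P' => if r P' = r P then P'.ord (B.x - algebraMap L _ (z : L)) else 0)
    (fun R hR _ => by
      have := (hZ R).mp hR
      show 0 ≤ ite _ _ _
      split_ifs
      · omega
      · exact le_rfl)
  rw [Finset.sum_pair hne] at h2
  simp only [if_true, if_pos hrr] at h2
  exact h2

/-! ### The base function `1 / J(q^N)`: poles of `x̄ = J̄(q^N)` -/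

/-- A zero of `1/x - z`, `z̄ = 0`, specialises to a pole of `x̄ = J̄(q^N)`. -/
theorem ord_xk_neg_of_inv (hπ : ∀ a : A, ¬ IsUnit a → π a = 0) (hsurj : Function.Surjective π)
    (hNk : (N : k) ≠ 0)
    {r : Place L ↥(laurentBaseChange L (modularFunctionFieldFull N)) →
      Place k ↥(modularFunctionFieldFullC k N)}
    (hr : IsPlaceReductionAlong A π N r) (z : A) (hz : π z = 0)
    (P : Place L ↥(laurentBaseChange L (modularFunctionFieldFull N)))
    (hP : 0 < P.ord ((xL L N)⁻¹ - algebraMap L _ (z : L))) :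
    (r P).ord (xk k N) < 0 := by
  have h := ord_xt_sub_pos hπ hsurj hNk (Fermat.Agent.CAR.LiftInv.ofJInv A π N) hr z P
    (by rw [Fermat.Agent.CAR.LiftInv.ofJInv_x]; exact hP)
  rw [Fermat.Agent.CAR.LiftInv.ofJInv_xt, hz, map_zero, sub_zero, Place.ord_inv] at h
  omega

/-- The order of a zero `P` of `1/x - z`, `z̄ = 0`, is at most the pole order of `x̄` at `r P`. -/
theorem ord_inv_le (hπ : ∀ a : A, ¬ IsUnit a → π a = 0) (hsurj : Function.Surjective π)
    (hNk : (N : k) ≠ 0)
    {r : Place L ↥(laurentBaseChange L (modularFunctionFieldFull N)) →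
      Place k ↥(modularFunctionFieldFullC k N)}
    (hr : IsPlaceReductionAlong A π N r) (z : A) (hz : π z = 0)
    (P : Place L ↥(laurentBaseChange L (modularFunctionFieldFull N)))
    (hP : 0 < P.ord ((xL L N)⁻¹ - algebraMap L _ (z : L))) :
    P.ord ((xL L N)⁻¹ - algebraMap L _ (z : L)) ≤ -(r P).ord (xk k N) := by
  have h := ord_sub_le hπ hsurj hNk (Fermat.Agent.CAR.LiftInv.ofJInv A π N) hr z P
    (by rw [Fermat.Agent.CAR.LiftInv.ofJInv_x]; exact hP)
  rw [Fermat.Agent.CAR.LiftInv.ofJInv_xt, Fermat.Agent.CAR.LiftInv.ofJInv_x, hz, map_zero,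
    sub_zero, Place.ord_inv] at h
  exact h

/-- Two distinct zeros of `1/x - z`, `z̄ = 0`, with the same reduction: the sum of their orders
is at most the pole order of `x̄` there. -/
theorem ord_inv_add_le (hπ : ∀ a : A, ¬ IsUnit a → π a = 0) (hsurj : Function.Surjective π)
    (hNk : (N : k) ≠ 0)
    {r : Place L ↥(laurentBaseChange L (modularFunctionFieldFull N)) →
      Place k ↥(modularFunctionFieldFullC k N)}
    (hr : IsPlaceReductionAlong A π N r) (z : A) (hz : π z = 0)
    (P P' : Place L ↥(laurentBaseChange L (modularFunctionFieldFull N)))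
    (hP : 0 < P.ord ((xL L N)⁻¹ - algebraMap L _ (z : L)))
    (hP' : 0 < P'.ord ((xL L N)⁻¹ - algebraMap L _ (z : L))) (hne : P ≠ P')
    (hrr : r P' = r P) :
    P.ord ((xL L N)⁻¹ - algebraMap L _ (z : L)) + P'.ord ((xL L N)⁻¹ - algebraMap L _ (z : L)) ≤
      -(r P).ord (xk k N) := by
  have h := ord_sub_add_le hπ hsurj hNk (Fermat.Agent.CAR.LiftInv.ofJInv A π N) hr z P P'
    (by rw [Fermat.Agent.CAR.LiftInv.ofJInv_x]; exact hP)
    (by rw [Fermat.Agent.CAR.LiftInv.ofJInv_x]; exact hP') hne hrr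
  rw [Fermat.Agent.CAR.LiftInv.ofJInv_xt, Fermat.Agent.CAR.LiftInv.ofJInv_x, hz, map_zero,
    sub_zero, Place.ord_inv] at h
  exact h

end FF

/-! ### The poles of `x̄ = J̄(q^N)` when `[F̄ : k(x̄)] = N + 1` -/

section Poles

open Fermat.Agent.Lib.FF.PlaceInf

variable {k : Type} [Field k] [IsAlgClosed k] {N : ℕ} [NeZero N]

theorem xk_ne_zero : xk k N ≠ 0 := by
  intro h0
  have h := ValInd.Jd_ne_zero (K := k) N (NeZero.ne N)
  apply h
  have h1 : ((xk k N : ↥(modularFunctionFieldFullC k N)) : LaurentSeries k) = 0 := by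
    rw [h0]
    rfl
  exact h1

/-- `x̄ = J̄(q^N)` has a pole of order `N` at the cusp `∞̄`. -/
theorem placeInfC_ord_xk : (placeInfC k N).ord (xk k N) = -(N : ℤ) := by
  rw [placeInfC_ord k N _ xk_ne_zero]
  exact ValInd.order_Jd (K := k) N (NeZero.ne N)

/-- If `[F̄ : k(x̄)] = N + 1`, then `x̄` has at most one pole besides `∞̄`, and it is simple. -/
theorem pole_structure (htr : Transcendental k (xk k N))
    [FiniteDimensional ↥(k⟮xk k N⟯) ↥(modularFunctionFieldFullC k N)]
    (hdeg : Module.finrank ↥(k⟮xk k N⟯) ↥(modularFunctionFieldFullC k N) = N + 1) :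
    (∀ Q : Place k ↥(modularFunctionFieldFullC k N), Q.ord (xk k N) < 0 → Q ≠ placeInfC k N →
      Q.ord (xk k N) = -1) ∧
    (∀ Q Q' : Place k ↥(modularFunctionFieldFullC k N), Q.ord (xk k N) < 0 →
      Q'.ord (xk k N) < 0 → Q ≠ placeInfC k N → Q' ≠ placeInfC k N → Q = Q') := by
  classical
  obtain ⟨hfin, hsum⟩ := Fermat.Agent.Lib.FF.CharP.polesOf_finite_sum (xk k N) htr
  rw [hdeg] at hsum
  have hinf : placeInfC k N ∈ hfin.toFinset := by
    rw [Set.Finite.mem_toFinset]
    show (placeInfC k N).ord (xk k N) < 0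
    rw [placeInfC_ord_xk]
    have := NeZero.pos N
    omega
  rw [← Finset.add_sum_erase _ _ hinf, placeInfC_ord_xk] at hsum
  have hsum' : ∑ Q ∈ hfin.toFinset.erase (placeInfC k N), (-Q.ord (xk k N)) ≤ 1 := by
    push_cast at hsum
    omega
  have hmem : ∀ Q : Place k ↥(modularFunctionFieldFullC k N), Q.ord (xk k N) < 0 →
      Q ≠ placeInfC k N → Q ∈ hfin.toFinset.erase (placeInfC k N) := fun Q hQ hne =>
    Finset.mem_erase.mpr ⟨hne, by rw [Set.Finite.mem_toFinset]; exact hQ⟩
  have hnn : ∀ Q ∈ hfin.toFinset.erase (placeInfC k N), 0 ≤ -Q.ord (xk k N) := by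
    intro Q hQ
    have h1 := (Finset.mem_erase.mp hQ).2
    rw [Set.Finite.mem_toFinset] at h1
    have h2 : Q.ord (xk k N) < 0 := h1
    omega
  refine ⟨fun Q hQ hne => ?_, fun Q Q' hQ hQ' hne hne' => ?_⟩
  · have h1 := Finset.single_le_sum (f := fun Q => -Q.ord (xk k N)) hnn (hmem Q hQ hne)
    have h2 : -Q.ord (xk k N) ≤ 1 := le_trans h1 hsum'
    omega
  · exact eq_of_sum_le_one _ (fun Q => -Q.ord (xk k N)) hnn hsum' (hmem Q hQ hne)
      (hmem Q' hQ' hne') (by show 1 ≤ -Q.ord (xk k N); omega)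
      (by show 1 ≤ -Q'.ord (xk k N); omega)

end Poles

/-! ### Prime level over `ℚ̄` -/

section Core

open Fermat.Agent.Lib.FF.PlaceInf Fermat.Agent.Lib.Red.BranchInst Fermat.Agent.S24.Fricke

variable {p : ℕ} [NeZero p] {A : ValuationSubring KQ} {k : Type} [Field k] [IsAlgClosed k]
  {π : A →+* k}

/-- `[F̄ : k(x̄)] = p + 1` at prime level `p` (good basis + `[SL₂(ℤ) : Γ₀(p)] = p + 1`). -/
theorem finrank_xk_prime (hp : p.Prime) (hπ : ∀ a : A, ¬ IsUnit a → π a = 0)
    (hsurj : Function.Surjective π) (hNk : (p : k) ≠ 0) :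
    Module.finrank ↥(k⟮xk k p⟯) ↥(modularFunctionFieldFullC k p) = p + 1 := by
  have h := (BaseFn.Data.ofJ A π p).finrank_eq hπ hsurj hNk
  rw [BaseFn.Data.ofJ_x, BaseFn.Data.ofJ_xt] at h
  rw [← h, finrank_xL]
  show (CongruenceSubgroup.Gamma0 p).index = p + 1
  rw [Fermat.Agent.S20.Count.index_Gamma0]
  have h1 := Fermat.Agent.S20.Count.Index.dedekindPsi_mul_of_not_dvd hp one_ne_zero
    (fun hd => hp.one_lt.ne' (Nat.dvd_one.mp hd))
  rw [mul_one, ModularCurve.dedekindPsi_one, mul_one] at h1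
  exact h1

/-- The poles of `x̄ = J̄(q^p)` at prime level: `∞̄` and at most one more, which is simple. -/
theorem poles_xk (hp : p.Prime) (hπ : ∀ a : A, ¬ IsUnit a → π a = 0)
    (hsurj : Function.Surjective π) (hNk : (p : k) ≠ 0) :
    (∀ Q : Place k ↥(modularFunctionFieldFullC k p), Q.ord (xk k p) < 0 → Q ≠ placeInfC k p →
      Q.ord (xk k p) = -1) ∧
    (∀ Q Q' : Place k ↥(modularFunctionFieldFullC k p), Q.ord (xk k p) < 0 →
      Q'.ord (xk k p) < 0 → Q ≠ placeInfC k p → Q' ≠ placeInfC k p → Q = Q') := by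
  have hfin : Module.Finite ↥(k⟮xk k p⟯) ↥(modularFunctionFieldFullC k p) := by
    have h := (BaseFn.Data.ofJ A π p).finite_k hπ hsurj hNk
    rwa [BaseFn.Data.ofJ_xt] at h
  have htr : Transcendental k (xk k p) := by
    have h := (BaseFn.Data.ofJ A π p).transcendental_xt hπ hNk
    rwa [BaseFn.Data.ofJ_xt] at h
  exact pole_structure htr (finrank_xk_prime hp hπ hsurj hNk)

theorem xL_ne_zero : xL KQ p ≠ 0 := by
  intro h0
  have h := ValInd.Jd_ne_zero (K := KQ) p (NeZero.ne p)
  apply h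
  have h1 : ((xL KQ p : ↥(laurentBaseChange KQ (modularFunctionFieldFull p))) :
      LaurentSeries KQ) = 0 := by
    rw [h0]
    rfl
  exact h1

/-- `J(q^p)` has a pole of order `p` at the cusp `∞`. -/
theorem placeInfL_ord_xL : (placeInfL KQ p).ord (xL KQ p) = -(p : ℤ) := by
  rw [placeInfL_ord KQ p _ xL_ne_zero]
  exact ValInd.order_Jd (K := KQ) p (NeZero.ne p)

theorem jBar_eq_jL : jBar p = jL KQ p := by
  apply Subtype.ext
  show coeffEmb KQ (qExpand ℚ 1 jq) = TD.Jd KQ 1
  rw [← TD.Jd_rat 1, coeffEmb, TD.coeffMap_Jd]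

/-- `j` has a simple pole at the cusp `∞`. -/
theorem placeInfL_ord_jBar : (placeInfL KQ p).ord (jBar p) = -1 := by
  rw [jBar_eq_jL]
  exact placeInfL_ord_jL KQ p

theorem jN_eq_xL : jN p = xL KQ p := (xL_eq_jFormal p).symm

/-- **The cusp `∞` specialises to the cusp `∞̄`.** -/
theorem r_placeInfL (hp : p.Prime) (hπ : ∀ a : A, ¬ IsUnit a → π a = 0)
    (hsurj : Function.Surjective π) (hNk : (p : k) ≠ 0)
    {r : Place KQ (FN p) → Place k ↥(modularFunctionFieldFullC k p)}
    (hr : IsPlaceReductionAlong A π p r) : r (placeInfL KQ p) = placeInfC k p := by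
  by_contra hne
  have hP : 0 < (placeInfL KQ p).ord ((xL KQ p)⁻¹ - algebraMap KQ _ (((0 : A) : KQ))) := by
    rw [ZeroMemClass.coe_zero, map_zero, sub_zero, Place.ord_inv, placeInfL_ord_xL]
    have := hp.pos
    omega
  have h1 := ord_inv_le hπ hsurj hNk hr (0 : A) (map_zero π) _ hP
  have h2 := ord_xk_neg_of_inv hπ hsurj hNk hr (0 : A) (map_zero π) _ hP
  have h3 := (poles_xk hp hπ hsurj hNk).1 _ h2 hne
  rw [ZeroMemClass.coe_zero, map_zero, sub_zero, Place.ord_inv, placeInfL_ord_xL, h3] at h1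
  have := hp.two_le
  omega

/-- The only pole of `J(q^p)` above the cusp `∞̄` is the cusp `∞`. -/
theorem eq_placeInfL_of_pole (hp : p.Prime) (hπ : ∀ a : A, ¬ IsUnit a → π a = 0)
    (hsurj : Function.Surjective π) (hNk : (p : k) ≠ 0)
    {r : Place KQ (FN p) → Place k ↥(modularFunctionFieldFullC k p)}
    (hr : IsPlaceReductionAlong A π p r) (P : Place KQ (FN p)) (hP : P.ord (xL KQ p) < 0)
    (hrP : r P = placeInfC k p) : P = placeInfL KQ p := by
  by_contra hne
  have hP0 : 0 < P.ord ((xL KQ p)⁻¹ - algebraMap KQ _ (((0 : A) : KQ))) := by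
    rw [ZeroMemClass.coe_zero, map_zero, sub_zero, Place.ord_inv]
    omega
  have hPi : 0 < (placeInfL KQ p).ord ((xL KQ p)⁻¹ - algebraMap KQ _ (((0 : A) : KQ))) := by
    rw [ZeroMemClass.coe_zero, map_zero, sub_zero, Place.ord_inv, placeInfL_ord_xL]
    have := hp.pos
    omega
  have hri := r_placeInfL hp hπ hsurj hNk hr
  have h := ord_inv_add_le hπ hsurj hNk hr (0 : A) (map_zero π) (placeInfL KQ p) P hPi hP0
    (Ne.symm hne) (by rw [hrP, hri])
  rw [hri, placeInfC_ord_xk, ZeroMemClass.coe_zero, map_zero, sub_zero, Place.ord_inv,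
    Place.ord_inv, placeInfL_ord_xL] at h
  omega

/-- **A place over `(j, j_p) = (a, b)` with `c = b / a^p` in the maximal ideal does not
specialise to the cusp `∞̄`.** -/
theorem r_ne_placeInfC (hp : p.Prime) (hπ : ∀ a : A, ¬ IsUnit a → π a = 0)
    (hsurj : Function.Surjective π) (hNk : (p : k) ≠ 0)
    {r : Place KQ (FN p) → Place k ↥(modularFunctionFieldFullC k p)}
    (hr : IsPlaceReductionAlong A π p r) (a b : KQ) (c : A) (hc : π c = 0)
    (hc0 : (c : KQ) ≠ 0) (hcab : (c : KQ) * a ^ p = b) (hb0 : b ≠ 0)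
    (x : Place KQ (FN p)) (hxa : 0 < x.ord (jBar p - algebraMap KQ (FN p) a))
    (hxb : 0 < x.ord (jN p - algebraMap KQ (FN p) b)) :
    r x ≠ placeInfC k p := by
  classical
  intro hrx
  -- the integral series `y = J(q^p) - c J(q)^p`
  set y : LaurentSeries A := TD.Jd A p - HahnSeries.C c * TD.Jd A 1 ^ p with hy
  set yL : FN p := jN p - algebraMap KQ (FN p) (c : KQ) * jBar p ^ p with hyLdef
  have hyL : coeffMap A.subtype y = ((yL : FN p) : LaurentSeries KQ) := by
    have h1 : ((jN p : FN p) : LaurentSeries KQ) = incl A (TD.Jd A p) :=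
      congrArg Subtype.val (Fermat.Agent.CAR.Ell.FrickeRed.jFormal_eq A p ⟨p, dvd_rfl⟩)
    have h2 : ((jBar p : FN p) : LaurentSeries KQ) = incl A (TD.Jd A 1) :=
      congrArg Subtype.val (Fermat.Agent.CAR.Ell.FrickeRed.jFormal_eq A p ⟨1, one_dvd p⟩)
    show incl A (TD.Jd A p - HahnSeries.C c * TD.Jd A 1 ^ p) =
      ((jN p : FN p) : LaurentSeries KQ) -
        ((algebraMap KQ (FN p) (c : KQ) : FN p) : LaurentSeries KQ) *
          ((jBar p : FN p) : LaurentSeries KQ) ^ p
    rw [map_sub, map_mul, map_pow, incl_C, h1, h2,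
      Fermat.Agent.CAR.Ell.coe_algebraMap_laurentBaseChange]
  have hyk : coeffMap π y = ((xk k p : ↥(modularFunctionFieldFullC k p)) : LaurentSeries k) := by
    show rbar A π (TD.Jd A p - HahnSeries.C c * TD.Jd A 1 ^ p) = TD.Jd k p
    rw [map_sub, map_mul, rbar_C, hc, map_zero, zero_mul, sub_zero, rbar_Jd]
  have hmemL : coeffMap A.subtype y ∈ laurentBaseChange KQ (modularFunctionFieldFull p) := by
    rw [hyL]
    exact Subtype.property _
  have hmemk : coeffMap π y ∈ modularFunctionFieldFullC k p := by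
    rw [hyk]
    exact Subtype.property _
  have heL : (⟨coeffMap A.subtype y, hmemL⟩ : FN p) = yL := Subtype.ext hyL
  have hek : (⟨coeffMap π y, hmemk⟩ : ↥(modularFunctionFieldFullC k p)) = xk k p :=
    Subtype.ext hyk
  have hne : coeffMap π y ≠ 0 := by
    rw [hyk]
    exact ValInd.Jd_ne_zero (K := k) p (NeZero.ne p)
  have hyL0 : yL ≠ 0 := by
    intro h0
    apply hne
    have h1 : incl A y = 0 := by
      show coeffMap A.subtype y = 0
      rw [hyL, h0]
      rfl
    have h2 : y = 0 := incl_injective A (by rw [h1, map_zero])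
    rw [h2, map_zero]
  -- the divisor of `y` and its push-forward at `∞̄`
  have hfinL : Module.Finite ↥(KQ⟮xL KQ p⟯) (FN p) := by
    have h := (BaseFn.Data.ofJ A π p).finite_L hπ hsurj hNk
    rwa [BaseFn.Data.ofJ_x] at h
  have hfin : {P : Place KQ (FN p) | P.ord yL ≠ 0}.Finite :=
    Fermat.Agent.Lib.FF.CharP.finite_ord_ne_zero (xL KQ p) _
  set D : Divisor KQ (FN p) := Finsupp.ofSupportFinite (fun P => P.ord yL) hfin with hD
  have hDP : ∀ P, D P = P.ord yL := fun P => rfl
  have hpush := hr.2 y hmemL hmemk hne D (fun P => by rw [hDP, heL]) (placeInfC k p)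
  rw [hek, placeInfC_ord_xk, Finsupp.mapDomain, Finsupp.sum_apply] at hpush
  simp only [Finsupp.sum, Finsupp.single_apply] at hpush
  -- the place `x`
  have hxy : 0 < x.ord yL := ord_sub_mul_pow_pos x p hxb hxa hcab hyL0
  have hxjN : x.ord (jN p) = 0 := ord_eq_zero_of_sub_pos x hb0 hxb
  have hxne : x ≠ placeInfL KQ p := by
    intro h
    rw [h, jN_eq_xL, placeInfL_ord_xL] at hxjN
    have := hp.pos
    omega
  have hlow := sum_ge_of_one_pos D.support (fun P => if r P = placeInfC k p then D P else 0)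
    (placeInfL KQ p) x (p : ℤ) (Int.natCast_nonneg p)
    (by rw [Finsupp.mem_support_iff, hDP]; omega) hxne ?_ ?_ ?_
  · rw [hpush] at hlow
    omega
  · intro P _ hPne
    show 0 ≤ ite _ _ _
    split_ifs with hrP
    · rw [hDP]
      have h1 : 0 ≤ P.ord (jN p) := by
        by_contra hneg
        exact hPne (eq_placeInfL_of_pole hp hπ hsurj hNk hr P
          (by rw [← jN_eq_xL]; omega) hrP)
      have h2 : 0 ≤ P.ord (jBar p) := by
        by_contra hneg
        have h3 := Fermat.Agent.S15P.M3.CuspDich17.ord_jFormal_prime_neg p hp dvd_rfl P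
          (by omega)
        have h4 : P.ord (jN p) < 0 := h3
        omega
      exact ord_nonneg_of_mem P (sub_mem (mem_of_ord_nonneg P h1)
        (mul_mem (P.algebraMap_mem' _) (pow_mem (mem_of_ord_nonneg P h2) p)))
    · exact le_rfl
  · show -(p : ℤ) ≤ ite _ _ _
    split_ifs
    · rw [hDP]
      have hjN0 : jN p ≠ 0 := by
        rw [jN_eq_xL]
        exact xL_ne_zero
      have hjB0 : jBar p ≠ 0 := by
        rw [jBar_eq_jL]
        exact jL_ne_zero KQ p
      have hcF : algebraMap KQ (FN p) (c : KQ) ≠ 0 := (map_ne_zero _).mpr hc0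
      have hA := ord_sub_ge (placeInfL KQ p) hjN0 (mul_ne_zero hcF (pow_ne_zero p hjB0)) hyL0
      rw [jN_eq_xL, placeInfL_ord_xL, Place.ord_mul _ hcF (pow_ne_zero p hjB0),
        Fermat.Agent.S24.ord_algebraMap, ← zpow_natCast, Place.ord_zpow,
        placeInfL_ord_jBar] at hA
      have hA' : -(p : ℤ) ≤ (placeInfL KQ p).ord (xL KQ p -
          algebraMap KQ (FN p) (c : KQ) * jBar p ^ (p : ℤ)) := by
        have e : min (-(p : ℤ)) (0 + (p : ℤ) * -1) = -(p : ℤ) := by
          rw [zero_add, mul_neg_one, min_self]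
        rw [e] at hA
        exact hA
      rw [hyLdef, jN_eq_xL, ← zpow_natCast]
      exact hA'
    · have := hp.pos
      omega
  · show 1 ≤ ite _ _ _
    rw [if_pos hrx, hDP]
    omega

/-- **Uniqueness, Fricke-transported form.** At most one place lies over `(j, j_p) = (a, b)`
when `1/b` and `c = b / a^p` are in the maximal ideal of `A`. -/
theorem unique_core (hp : p.Prime) (hπ : ∀ a : A, ¬ IsUnit a → π a = 0)
    (hsurj : Function.Surjective π) (hNk : (p : k) ≠ 0)
    {r : Place KQ (FN p) → Place k ↥(modularFunctionFieldFullC k p)}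
    (hr : IsPlaceReductionAlong A π p r) (a b : KQ) (c z : A) (hc : π c = 0) (hz : π z = 0)
    (hcab : (c : KQ) * a ^ p = b) (hzb : (z : KQ) = b⁻¹) (hb0 : b ≠ 0)
    (x x' : Place KQ (FN p))
    (hxa : 0 < x.ord (jBar p - algebraMap KQ (FN p) a))
    (hxb : 0 < x.ord (jN p - algebraMap KQ (FN p) b))
    (hxa' : 0 < x'.ord (jBar p - algebraMap KQ (FN p) a))
    (hxb' : 0 < x'.ord (jN p - algebraMap KQ (FN p) b)) : x = x' := by
  have hc0 : (c : KQ) ≠ 0 := by
    intro h
    rw [h, zero_mul] at hcab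
    exact hb0 hcab.symm
  have hx1 : 0 < x.ord ((xL KQ p)⁻¹ - algebraMap KQ _ (z : KQ)) := by
    rw [hzb, ← jN_eq_xL, ord_inv_sub_inv x hb0 hxb]
    exact hxb
  have hx1' : 0 < x'.ord ((xL KQ p)⁻¹ - algebraMap KQ _ (z : KQ)) := by
    rw [hzb, ← jN_eq_xL, ord_inv_sub_inv x' hb0 hxb']
    exact hxb'
  have hQ := ord_xk_neg_of_inv hπ hsurj hNk hr z hz x hx1
  have hQ' := ord_xk_neg_of_inv hπ hsurj hNk hr z hz x' hx1'
  have hne := r_ne_placeInfC hp hπ hsurj hNk hr a b c hc hc0 hcab hb0 x hxa hxb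
  have hne' := r_ne_placeInfC hp hπ hsurj hNk hr a b c hc hc0 hcab hb0 x' hxa' hxb'
  obtain ⟨hs1, hs2⟩ := poles_xk hp hπ hsurj hNk
  have hQQ : r x' = r x := hs2 _ _ hQ' hQ hne' hne
  by_contra hxx
  have h := ord_inv_add_le hπ hsurj hNk hr z hz x x' hx1 hx1' hxx hQQ
  rw [hs1 _ hQ hne] at h
  have h2 := le_trans (add_le_add (Int.add_one_le_of_lt hx1) (Int.add_one_le_of_lt hx1')) h
  omega

end Core

/-! ### The statement (M3c) -/

set_option synthInstance.maxHeartbeats 400000 in
set_option maxHeartbeats 1000000 in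
/-- **(M3c): uniqueness of the place of type `∞`.**  `p` prime, `ℓ ≥ 5` prime, `ℓ ≠ p`, `A` a
valuation ring of `ℚ̄` over `ℓ`, `b ∉ A`, `|a / b^p| = 1`: at most one place of the function
field of `X₀(p)` over `ℚ̄` lies over `(j, j_p) = (b, a)`.
(`jFormal p ⟨d, hd⟩` is `j(q^d)`; it is definitionally the `jd p d hd` of the (M) literals.) -/
theorem place_unique_of_type_inf {p ℓ : ℕ} [NeZero p] (hp : p.Prime) (hℓ : ℓ.Prime) (hℓp : ℓ ≠ p)
    (h5 : 5 ≤ ℓ) (A : ValuationSubring (AlgebraicClosure ℚ)) (hA : A.LiesOverPrime ℓ)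
    (b a : AlgebraicClosure ℚ) (hb : b ∉ A) (hu : A.valuation (a / b ^ p) = 1)
    (x x' : Place (AlgebraicClosure ℚ) (modularFunctionFieldBar p))
    (hxb : 0 < x.ord (jFormal p ⟨1, one_dvd p⟩ -
      algebraMap (AlgebraicClosure ℚ) (modularFunctionFieldBar p) b))
    (hxa : 0 < x.ord (jFormal p ⟨p, dvd_rfl⟩ -
      algebraMap (AlgebraicClosure ℚ) (modularFunctionFieldBar p) a))
    (hxb' : 0 < x'.ord (jFormal p ⟨1, one_dvd p⟩ -
      algebraMap (AlgebraicClosure ℚ) (modularFunctionFieldBar p) b))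
    (hxa' : 0 < x'.ord (jFormal p ⟨p, dvd_rfl⟩ -
      algebraMap (AlgebraicClosure ℚ) (modularFunctionFieldBar p) a)) :
    x = x' := by
  have : IsAlgClosed (IsLocalRing.ResidueField A) :=
    Fermat.Agent.Lib.FF.CharP.isAlgClosed_residueField A
  have hℓp' : ¬ ℓ ∣ p := fun h => hℓp ((Nat.prime_dvd_prime_iff_eq hℓ hp).mp h)
  have hNk : (p : IsLocalRing.ResidueField A) ≠ 0 :=
    Fermat.Agent.ESJ.natCast_residue_ne_zero' A hℓ hA p hℓp'
  have hπ := Fermat.Agent.ESJ.residue_eq_zero_of_not_isUnit' A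
  have hsurj : Function.Surjective (IsLocalRing.residue A) := IsLocalRing.residue_surjective
  obtain ⟨ρ, hρ, -⟩ := Fermat.Agent.ESJ.reductionInputsModL_good p ℓ hℓ hℓp' (Or.inl h5) A hA
  -- the valuations
  have hb0 : b ≠ 0 := fun h => hb (h ▸ A.zero_mem)
  have hvb : 1 < A.valuation b := by
    rw [← not_le, A.valuation_le_one_iff]
    exact hb
  have hvb0 : 0 < A.valuation b := lt_trans zero_lt_one hvb
  have ha0 : a ≠ 0 := by
    rintro rfl
    rw [zero_div, map_zero] at hu
    exact zero_ne_one hu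
  have hva : A.valuation a = A.valuation b ^ p := by
    rw [map_div₀, map_pow] at hu
    exact (div_eq_one_iff_eq (pow_ne_zero p hvb0.ne')).mp hu
  have hvc : A.valuation (b / a ^ p) < 1 := by
    rw [map_div₀, map_pow, hva, ← pow_mul, div_lt_one₀ (pow_pos hvb0 _)]
    exact lt_self_pow₀ hvb (by nlinarith [hp.two_le])
  have hvz : A.valuation b⁻¹ < 1 := by
    rw [map_inv₀]
    exact inv_lt_one_of_one_lt₀ hvb
  let c : A := ⟨b / a ^ p, (A.valuation_le_one_iff _).mp hvc.le⟩
  let z : A := ⟨b⁻¹, (A.valuation_le_one_iff _).mp hvz.le⟩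
  have hc : IsLocalRing.residue A c = 0 := hπ c (fun hunit =>
    (ne_of_lt hvc) ((A.valuation_eq_one_iff c).mp hunit))
  have hz : IsLocalRing.residue A z = 0 := hπ z (fun hunit =>
    (ne_of_lt hvz) ((A.valuation_eq_one_iff z).mp hunit))
  have hcab : (c : AlgebraicClosure ℚ) * a ^ p = b := div_mul_cancel₀ b (pow_ne_zero p ha0)
  -- the Fricke involution exchanges `j` and `j_p`
  have key := unique_core hp hπ hsurj hNk hρ a b c z hc hz hcab rfl hb0
    (Fermat.Agent.S24.Fricke.fricke p • x) (Fermat.Agent.S24.Fricke.fricke p • x') ?_ ?_ ?_ ?_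
  · exact smul_left_cancel _ key
  · rw [Fermat.Agent.S24.Fricke.ord_fricke_smul, map_sub,
      Fermat.Agent.S24.Fricke.fricke_jBar_eq_jN, AlgEquiv.commutes]
    exact hxa
  · rw [Fermat.Agent.S24.Fricke.ord_fricke_smul, map_sub, Fermat.Agent.S24.Fricke.fricke_jN,
      AlgEquiv.commutes]
    exact hxb
  · rw [Fermat.Agent.S24.Fricke.ord_fricke_smul, map_sub,
      Fermat.Agent.S24.Fricke.fricke_jBar_eq_jN, AlgEquiv.commutes]
    exact hxa'
  · rw [Fermat.Agent.S24.Fricke.ord_fricke_smul, map_sub, Fermat.Agent.S24.Fricke.fricke_jN,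
      AlgEquiv.commutes]
    exact hxb'

end

end Fermat.Agent.S15P.M3.Unique11
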