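/-
S15 (M3b), helper9: **a place of `X₀(M)` over a non-integral `j`-invariant reduces to a cusp, and
the type of the cusp is read off `a / b ^ p`.**

Literal of the S15 cell (helper6, `S15P/M6/Stmt.lean`, `place_reduction_cusp`) with the three
hypotheses it needs: `p.Prime`, `ℓ.Prime`, `¬ ℓ ∣ M`.

`jd9 M d hd = J(q^d) ∈ ℚ̄·F_M` and `jbar9 k M d hd = J̄(q^d)` are verbatim the `jd` / `jbar` of the
statement file (same bodies), so the statement-file literal follows by `exact`.
-/
import Mathlib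
import Fermat.Agent.S28.ModEqX.Main
import Fermat.Agent.S28.Char0Bridge
import Fermat.Agent.Lib.FF.CharP.ModLInst
import Fermat.Agent.S15P.M3.Cusp9.Core
import Fermat.Prelude.Def_ModularCurve_ReductionModL

set_option autoImplicit false
set_option synthInstance.maxHeartbeats 400000
set_option linter.style.haveILetI false

namespace Fermat.Agent.S15P.M3.Cusp9

open ModularCurve AlgebraicCurve Fermat.Agent.S24 Fermat.Agent.S28 Fermat.Agent.Lib.Red
open Fermat.Agent.Lib.FF.ModL Fermat.Agent.CAR.Ell.FrickeRed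

noncomputable section

/-- the function `j(q^d)` on `X₀(N)`, `d ∣ N`. -/
def jd9 (N d : ℕ) [NeZero d] (hd : d ∣ N) : modularFunctionFieldBar N :=
  ⟨coeffEmb (AlgebraicClosure ℚ) (qExpand ℚ d jq),
    coeffEmb_mem_laurentBaseChange (AlgebraicClosure ℚ) (jqd_mem_full N hd)⟩

/-- the function `j̄(q^d)` on the reduction. -/
def jbar9 (k : Type*) [Field k] (N d : ℕ) [NeZero d] (hd : d ∣ N) :
    modularFunctionFieldFullC k N :=
  ⟨qExpand k d (jqModC k), jqModCd_mem_full k N hd⟩

/-- **(M3b)** a place over a non-integral `b` reduces to a cusp; which one is read off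
`a / b ^ p`. -/
theorem place_reduction_cusp {M p ℓ : ℕ} [NeZero M] [NeZero p] (hp : p.Prime) (hℓ : ℓ.Prime)
    (hℓM : ¬ ℓ ∣ M) (hpM : p ∣ M)
    (A : ValuationSubring (AlgebraicClosure ℚ)) (hA : A.LiesOverPrime ℓ)
    (h : ReductionInputsModL A M)
    (x : Place (AlgebraicClosure ℚ) (modularFunctionFieldBar M)) (b a : AlgebraicClosure ℚ)
    (hb : b ∉ A)
    (hxb : 0 < x.ord (jd9 M 1 (one_dvd M) -
      algebraMap (AlgebraicClosure ℚ) (modularFunctionFieldBar M) b))
    (hxa : 0 < x.ord (jd9 M p hpM -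
      algebraMap (AlgebraicClosure ℚ) (modularFunctionFieldBar M) a)) :
    (placeReductionModL h x).ord (jbar9 _ M 1 (one_dvd M)) < 0 ∧
    (A.valuation (a / b ^ p) = 1 →
      (placeReductionModL h x).ord (jbar9 _ M p hpM) =
        p * (placeReductionModL h x).ord (jbar9 _ M 1 (one_dvd M))) ∧
    (A.valuation (a / b ^ p) < 1 →
      (placeReductionModL h x).ord (jbar9 _ M 1 (one_dvd M)) =
        p * (placeReductionModL h x).ord (jbar9 _ M p hpM)) := by
  obtain ⟨m, rfl⟩ := hpM
  haveI : NeZero m := ⟨fun hm => NeZero.ne (p * m) (by rw [hm, mul_zero])⟩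
  haveI : IsAlgClosed (IsLocalRing.ResidueField A) :=
    Fermat.Agent.Lib.FF.CharP.isAlgClosed_residueField A
  have hNk : ((p * m : ℕ) : IsLocalRing.ResidueField A) ≠ 0 :=
    Fermat.Agent.ESJ.natCast_residue_ne_zero' A hℓ hA (p * m) hℓM
  have hπ := Fermat.Agent.ESJ.residue_eq_zero_of_not_isUnit' A
  have hsurj : Function.Surjective (IsLocalRing.residue A) := IsLocalRing.residue_surjective
  have hr : IsPlaceReductionAlong A (IsLocalRing.residue A) (p * m) (placeReductionModL h) :=
    isPlaceReductionModL_placeReductionModL h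
  obtain ⟨D0⟩ := Fermat.Agent.S28.ModEqX.exists_modEqData p hp
  have hxb' : 0 < x.ord (jBar (p * m) - algebraMap KQ (FN (p * m)) b) := hxb
  have hxa' : 0 < x.ord (jFormal (p * m) ⟨p, dvd_mul_right p m⟩ -
      algebraMap KQ (FN (p * m)) a) := hxa
  have eJb : jbar9 (IsLocalRing.ResidueField A) (p * m) 1 (one_dvd (p * m)) =
      Jbar (IsLocalRing.ResidueField A) (p * m) := Subtype.ext (qExpand_one_apply _)
  have eJpb : jbar9 (IsLocalRing.ResidueField A) (p * m) p (Dvd.intro m rfl) =
      Jdk (IsLocalRing.ResidueField A) (p * m) (dvd_mul_right p m) :=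
    Subtype.ext (TD.Jd_eq (IsLocalRing.ResidueField A) p).symm
  rw [eJb, eJpb]
  have hQ := red_neg_of_nonint hπ hsurj hNk hr x b hb hxb'
  exact ⟨hQ,
    cusp_unit p m hp (Char0Bridge.modEqDataToTD D0) hπ hsurj hNk hr x b a hb hxb' hxa' hQ,
    cusp_zero p m hp (Char0Bridge.modEqDataToTD D0) hπ hsurj hNk hr x b a hb hxb' hxa' hQ⟩

end

end Fermat.Agent.S15P.M3.Cusp9
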