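/-
S15 cell, brick (M3b), sub-lemma (D2) (helper89): the VALUE of `u = j_p / j ^ p` at the cusps of
`X₀(M)` in characteristic `0` (`p ∣ M` prime, `j_p = j(q^p)`).

* `jp_sub_pow_ne_zero` : `j_p ≠ j ^ p` (so `u ≠ 1`);
* `ord_u_sub_one_pos` : at a cusp of type `∞` (`ord_v j_p = p * ord_v j`), `u - 1` vanishes;
* `ord_u_eq_zero` : at a cusp of type `∞`, `ord_v u = 0`;
* `ord_u_pos` : at a cusp of type `0` (`ord_v j = p * ord_v j_p`), `u` vanishes.

The dichotomy itself (every pole of `j` is of type `∞` or of type `0`) is helper17's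
`CuspDich17.cusp_dichotomy` (on main).

Proof of the first two: at a cusp `g⁻¹∞` of type `∞` the Hermite normal form of `p g⁻¹` is
`(p, 0, 1)`, so `j_p ∘ g⁻¹ = j_p`, and `q^p (j(pτ) - j(τ)^p) → 1 - 1 = 0`; at the cusp `S∞ = 0`
the orders of `j_p` and `j^p` differ.
-/
import Mathlib
import Fermat.Agent.S24.PlaceDict
import Fermat.Agent.S24.CuspTop
import Fermat.Agent.S24.HNFMod
import Fermat.Agent.S24.ValPt
import Fermat.Agent.S15P.M3.CuspDich17

set_option autoImplicit false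

open UpperHalfPlane AlgebraicCurve Filter Topology
open scoped MatrixGroups

namespace Fermat.Agent.S15P.M3.CuspVal89

open Fermat.Agent.S24

local notation "𝕢" => Function.Periodic.qParam

/-- The polynomial `X_p - X_1 ^ p` representing `j_p - j ^ p`. -/
noncomputable def uPoly (M p : ℕ) (hpM : p ∣ M) : MvPolynomial (Dv M) KQ :=
  MvPolynomial.X (⟨p, hpM⟩ : Dv M) - MvPolynomial.X (⟨1, one_dvd M⟩ : Dv M) ^ p

theorem fm_uPoly (M p : ℕ) [NeZero M] (hpM : p ∣ M) :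
    fm M (uPoly M p hpM) = jFormal M ⟨p, hpM⟩ - jBar M ^ p := by
  unfold uPoly
  rw [map_sub, map_pow, CuspTop.fm_X, CuspTop.fm_X]
  rfl

theorem ev_uPoly (M p : ℕ) (hpM : p ∣ M) :
    ev M (uPoly M p hpM) = Jabd p 0 1 - Jfun ^ p := by
  unfold uPoly
  rw [map_sub, map_pow, CuspTop.ev_X, CuspTop.ev_X]
  have h1 : Jabd 1 0 1 = Jfun := funext CuspTop.Jabd_one
  show Jabd p 0 1 - Jabd 1 0 1 ^ p = _
  rw [h1]

theorem trans_sub_pow (g : SL(2, ℤ)) (p : ℕ) (G : ℍ → ℂ) :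
    trans g (G - Jfun ^ p) = trans g G - Jfun ^ p := by
  funext z
  show G (g⁻¹ • z) - Jfun (g⁻¹ • z) ^ p = G (g⁻¹ • z) - Jfun z ^ p
  rw [CuspTop.Jfun_smul]

/-- `j_p ≠ j ^ p` in `F_M`. -/
theorem jp_sub_pow_ne_zero {M p : ℕ} [NeZero M] (hp : p.Prime) (hpM : p ∣ M) :
    jFormal M ⟨p, hpM⟩ - jBar M ^ p ≠ 0 := by
  intro h
  have hM : 0 < M := Nat.pos_of_ne_zero (NeZero.ne M)
  have h0 : fm M (uPoly M p hpM) = 0 := by rw [fm_uPoly]; exact h
  have h1 := (ValPt.fm_eq_zero_iff M _).1 h0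
  rw [ev_uPoly, sub_eq_zero] at h1
  -- at the cusp `S∞`
  obtain ⟨a, b, e, hae, -, ha, he, hgcd, htr⟩ :=
    HNFMod.trans_Jabd (ModularGroup.S⁻¹ : SL(2, ℤ)) p hp.pos
  rw [inv_inv] at hgcd
  have hS0 : (ModularGroup.S : SL(2, ℤ)) 0 0 = 0 := by
    rw [ModularGroup.coe_S]; rfl
  have hS1 : (ModularGroup.S : SL(2, ℤ)) 1 0 = 1 := by
    rw [ModularGroup.coe_S]; rfl
  rw [hS0, hS1, mul_zero] at hgcd
  have ha1 : a = 1 := by rw [hgcd]; simp
  subst ha1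
  rw [one_mul] at hae
  subst hae
  have hdvd : e ∣ M := hpM
  have hL : OrdInf.HasOrdInf M (Jabd 1 b e) (-((1 * (M / e) : ℕ) : ℤ)) :=
    CuspTop.hasOrd_Jabd M 1 b e hM one_pos he hdvd
  have hR : OrdInf.HasOrdInf M (Jfun ^ e) ((e : ℤ) * (-(M : ℤ))) :=
    OrdInf.HasOrdInf.pow (CuspTop.hasOrd_Jfun M hM) e
  have htr' : trans (ModularGroup.S⁻¹ : SL(2, ℤ)) (Jfun ^ e) = Jfun ^ e := by
    funext z
    show Jfun (_ • z) ^ e = Jfun z ^ e
    rw [CuspTop.Jfun_smul]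
  rw [h1, htr'] at htr
  rw [htr] at hR
  have huniq := OrdInf.HasOrdInf.unique hM hL hR
  obtain ⟨k, hk⟩ := hdvd
  have hk' : M / e = k := by rw [hk]; exact Nat.mul_div_cancel_left k he
  rw [hk', one_mul] at huniq
  have hMk : ((M : ℕ) : ℤ) = (e : ℤ) * (k : ℤ) := by exact_mod_cast hk
  have hk0 : 0 < k := by
    rcases Nat.eq_zero_or_pos k with h0 | h0
    · rw [h0, mul_zero] at hk; omega
    · exact h0
  have he2 : 2 ≤ e := hp.two_le
  have hkz : (0 : ℤ) < (k : ℤ) := by exact_mod_cast hk0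
  have hez : (2 : ℤ) ≤ (e : ℤ) := by exact_mod_cast he2
  rw [hMk] at huniq
  nlinarith [mul_pos hkz hkz, mul_le_mul_of_nonneg_right hez hkz.le,
    mul_le_mul_of_nonneg_right hez (mul_nonneg (by positivity : (0:ℤ) ≤ e) hkz.le)]

/-- Hermite normal form of `d g⁻¹` together with the cusp valuation of `j(q^d)`. -/
theorem trans_Jabd_valCusp (N : ℕ) [NeZero N] (d : Dv N) (g : SL(2, ℤ)) :
    ∃ a b e : ℕ, a * e = d.1 ∧ b < e ∧ 0 < a ∧ 0 < e ∧ e ∣ N ∧
      trans g (Jabd d.1 0 1) = Jabd a b e ∧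
      valCusp N g (jFormal N d) = -((a * (N / e) : ℕ) : ℤ) := by
  have hN : 0 < N := Nat.pos_of_ne_zero (NeZero.ne N)
  have hd : 0 < d.1 := Nat.pos_of_ne_zero d.neZero.ne
  have hrep : IsRep N (jFormal N d) (MvPolynomial.X d) 1 := by
    refine ⟨?_, ?_⟩
    · rw [map_one]
      exact one_ne_zero
    · rw [map_one, div_one, CuspTop.fm_X]
  obtain ⟨a, b, e, hae, hbe, ha, he, -, htr⟩ := HNFMod.trans_Jabd g d.1 hd
  have hdvd : e ∣ N := (Dvd.intro_left a hae).trans d.2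
  refine ⟨a, b, e, hae, hbe, ha, he, hdvd, htr, ?_⟩
  have h1 : trans g (1 : ℍ → ℂ) = fun _ => (1 : ℂ) := rfl
  rw [CuspTop.valCusp_eq N hrep (CuspDich17.jFormal_ne_zero N d) g, map_one, CuspTop.ev_X, h1, htr,
    CuspTop.ordInf_const N hN 1 one_ne_zero, CuspTop.ordInf_Jabd N a b e hN ha he hdvd, sub_zero]

/-- `q^p (j(pτ) - j(τ)^p) → 0` at `i∞`. -/
theorem tendsto_qParam_pow_mul_sub (M p : ℕ) (hM : 0 < M) (hp : 0 < p) :
    Tendsto (fun z : ℍ => 𝕢 (M : ℝ) z ^ (p * M) * (Jabd p 0 1 z - Jfun z ^ p)) atImInfty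
      (𝓝 0) := by
  have h1 := CuspTop.tendsto_qParam_pow_mul_Jabd M p 0 1 hM hp one_pos (one_dvd M)
  have h2 := (CuspTop.tendsto_qParam_pow_mul_Jabd M 1 0 1 hM one_pos one_pos (one_dvd M)).pow p
  have h3 := h1.sub h2
  have hc : Complex.exp (-(2 * (Real.pi : ℂ) * Complex.I * ((0 : ℕ) : ℂ) / ((1 : ℕ) : ℂ))) = 1 := by
    simp
  rw [hc, one_pow, sub_self] at h3
  refine h3.congr fun z => ?_
  rw [CuspTop.Jabd_one, Nat.div_one, one_mul, mul_pow, ← pow_mul, mul_sub, mul_comm M p]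

/-- At a cusp of type `∞`, `j_p - j ^ p` has valuation `> p * val(j)`. -/
theorem valCusp_sub_pow_gt {M p : ℕ} [NeZero M] (hp : p.Prime) (hpM : p ∣ M) (g : SL(2, ℤ))
    (htype : valCusp M g (jFormal M ⟨p, hpM⟩) = p * valCusp M g (jBar M)) :
    (p : ℤ) * valCusp M g (jBar M) < valCusp M g (jFormal M ⟨p, hpM⟩ - jBar M ^ p) := by
  have hM : 0 < M := Nat.pos_of_ne_zero (NeZero.ne M)
  obtain ⟨a, b, e, hae, hbe, ha, he, hedvd, htr, hval⟩ := trans_Jabd_valCusp M ⟨p, hpM⟩ g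
  rw [CuspDich17.valCusp_jBar] at htype ⊢
  rw [hval] at htype
  -- `(a, e) = (p, 1)`
  have he1 : e = 1 := by
    rcases (Nat.dvd_prime hp).1 (Dvd.intro e hae) with h | h
    · exfalso
      subst h
      rw [one_mul] at hae
      subst hae
      obtain ⟨k, hk⟩ := hedvd
      have hk' : M / e = k := by rw [hk]; exact Nat.mul_div_cancel_left k he
      rw [hk', one_mul] at htype
      have hMk : ((M : ℕ) : ℤ) = (e : ℤ) * (k : ℤ) := by exact_mod_cast hk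
      have hk0 : 0 < k := by
        rcases Nat.eq_zero_or_pos k with h0 | h0
        · rw [h0, mul_zero] at hk; omega
        · exact h0
      have hkz : (0 : ℤ) < (k : ℤ) := by exact_mod_cast hk0
      have hez : (2 : ℤ) ≤ (e : ℤ) := by exact_mod_cast hp.two_le
      rw [hMk] at htype
      nlinarith [mul_pos hkz hkz, mul_le_mul_of_nonneg_right hez hkz.le,
        mul_le_mul_of_nonneg_right hez (mul_nonneg (by positivity : (0:ℤ) ≤ e) hkz.le)]
    · subst h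
      have h2 : a * e = a * 1 := by rw [mul_one]; exact hae
      exact Nat.eq_of_mul_eq_mul_left ha h2
  subst he1
  have hb0 : b = 0 := by omega
  subst hb0
  rw [mul_one] at hae
  subst hae
  -- the representative
  have hne : jFormal M ⟨a, hpM⟩ - jBar M ^ a ≠ 0 := jp_sub_pow_ne_zero hp hpM
  have hfm : fm M (uPoly M a hpM) ≠ 0 := by rw [fm_uPoly]; exact hne
  have hrep : IsRep M (jFormal M ⟨a, hpM⟩ - jBar M ^ a) (uPoly M a hpM) 1 := by
    refine ⟨?_, ?_⟩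
    · rw [map_one]
      exact one_ne_zero
    · rw [map_one, div_one, fm_uPoly]
  obtain ⟨m, hm⟩ := CuspTop.exists_hasOrdInf_trans_ev M g (uPoly M a hpM) hfm
  have h1 : trans g (1 : ℍ → ℂ) = fun _ => (1 : ℂ) := rfl
  rw [CuspTop.valCusp_eq M hrep hne g, map_one, h1, CuspTop.ordInf_const M hM 1 one_ne_zero,
    sub_zero, hm.ordInf_eq hM]
  rw [ev_uPoly, trans_sub_pow, htr] at hm
  -- `m > -(a M)`
  by_contra hle
  rw [not_lt] at hle
  have hT := tendsto_qParam_pow_mul_sub M a hM ha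
  obtain ⟨c, hc, ht⟩ := hm
  apply hc
  have hk : (0 : ℤ) ≤ -m - ((a * M : ℕ) : ℤ) := by
    push_cast
    linarith
  obtain ⟨n, hn⟩ := Int.eq_ofNat_of_zero_le hk
  have hbd : Tendsto (fun z : ℍ => 𝕢 (M : ℝ) z ^ n) atImInfty (𝓝 ((0 : ℂ) ^ n)) :=
    (UpperHalfPlane.qParam_tendsto_atImInfty (h := (M : ℝ)) (by exact_mod_cast hM)).pow n
  have h2 := hbd.mul hT
  rw [mul_zero] at h2
  refine tendsto_nhds_unique ht (h2.congr fun z => ?_)
  have hq : 𝕢 (M : ℝ) (z : ℂ) ≠ 0 := Function.Periodic.qParam_ne_zero _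
  have e1 : -m = (n : ℤ) + ((a * M : ℕ) : ℤ) := by omega
  rw [e1, zpow_add₀ hq, zpow_natCast, zpow_natCast, mul_assoc]
  rfl

/-- At a pole `v` of `j` of type `∞`, `ord_v (j_p - j ^ p) > p * ord_v j = ord_v (j ^ p)`. -/
theorem ord_sub_pow_gt {M p : ℕ} [NeZero M] (hp : p.Prime) (hpM : p ∣ M)
    (v : Place KQ (FN M)) (hv : v.ord (jBar M) < 0)
    (htype : v.ord (jFormal M ⟨p, hpM⟩) = p * v.ord (jBar M)) :
    (p : ℤ) * v.ord (jBar M) < v.ord (jFormal M ⟨p, hpM⟩ - jBar M ^ p) := by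
  obtain ⟨x, rfl⟩ := PlaceDict.exists_placeCusp_of_ord_neg M v hv
  set g : SL(2, ℤ) := x.out with hg
  have hmul : 0 < PlaceDict.mulCusp M g := PlaceDict.mulCusp_pos M g
  have hmz : (0 : ℤ) < (PlaceDict.mulCusp M g : ℤ) := by exact_mod_cast hmul
  have hj : jBar M ≠ 0 := CuspDich17.jFormal_ne_zero M ⟨1, one_dvd M⟩
  have hne : jFormal M ⟨p, hpM⟩ - jBar M ^ p ≠ 0 := jp_sub_pow_ne_zero hp hpM
  have h1 := PlaceDict.valCusp_eq_mul_ord M g hj
  have h2 := PlaceDict.valCusp_eq_mul_ord M g (CuspDich17.jFormal_ne_zero M ⟨p, hpM⟩)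
  have h3 := PlaceDict.valCusp_eq_mul_ord M g hne
  have htype' : valCusp M g (jFormal M ⟨p, hpM⟩) = p * valCusp M g (jBar M) := by
    rw [h1, h2, htype]
    ring
  have hgt := valCusp_sub_pow_gt hp hpM g htype'
  rw [h1, h3] at hgt
  by_contra hle
  rw [not_lt] at hle
  have := mul_le_mul_of_nonneg_left hle hmz.le
  linarith

/-- **Type `∞` ⟹ `u(v) = 1`**: at a pole `v` of `j` with `ord_v j_p = p * ord_v j`, the function
`u - 1 = j_p / j ^ p - 1` vanishes. -/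
theorem ord_u_sub_one_pos {M p : ℕ} [NeZero M] (hp : p.Prime) (hpM : p ∣ M)
    (v : Place KQ (FN M)) (hv : v.ord (jBar M) < 0)
    (htype : v.ord (jFormal M ⟨p, hpM⟩) = p * v.ord (jBar M)) :
    0 < v.ord (jFormal M ⟨p, hpM⟩ / jBar M ^ p - 1) := by
  have hj : jBar M ≠ 0 := CuspDich17.jFormal_ne_zero M ⟨1, one_dvd M⟩
  have hjp : jBar M ^ p ≠ 0 := pow_ne_zero p hj
  have hne : jFormal M ⟨p, hpM⟩ - jBar M ^ p ≠ 0 := jp_sub_pow_ne_zero hp hpM
  have hgt := ord_sub_pow_gt hp hpM v hv htype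
  have e1 : jFormal M ⟨p, hpM⟩ / jBar M ^ p - 1 =
      (jFormal M ⟨p, hpM⟩ - jBar M ^ p) * (jBar M ^ p)⁻¹ := by
    field_simp
  have e2 : v.ord (jBar M ^ p) = p * v.ord (jBar M) := by
    rw [← zpow_natCast, Place.ord_zpow]
  rw [e1, Place.ord_mul _ hne (inv_ne_zero hjp), Place.ord_inv, e2]
  linarith

/-- **Type `∞` ⟹ `ord_v u = 0`.** -/
theorem ord_u_eq_zero {M p : ℕ} [NeZero M] (hpM : p ∣ M)
    (v : Place KQ (FN M))
    (htype : v.ord (jFormal M ⟨p, hpM⟩) = p * v.ord (jBar M)) :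
    v.ord (jFormal M ⟨p, hpM⟩ / jBar M ^ p) = 0 := by
  have hj : jBar M ≠ 0 := CuspDich17.jFormal_ne_zero M ⟨1, one_dvd M⟩
  have hjp : jBar M ^ p ≠ 0 := pow_ne_zero p hj
  have e2 : v.ord (jBar M ^ p) = p * v.ord (jBar M) := by
    rw [← zpow_natCast, Place.ord_zpow]
  rw [div_eq_mul_inv, Place.ord_mul _ (CuspDich17.jFormal_ne_zero M ⟨p, hpM⟩) (inv_ne_zero hjp),
    Place.ord_inv, e2, htype]
  ring

/-- **Type `0` ⟹ `u(v) = 0`**: at a pole `v` of `j` with `ord_v j = p * ord_v j_p`, the function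
`u = j_p / j ^ p` vanishes. -/
theorem ord_u_pos {M p : ℕ} [NeZero M] (hp : p.Prime) (hpM : p ∣ M)
    (v : Place KQ (FN M)) (hv : v.ord (jBar M) < 0)
    (htype : v.ord (jBar M) = p * v.ord (jFormal M ⟨p, hpM⟩)) :
    0 < v.ord (jFormal M ⟨p, hpM⟩ / jBar M ^ p) := by
  have hj : jBar M ≠ 0 := CuspDich17.jFormal_ne_zero M ⟨1, one_dvd M⟩
  have hjp : jBar M ^ p ≠ 0 := pow_ne_zero p hj
  have e2 : v.ord (jBar M ^ p) = p * v.ord (jBar M) := by
    rw [← zpow_natCast, Place.ord_zpow]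
  rw [div_eq_mul_inv, Place.ord_mul _ (CuspDich17.jFormal_ne_zero M ⟨p, hpM⟩) (inv_ne_zero hjp),
    Place.ord_inv, e2]
  have hp2 : (2 : ℤ) ≤ (p : ℤ) := by exact_mod_cast hp.two_le
  have hneg : v.ord (jFormal M ⟨p, hpM⟩) < 0 := by
    by_contra hle
    rw [not_lt] at hle
    have : (0 : ℤ) ≤ p * v.ord (jFormal M ⟨p, hpM⟩) := mul_nonneg (by positivity) hle
    omega
  nlinarith [mul_pos_of_neg_of_neg hneg hneg]

end Fermat.Agent.S15P.M3.CuspVal89
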