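/-
S15 cell, brick (M3a) (helper31): a place of the modular function field over prescribed values.

* `aeval_eq_zero_of_rat` : descent of polynomial relations.  If `c : ι → L` satisfies every
  `ℚ`-polynomial relation of a family `g : ι → ℚ((q))`, then it satisfies every `L`-polynomial
  relation of the base-changed family `coeffEmb L (g i) : L((q))`  (a `ℚ`-basis of `L` applied
  coefficientwise; no tensor products).
* `exists_place_of_values` : for a family `g` in `modularFunctionFieldFull N` and values
  `c : ι → ℚ̄` satisfying every `ℚ`-relation of `g`, there is a place of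
  `ℚ̄(j(q^d) : d ∣ N)` at which every non-constant `ĝ i - c i` has positive order.
  (Chevalley's place extension `S27P/GR/PlaceExt` + `Lib/FF/Holo.placeOfValuationSubring`.)
* `exists_place_of_pair` : the literal (M3a): a place over `(j, j_p) = (b, a)`.
-/
import Mathlib
import Fermat.Agent.S27P.GR.PlaceExt
import Fermat.Agent.Lib.FF.Holo
import Fermat.Agent.S24.DegTop

set_option autoImplicit false

noncomputable section

namespace Fermat.Agent.S15P.M3.Place31

open AlgebraicCurve ModularCurve

section Descent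

variable {L : Type*} [Field L] [Algebra ℚ L] {ι : Type*}

/-- The coefficients of `algebraMap r * y`. -/
theorem coeff_algebraMap_mul {K : Type*} [Field K] (r : K) (y : LaurentSeries K) (n : ℤ) :
    (algebraMap K (LaurentSeries K) r * y).coeff n = r * y.coeff n := by
  rw [algebraMap_laurentSeries_eq_single]
  exact HahnSeries.coeff_single_zero_mul

/-- The coefficients of `algebraMap c * coeffEmb y`. -/
theorem coeff_algebraMap_mul_coeffEmb (c : L) (y : LaurentSeries ℚ) (n : ℤ) :
    (algebraMap L (LaurentSeries L) c * coeffEmb L y).coeff n = c * algebraMap ℚ L (y.coeff n) := by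
  rw [coeff_algebraMap_mul, coeffEmb_coeff]

/-- **Descent of relations**: a point satisfying all `ℚ`-relations of `g` satisfies all
`L`-relations of the base change of `g`. -/
theorem aeval_eq_zero_of_rat (g : ι → LaurentSeries ℚ) (c : ι → L)
    (h : ∀ P : MvPolynomial ι ℚ, MvPolynomial.aeval g P = 0 → MvPolynomial.aeval c P = 0)
    (P : MvPolynomial ι L)
    (hP : MvPolynomial.aeval (fun i => coeffEmb L (g i)) P = 0) :
    MvPolynomial.aeval c P = 0 := by
  classical
  -- monomials
  set mon : (ι →₀ ℕ) → LaurentSeries ℚ := fun m => m.prod fun i k => g i ^ k with hmon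
  set μ : (ι →₀ ℕ) → L := fun m => m.prod fun i k => c i ^ k with hμ
  -- the twist of `P` by a `ℚ`-linear functional
  set tw : (L →ₗ[ℚ] ℚ) → MvPolynomial ι ℚ := fun lam =>
    ∑ m ∈ P.support, MvPolynomial.monomial m (lam (P.coeff m)) with htw
  have hPsum : MvPolynomial.aeval (fun i => coeffEmb L (g i)) P =
      ∑ m ∈ P.support, algebraMap L (LaurentSeries L) (P.coeff m) * coeffEmb L (mon m) := by
    conv_lhs => rw [P.as_sum]
    rw [map_sum]
    refine Finset.sum_congr rfl fun m _ => ?_
    rw [MvPolynomial.aeval_monomial, hmon]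
    simp only [Finsupp.prod, map_prod, map_pow]
  have key : ∀ lam : L →ₗ[ℚ] ℚ, MvPolynomial.aeval g (tw lam) = 0 := by
    intro lam
    have h1 : MvPolynomial.aeval g (tw lam) =
        ∑ m ∈ P.support, algebraMap ℚ (LaurentSeries ℚ) (lam (P.coeff m)) * mon m := by
      rw [htw]
      simp only [map_sum, MvPolynomial.aeval_monomial]
      rfl
    ext n
    rw [h1, HahnSeries.coeff_sum, HahnSeries.coeff_zero]
    have h2 := congrArg (fun x : LaurentSeries L => lam (x.coeff n)) hP
    simp only [hPsum, HahnSeries.coeff_sum, HahnSeries.coeff_zero, map_zero, map_sum] at h2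
    rw [← h2]
    refine Finset.sum_congr rfl fun m _ => ?_
    rw [coeff_algebraMap_mul, coeff_algebraMap_mul_coeffEmb, mul_comm (P.coeff m),
      ← Algebra.smul_def, map_smul, smul_eq_mul, mul_comm]
  have h2 : ∀ lam : L →ₗ[ℚ] ℚ,
      ∑ m ∈ P.support, algebraMap ℚ L (lam (P.coeff m)) * μ m = 0 := by
    intro lam
    have h3 := h _ (key lam)
    rw [htw] at h3
    simpa only [map_sum, MvPolynomial.aeval_monomial] using h3
  -- expand the coefficients of `P` in a `ℚ`-basis of `L`
  let B := Module.Basis.ofVectorSpace ℚ L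
  let S : Finset (Module.Basis.ofVectorSpaceIndex ℚ L) :=
    P.support.biUnion fun m => (B.repr (P.coeff m)).support
  have hcoeff : ∀ m ∈ P.support,
      P.coeff m = ∑ k ∈ S, algebraMap ℚ L (B.coord k (P.coeff m)) * B k := by
    intro m hm
    conv_lhs => rw [← B.linearCombination_repr (P.coeff m)]
    rw [Finsupp.linearCombination_apply, Finsupp.sum_of_support_subset _
      (Finset.subset_biUnion_of_mem (fun m => (B.repr (P.coeff m)).support) hm) _
      (fun k _ => zero_smul ℚ (B k))]
    refine Finset.sum_congr rfl fun k _ => ?_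
    rw [Algebra.smul_def, Module.Basis.coord_apply]
  have hPc : MvPolynomial.aeval c P = ∑ m ∈ P.support, P.coeff m * μ m := by
    conv_lhs => rw [P.as_sum]
    rw [map_sum]
    refine Finset.sum_congr rfl fun m _ => ?_
    rw [MvPolynomial.aeval_monomial]
    rfl
  rw [hPc]
  calc ∑ m ∈ P.support, P.coeff m * μ m
      = ∑ m ∈ P.support, ∑ k ∈ S, B k * (algebraMap ℚ L (B.coord k (P.coeff m)) * μ m) := by
        refine Finset.sum_congr rfl fun m hm => ?_
        conv_lhs => rw [hcoeff m hm]
        rw [Finset.sum_mul]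
        refine Finset.sum_congr rfl fun k _ => ?_
        ring
    _ = ∑ k ∈ S, B k * ∑ m ∈ P.support, algebraMap ℚ L (B.coord k (P.coeff m)) * μ m := by
        rw [Finset.sum_comm]
        refine Finset.sum_congr rfl fun k _ => ?_
        rw [Finset.mul_sum]
    _ = 0 := by
        refine Finset.sum_eq_zero fun k _ => ?_
        rw [h2 (B.coord k), mul_zero]

end Descent

section Place

open Fermat.Agent.S24

variable (N : ℕ) [NeZero N]

/-- The base change to `ℚ̄(j(q^d) : d ∣ N)` of an element of the rational modular function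
field. -/
def bcElt (y : LaurentSeries ℚ) (hy : y ∈ modularFunctionFieldFull N) : FN N :=
  ⟨coeffEmb KQ y, coeffEmb_mem_laurentBaseChange KQ hy⟩

theorem bcElt_coe (y : LaurentSeries ℚ) (hy : y ∈ modularFunctionFieldFull N) :
    ((bcElt N y hy : FN N) : LaurentSeries KQ) = coeffEmb KQ y := rfl

variable {N} {ι : Type*}

/-- **Valuation-subring form**: for a family `g` in the rational modular function field and values
`c` satisfying every `ℚ`-relation of `g`, there is a valuation subring of `ℚ̄(j(q^d) : d ∣ N)`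
containing the constants in whose maximal ideal all `ĝ i - c i` lie. -/
theorem exists_valuationSubring_of_values (g : ι → LaurentSeries ℚ)
    (hg : ∀ i, g i ∈ modularFunctionFieldFull N) (c : ι → KQ)
    (h : ∀ P : MvPolynomial ι ℚ, MvPolynomial.aeval g P = 0 → MvPolynomial.aeval c P = 0) :
    ∃ A : ValuationSubring (FN N), (∀ a : KQ, algebraMap KQ (FN N) a ∈ A) ∧
      ∀ i, ∃ hm : bcElt N (g i) (hg i) - algebraMap KQ (FN N) (c i) ∈ A,
        (⟨_, hm⟩ : A) ∈ IsLocalRing.maximalIdeal A := by
  classical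
  let G : ι → FN N := fun i => bcElt N (g i) (hg i)
  let ev : MvPolynomial ι KQ →ₐ[KQ] FN N := MvPolynomial.aeval G
  have hker : ∀ P : MvPolynomial ι KQ, ev P = 0 → MvPolynomial.aeval c P = 0 := by
    intro P hP
    refine aeval_eq_zero_of_rat g c h P ?_
    have h1 : ((modularFunctionFieldBar N).val.comp ev) P = 0 := by
      rw [AlgHom.comp_apply, hP, map_zero]
    have h2 : (modularFunctionFieldBar N).val.comp ev =
        MvPolynomial.aeval (fun i => coeffEmb KQ (g i)) := by
      apply MvPolynomial.algHom_ext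
      intro i
      simp [ev, G, bcElt]
    rw [h2] at h1
    exact h1
  let φ : MvPolynomial ι KQ →+* ev.toRingHom.range := ev.toRingHom.rangeRestrict
  have hφ : Function.Surjective φ := ev.toRingHom.rangeRestrict_surjective
  have hφcoe : ∀ P, ((φ P : ev.toRingHom.range) : FN N) = ev P := fun P => rfl
  let f : ev.toRingHom.range →+* KQ :=
    φ.liftOfSurjective hφ
      ⟨(MvPolynomial.aeval c : MvPolynomial ι KQ →ₐ[KQ] KQ).toRingHom, by
        intro P hP
        rw [RingHom.mem_ker] at hP ⊢
        have h0 : ev P = 0 := by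
          rw [← hφcoe, hP]
          rfl
        exact hker P h0⟩
  have hf : ∀ P, f (φ P) = MvPolynomial.aeval c P := fun P =>
    RingHom.liftOfSurjective_comp_apply φ hφ _ P
  obtain ⟨A, hRA, π, hπf, hπ⟩ :=
    Fermat.Agent.S27P.GR.PlaceExt.exists_valuationSubring_extending ev.toRingHom.range f
  refine ⟨A, ?_, ?_⟩
  · intro a
    have ha : algebraMap KQ (FN N) a = ev (MvPolynomial.C a) := by
      simp [ev]
    rw [ha]
    exact hRA ⟨_, rfl⟩
  · intro i
    have hev : ev (MvPolynomial.X i - MvPolynomial.C (c i)) =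
        bcElt N (g i) (hg i) - algebraMap KQ (FN N) (c i) := by
      simp [ev, G]
    have hmem : bcElt N (g i) (hg i) - algebraMap KQ (FN N) (c i) ∈ ev.toRingHom.range :=
      ⟨MvPolynomial.X i - MvPolynomial.C (c i), hev⟩
    refine ⟨hRA hmem, ?_⟩
    rw [← hπ]
    have e : (⟨_, hmem⟩ : ev.toRingHom.range) = φ (MvPolynomial.X i - MvPolynomial.C (c i)) :=
      Subtype.ext hev.symm
    have h3 : π ⟨_, hRA hmem⟩ = f ⟨_, hmem⟩ := hπf ⟨_, hmem⟩
    rw [h3, e, hf]
    simp

/-- **Place form**: if moreover some `ĝ i` is not the constant `c i`, the valuation subring is a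
place, and every non-constant `ĝ i - c i` has positive order there. -/
theorem exists_place_of_values (g : ι → LaurentSeries ℚ)
    (hg : ∀ i, g i ∈ modularFunctionFieldFull N) (c : ι → KQ)
    (h : ∀ P : MvPolynomial ι ℚ, MvPolynomial.aeval g P = 0 → MvPolynomial.aeval c P = 0)
    (hne : ∃ i, bcElt N (g i) (hg i) ≠ algebraMap KQ (FN N) (c i)) :
    ∃ x : Place KQ (FN N), ∀ i, bcElt N (g i) (hg i) ≠ algebraMap KQ (FN N) (c i) →
      0 < x.ord (bcElt N (g i) (hg i) - algebraMap KQ (FN N) (c i)) := by
  obtain ⟨A, hK, hA⟩ := exists_valuationSubring_of_values g hg c h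
  have key : ∀ i, bcElt N (g i) (hg i) ≠ algebraMap KQ (FN N) (c i) →
      (bcElt N (g i) (hg i) - algebraMap KQ (FN N) (c i))⁻¹ ∉ A := by
    intro i hi hinv
    obtain ⟨hm, hmax⟩ := hA i
    have hx0 : bcElt N (g i) (hg i) - algebraMap KQ (FN N) (c i) ≠ 0 := sub_ne_zero.mpr hi
    have hunit : IsUnit (⟨_, hm⟩ : A) :=
      isUnit_iff_exists_inv.mpr ⟨⟨_, hinv⟩, Subtype.ext (mul_inv_cancel₀ hx0)⟩
    exact (IsLocalRing.mem_maximalIdeal _).mp hmax hunit
  have htop : A ≠ ⊤ := by
    obtain ⟨i, hi⟩ := hne
    intro hA'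
    exact key i hi (hA' ▸ ValuationSubring.mem_top _)
  have := finiteDimensional_jBar N
  refine ⟨Fermat.Agent.Lib.FF.Holo.placeOfValuationSubring (jBar N) A hK htop, fun i hi => ?_⟩
  rw [ord_pos_iff]
  exact key i hi

/-- The generators `j(q^d)` are not constants. -/
theorem jFormal_ne_algebraMap (d : Dv N) (c : KQ) : jFormal N d ≠ algebraMap KQ (FN N) c := by
  have : NeZero d.1 := d.neZero
  intro hEq
  have h1 := congrArg (fun x : FN N => (x : LaurentSeries KQ).coeff ((d.1 : ℤ) * (-1))) hEq
  have h2 : ((jFormal N d : FN N) : LaurentSeries KQ).coeff ((d.1 : ℤ) * (-1)) = 1 := by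
    show (coeffEmb KQ (qExpand ℚ d.1 jq)).coeff ((d.1 : ℤ) * (-1)) = 1
    rw [coeffEmb_coeff, qExpand_coeff_mul, coeff_jq_neg_one, map_one]
  have h3 : ((algebraMap KQ (FN N) c : FN N) : LaurentSeries KQ).coeff ((d.1 : ℤ) * (-1)) = 0 := by
    show (algebraMap KQ (LaurentSeries KQ) c).coeff ((d.1 : ℤ) * (-1)) = 0
    rw [algebraMap_laurentSeries_eq_single]
    refine HahnSeries.coeff_single_of_ne ?_
    have := NeZero.ne d.1
    simp only [mul_neg, mul_one, ne_eq, neg_eq_zero, Nat.cast_eq_zero]
    exact this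
  simp only [h2, h3] at h1
  exact one_ne_zero h1

/-- **(M3a)**: a place of `ℚ̄(j, j_p)` over a pair `(b, a)` satisfying the modular relations. -/
theorem exists_place_of_pair {p : ℕ} [NeZero p] (b a : KQ)
    (h : ∀ P : MvPolynomial (Fin 2) ℚ,
      MvPolynomial.aeval ![jq, jqN p] P = (0 : LaurentSeries ℚ) →
        MvPolynomial.aeval ![b, a] P = 0) :
    ∃ x : Place KQ (FN p),
      0 < x.ord (jFormal p ⟨1, one_dvd p⟩ - algebraMap KQ (FN p) b) ∧
      0 < x.ord (jFormal p ⟨p, dvd_rfl⟩ - algebraMap KQ (FN p) a) := by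
  have hg : ∀ i, (![jq, jqN p] : Fin 2 → LaurentSeries ℚ) i ∈ modularFunctionFieldFull p := by
    intro i
    fin_cases i
    · have h1 := jqd_mem_full p (one_dvd p)
      rw [qExpand_one_apply] at h1
      exact h1
    · exact jqd_mem_full p dvd_rfl
  have e0 : bcElt p (![jq, jqN p] 0) (hg 0) = jFormal p ⟨1, one_dvd p⟩ := by
    apply Subtype.ext
    show coeffEmb KQ jq = coeffEmb KQ (qExpand ℚ 1 jq)
    rw [qExpand_one_apply]
  have e1 : bcElt p (![jq, jqN p] 1) (hg 1) = jFormal p ⟨p, dvd_rfl⟩ := rfl
  obtain ⟨x, hx⟩ := exists_place_of_values (N := p) ![jq, jqN p] hg ![b, a] h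
    ⟨0, by rw [e0]; exact jFormal_ne_algebraMap _ _⟩
  refine ⟨x, ?_, ?_⟩
  · have := hx 0 (by rw [e0]; exact jFormal_ne_algebraMap _ _)
    rwa [e0] at this
  · have := hx 1 (by rw [e1]; exact jFormal_ne_algebraMap _ _)
    rwa [e1] at this

end Place

end Fermat.Agent.S15P.M3.Place31
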