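/-
S15 / (M): reduction of the non-integral points of `X₀(p)` (helper11).

`p` a prime, `A` a valuation ring of `ℚ̄` with residue characteristic `≠ p`, `r` ANY place
reduction of level `p` along `A` (`IsPlaceReductionAlong`; for the final statements: any
`h : ReductionInputsModL A p`), `x` a place of the function field of `X₀(p)` over `ℚ̄` over
`(j, j_p) = (b, a)` with `b ∉ A`.

* `not_mem_of_over` : then `a ∉ A` as well;
* `placeReductionModL_eq_of_type_inf` (type `∞`, `|a / b^p| = 1`): `r x = r (∞)`, where `∞` is the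
  `q`-expansion place `placeInfL ℚ̄ p` — this is (M3b) in the form used by (M*), with no
  hypothesis on cusps;
* `placeReductionModL_eq_of_type_zero` (type `0`, `|a / b^p| < 1`): `r x = r P₀` for every pole
  `P₀ ≠ ∞` of `j_p` (the cusp `0`);
* `place_unique_of_inputs`, `ord_sub_eq_one_of_type_inf` : (M3c') the place of type `∞` over
  `j = b` is unique (the values `a`, `a'` of `j_p` may differ a priori) and unramified over `b`.

Method (on top of `Unique11`): for an `A`-integral series `y` with `ȳ ≠ 0`,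
`ord_Q ȳ = ∑_{r P = Q} ord_P y`; over a pole `Q` of `x̄ = J̄(q^p)` there is exactly one pole of
`j_p`, where the orders of `j`, `j_p` are those of `J̄`, `x̄` at `Q` (`(-1, -p)` at `∞̄`, `(-p, -1)`
at the other pole: Fricke involution of the special fibre), and `j`, `j_p` are regular at every
other place over `Q`.  Apply this to `y = J(q) - c J(q^p)^p` (`c = b / a^p`) and `y = J(q) - a`.
-/
import Mathlib
import Fermat.Agent.S15P.M3.Unique11

set_option autoImplicit false
set_option linter.unusedSectionVars false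

namespace Fermat.Agent.S15P.M3.RedInf11

open ModularCurve AlgebraicCurve Fermat.Agent.S28 Fermat.Agent.S24 Fermat.Agent.Lib.Red
open Fermat.Agent.Lib.FF.PlaceInf Fermat.Agent.Lib.Red.BranchInst Fermat.Agent.S24.Fricke
open Fermat.Agent.S15P.M3.Unique11
open scoped IntermediateField

noncomputable section

/-! ### Combinatorics -/

/-- A lower bound for a sum with at most one exceptional term. -/
theorem sum_ge_of_exc {α : Type*} [DecidableEq α] (S : Finset α) (t : α → ℤ) (E : α → Prop)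
    (x : α) (m : ℤ) (hm : 0 ≤ m) (hx : x ∈ S) (hxE : ¬ E x) (h0 : ∀ P ∈ S, ¬ E P → 0 ≤ t P)
    (hE : ∀ P ∈ S, E P → -m ≤ t P) (huniq : ∀ P ∈ S, ∀ P' ∈ S, E P → E P' → P = P')
    (hx1 : 1 ≤ t x) : 1 - m ≤ ∑ P ∈ S, t P := by
  by_cases hex : ∃ P₀ ∈ S, E P₀
  · obtain ⟨P₀, hP₀S, hP₀⟩ := hex
    exact sum_ge_of_one_pos S t P₀ x m hm hx (fun h => hxE (h ▸ hP₀))
      (fun P hP hne => h0 P hP (fun hEP => hne (huniq P hP P₀ hP₀S hEP hP₀)))
      (hE P₀ hP₀S hP₀) hx1
  · have h2 : t x ≤ ∑ P ∈ S, t P :=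
      Finset.single_le_sum (f := t) (fun P hP => h0 P hP (fun hEP => hex ⟨P, hP, hEP⟩)) hx
    omega

section Core

variable {p : ℕ} [NeZero p] {A : ValuationSubring KQ} {k : Type} [Field k] [IsAlgClosed k]
  {π : A →+* k}

/-! ### The special fibre: the orders of `J̄` at the poles of `x̄` -/

theorem Jbar_eq_jC : Fermat.Agent.Lib.FF.ModL.Jbar k p = jC k p :=
  Subtype.ext (TD.Jd_one k).symm

theorem placeInfC_ord_Jbar :
    (placeInfC k p).ord (Fermat.Agent.Lib.FF.ModL.Jbar k p) = -1 := by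
  rw [Jbar_eq_jC]
  exact placeInfC_ord_jC k p

/-- At a pole `Q ≠ ∞̄` of `x̄ = J̄(q^p)`, the function `J̄` has a pole of order `p`. -/
theorem ord_Jbar_of_pole_ne_inf (hp : p.Prime) (hπ : ∀ a : A, ¬ IsUnit a → π a = 0)
    (hsurj : Function.Surjective π) (hNk : (p : k) ≠ 0)
    (Q : Place k ↥(modularFunctionFieldFullC k p)) (hQ : Q.ord (xk k p) < 0)
    (hne : Q ≠ placeInfC k p) :
    Q.ord (Fermat.Agent.Lib.FF.ModL.Jbar k p) = -(p : ℤ) := by
  have h1 : ((Fermat.Agent.CAR.Ell.FrickeRed.frickeBar hπ hsurj hNk)⁻¹ • placeInfC k p).ord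
      (xk k p) = -1 := by
    have h := Fermat.Agent.CAR.Ell.FrickeRed.ord_frickeBar hπ hsurj hNk (placeInfC k p) (xk k p)
    rw [Fermat.Agent.CAR.Ell.FrickeRed.frickeBar_xk, placeInfC_ord_Jbar] at h
    exact h.symm
  have h2 : ((Fermat.Agent.CAR.Ell.FrickeRed.frickeBar hπ hsurj hNk)⁻¹ • placeInfC k p).ord
      (Fermat.Agent.Lib.FF.ModL.Jbar k p) = -(p : ℤ) := by
    have h := Fermat.Agent.CAR.Ell.FrickeRed.ord_frickeBar hπ hsurj hNk (placeInfC k p)
      (Fermat.Agent.Lib.FF.ModL.Jbar k p)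
    rw [Fermat.Agent.CAR.Ell.FrickeRed.frickeBar_Jbar, placeInfC_ord_xk] at h
    exact h.symm
  have hne₁ : (Fermat.Agent.CAR.Ell.FrickeRed.frickeBar hπ hsurj hNk)⁻¹ • placeInfC k p ≠
      placeInfC k p := by
    intro h
    rw [h, placeInfC_ord_xk] at h1
    have := hp.two_le
    omega
  have hQQ : Q = (Fermat.Agent.CAR.Ell.FrickeRed.frickeBar hπ hsurj hNk)⁻¹ • placeInfC k p :=
    (poles_xk hp hπ hsurj hNk).2 Q _ hQ (by rw [h1]; norm_num) hne hne₁
  rw [hQQ, h2]

/-! ### Characteristic zero: the poles of `j_p` -/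

/-- A pole of `j_p` is a pole of `j`. -/
theorem ord_jBar_neg_of_ord_jN_neg (hp : p.Prime) (P : Place KQ (FN p))
    (h : P.ord (jN p) < 0) : P.ord (jBar p) < 0 := by
  have h1 : (fricke p • P).ord (jBar p) < 0 := by
    rw [ord_fricke_smul, fricke_jBar_eq_jN]
    exact h
  have h2 := Fermat.Agent.S15P.M3.CuspDich17.ord_jFormal_prime_neg p hp dvd_rfl (fricke p • P) h1
  have h3 : (fricke p • P).ord (jN p) < 0 := h2
  rw [ord_fricke_smul, fricke_jN] at h3
  exact h3

theorem ord_inv_pos_of_pole (P : Place KQ (FN p)) (hP : P.ord (jN p) < 0) :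
    0 < P.ord ((xL KQ p)⁻¹ - algebraMap KQ _ (((0 : A) : KQ))) := by
  rw [ZeroMemClass.coe_zero, map_zero, sub_zero, Place.ord_inv, ← jN_eq_xL]
  omega

/-- **The orders of `j`, `j_p` at a pole `P` of `j_p`** are `(-1, -p)` if `r P = ∞̄` and
`(-p, -1)` otherwise. -/
theorem ord_pole (hp : p.Prime) (hπ : ∀ a : A, ¬ IsUnit a → π a = 0)
    (hsurj : Function.Surjective π) (hNk : (p : k) ≠ 0)
    {r : Place KQ (FN p) → Place k ↥(modularFunctionFieldFullC k p)}
    (hr : IsPlaceReductionAlong A π p r) (P : Place KQ (FN p)) (hP : P.ord (jN p) < 0) :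
    (r P = placeInfC k p ∧ P.ord (jBar p) = -1 ∧ P.ord (jN p) = -(p : ℤ)) ∨
    (r P ≠ placeInfC k p ∧ P.ord (jBar p) = -(p : ℤ) ∧ P.ord (jN p) = -1) := by
  have hP0 := ord_inv_pos_of_pole (A := A) P hP
  by_cases hrP : r P = placeInfC k p
  · left
    have hPi := eq_placeInfL_of_pole hp hπ hsurj hNk hr P (by rw [← jN_eq_xL]; exact hP) hrP
    refine ⟨hrP, ?_, ?_⟩
    · rw [hPi]
      exact placeInfL_ord_jBar
    · rw [hPi, jN_eq_xL]
      exact placeInfL_ord_xL
  · right
    have h2 := ord_xk_neg_of_inv hπ hsurj hNk hr (0 : A) (map_zero π) P hP0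
    have h3 := (poles_xk hp hπ hsurj hNk).1 _ h2 hrP
    have h1 := ord_inv_le hπ hsurj hNk hr (0 : A) (map_zero π) P hP0
    rw [ZeroMemClass.coe_zero, map_zero, sub_zero, Place.ord_inv, h3, ← jN_eq_xL] at h1
    have hN : P.ord (jN p) = -1 := by omega
    refine ⟨hrP, ?_, hN⟩
    have hB := ord_jBar_neg_of_ord_jN_neg hp P hP
    have hp2 : (2 : ℤ) ≤ p := by exact_mod_cast hp.two_le
    rcases Fermat.Agent.S15P.M3.CuspDich17.cusp_dichotomy p hp dvd_rfl P hB with h | h
    · exfalso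
      have h' : P.ord (jN p) = p * P.ord (jBar p) := h
      rw [hN] at h'
      nlinarith
    · have h' : P.ord (jBar p) = p * P.ord (jN p) := h
      rw [h', hN]
      ring

/-- **At a pole of `j_p`, the order of `j` is the order of `J̄` at the reduction.** -/
theorem ord_jBar_eq_red (hp : p.Prime) (hπ : ∀ a : A, ¬ IsUnit a → π a = 0)
    (hsurj : Function.Surjective π) (hNk : (p : k) ≠ 0)
    {r : Place KQ (FN p) → Place k ↥(modularFunctionFieldFullC k p)}
    (hr : IsPlaceReductionAlong A π p r) (P : Place KQ (FN p)) (hP : P.ord (jN p) < 0) :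
    P.ord (jBar p) = (r P).ord (Fermat.Agent.Lib.FF.ModL.Jbar k p) := by
  rcases ord_pole hp hπ hsurj hNk hr P hP with ⟨h1, hB, -⟩ | ⟨h1, hB, -⟩
  · rw [h1, placeInfC_ord_Jbar, hB]
  · have h2 := ord_xk_neg_of_inv hπ hsurj hNk hr (0 : A) (map_zero π) P
      (ord_inv_pos_of_pole (A := A) P hP)
    rw [ord_Jbar_of_pole_ne_inf hp hπ hsurj hNk _ h2 h1, hB]

/-- **Over a place of the special fibre there is at most one pole of `j_p`.** -/
theorem pole_unique_in_fibre (hp : p.Prime) (hπ : ∀ a : A, ¬ IsUnit a → π a = 0)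
    (hsurj : Function.Surjective π) (hNk : (p : k) ≠ 0)
    {r : Place KQ (FN p) → Place k ↥(modularFunctionFieldFullC k p)}
    (hr : IsPlaceReductionAlong A π p r) (P P' : Place KQ (FN p)) (hP : P.ord (jN p) < 0)
    (hP' : P'.ord (jN p) < 0) (hrr : r P' = r P) : P = P' := by
  by_contra hne
  have hP0 := ord_inv_pos_of_pole (A := A) P hP
  have hP0' := ord_inv_pos_of_pole (A := A) P' hP'
  have h := ord_inv_add_le hπ hsurj hNk hr (0 : A) (map_zero π) P P' hP0 hP0' hne hrr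
  rcases ord_pole hp hπ hsurj hNk hr P hP with ⟨h1, -, -⟩ | ⟨h1, -, -⟩
  · have e1 := eq_placeInfL_of_pole hp hπ hsurj hNk hr P (by rw [← jN_eq_xL]; exact hP) h1
    have e2 := eq_placeInfL_of_pole hp hπ hsurj hNk hr P' (by rw [← jN_eq_xL]; exact hP')
      (hrr.trans h1)
    exact hne (e1.trans e2.symm)
  · have h2 := ord_xk_neg_of_inv hπ hsurj hNk hr (0 : A) (map_zero π) P hP0
    rw [(poles_xk hp hπ hsurj hNk).1 _ h2 h1] at h
    have h3 := le_trans (add_le_add (Int.add_one_le_of_lt hP0) (Int.add_one_le_of_lt hP0')) h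
    omega

/-! ### The fibre bound -/

/-- **Fibre bound.**  `y` an integral series with `ȳ ≠ 0`, regular wherever `j`, `j_p` are;
`x` a zero of `y` at which `j_p` is regular; `-M` a lower bound for the order of `y` at the
poles of `j_p` over `r x`.  Then `ord_{r x} ȳ ≥ 1 - M`. -/
theorem fibre_bound (hp : p.Prime) (hπ : ∀ a : A, ¬ IsUnit a → π a = 0)
    (hsurj : Function.Surjective π) (hNk : (p : k) ≠ 0)
    {r : Place KQ (FN p) → Place k ↥(modularFunctionFieldFullC k p)}
    (hr : IsPlaceReductionAlong A π p r)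
    (y : LaurentSeries A) (yL : FN p) (yk : ↥(modularFunctionFieldFullC k p))
    (hyL : coeffMap A.subtype y = ((yL : FN p) : LaurentSeries KQ))
    (hyk : coeffMap π y = ((yk : ↥(modularFunctionFieldFullC k p)) : LaurentSeries k))
    (hyk0 : yk ≠ 0)
    (hreg : ∀ P : Place KQ (FN p), 0 ≤ P.ord (jBar p) → 0 ≤ P.ord (jN p) → 0 ≤ P.ord yL)
    (M : ℤ) (hM : 0 ≤ M) (x : Place KQ (FN p))
    (hpole : ∀ P : Place KQ (FN p), P.ord (jN p) < 0 → r P = r x → -M ≤ P.ord yL)
    (hxN : 0 ≤ x.ord (jN p)) (hxy : 0 < x.ord yL) :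
    1 - M ≤ (r x).ord yk := by
  classical
  have hmemL : coeffMap A.subtype y ∈ laurentBaseChange KQ (modularFunctionFieldFull p) := by
    rw [hyL]
    exact Subtype.property _
  have hmemk : coeffMap π y ∈ modularFunctionFieldFullC k p := by
    rw [hyk]
    exact Subtype.property _
  have heL : (⟨coeffMap A.subtype y, hmemL⟩ : FN p) = yL := Subtype.ext hyL
  have hek : (⟨coeffMap π y, hmemk⟩ : ↥(modularFunctionFieldFullC k p)) = yk := Subtype.ext hyk
  have hne : coeffMap π y ≠ 0 := by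
    intro h0
    apply hyk0
    apply Subtype.ext
    rw [← hyk, h0]
    rfl
  have hfinL : Module.Finite ↥(KQ⟮xL KQ p⟯) (FN p) := by
    have h := (BaseFn.Data.ofJ A π p).finite_L hπ hsurj hNk
    rwa [BaseFn.Data.ofJ_x] at h
  have hfin : {P : Place KQ (FN p) | P.ord yL ≠ 0}.Finite :=
    Fermat.Agent.Lib.FF.CharP.finite_ord_ne_zero (xL KQ p) _
  set D : Divisor KQ (FN p) := Finsupp.ofSupportFinite (fun P => P.ord yL) hfin with hD
  have hDP : ∀ P, D P = P.ord yL := fun P => rfl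
  have hpush := hr.2 y hmemL hmemk hne D (fun P => by rw [hDP, heL]) (r x)
  rw [hek, Finsupp.mapDomain, Finsupp.sum_apply] at hpush
  simp only [Finsupp.sum, Finsupp.single_apply] at hpush
  have hlow := sum_ge_of_exc D.support (fun P => if r P = r x then D P else 0)
    (fun P => P.ord (jN p) < 0 ∧ r P = r x) x M hM
    (by rw [Finsupp.mem_support_iff, hDP]; omega) (fun h => by have := h.1; omega) ?_ ?_ ?_ ?_
  · rw [hpush] at hlow
    exact hlow
  · intro P _ hPE
    show 0 ≤ ite _ _ _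
    split_ifs with hrP
    · rw [hDP]
      have h1 : 0 ≤ P.ord (jN p) := by
        by_contra hneg
        exact hPE ⟨by omega, hrP⟩
      have h2 : 0 ≤ P.ord (jBar p) := by
        by_contra hneg
        have h3 := Fermat.Agent.S15P.M3.CuspDich17.ord_jFormal_prime_neg p hp dvd_rfl P
          (by omega)
        have h4 : P.ord (jN p) < 0 := h3
        omega
      exact hreg P h2 h1
    · exact le_rfl
  · intro P _ hPE
    show -M ≤ ite _ _ _
    rw [if_pos hPE.2, hDP]
    exact hpole P hPE.1 hPE.2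
  · intro P _ P' _ hPE hPE'
    exact pole_unique_in_fibre hp hπ hsurj hNk hr P P' hPE.1 hPE'.1 (hPE'.2.trans hPE.2.symm)
  · show 1 ≤ ite _ _ _
    rw [if_pos rfl, hDP]
    omega

/-! ### Type `∞`: the reduction is the cusp `∞̄` -/

/-- **Type `∞`, core.**  A place over `(j, j_p) = (b, a)` with `1/a` and `c = b / a^p` in the
maximal ideal of `A` specialises to the cusp `∞̄`. -/
theorem r_eq_placeInfC (hp : p.Prime) (hπ : ∀ a : A, ¬ IsUnit a → π a = 0)
    (hsurj : Function.Surjective π) (hNk : (p : k) ≠ 0)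
    {r : Place KQ (FN p) → Place k ↥(modularFunctionFieldFullC k p)}
    (hr : IsPlaceReductionAlong A π p r) (b a : KQ) (c z : A) (hc : π c = 0) (hz : π z = 0)
    (hcab : (c : KQ) * a ^ p = b) (hza : (z : KQ) = a⁻¹) (ha0 : a ≠ 0) (hb0 : b ≠ 0)
    (x : Place KQ (FN p)) (hxb : 0 < x.ord (jBar p - algebraMap KQ (FN p) b))
    (hxa : 0 < x.ord (jN p - algebraMap KQ (FN p) a)) :
    r x = placeInfC k p := by
  by_contra hrx
  have hc0 : (c : KQ) ≠ 0 := by
    intro h
    rw [h, zero_mul] at hcab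
    exact hb0 hcab.symm
  have hx1 : 0 < x.ord ((xL KQ p)⁻¹ - algebraMap KQ _ (z : KQ)) := by
    rw [hza, ← jN_eq_xL, ord_inv_sub_inv x ha0 hxa]
    exact hxa
  have hQ := ord_xk_neg_of_inv hπ hsurj hNk hr z hz x hx1
  have hQJ := ord_Jbar_of_pole_ne_inf hp hπ hsurj hNk _ hQ hrx
  -- the integral series `y = J(q) - c J(q^p)^p`
  set y : LaurentSeries A := TD.Jd A 1 - HahnSeries.C c * TD.Jd A p ^ p with hy
  set yL : FN p := jBar p - algebraMap KQ (FN p) (c : KQ) * jN p ^ p with hyLdef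
  have hyL : coeffMap A.subtype y = ((yL : FN p) : LaurentSeries KQ) := by
    have h1 : ((jN p : FN p) : LaurentSeries KQ) = incl A (TD.Jd A p) :=
      congrArg Subtype.val (Fermat.Agent.CAR.Ell.FrickeRed.jFormal_eq A p ⟨p, dvd_rfl⟩)
    have h2 : ((jBar p : FN p) : LaurentSeries KQ) = incl A (TD.Jd A 1) :=
      congrArg Subtype.val (Fermat.Agent.CAR.Ell.FrickeRed.jFormal_eq A p ⟨1, one_dvd p⟩)
    show incl A (TD.Jd A 1 - HahnSeries.C c * TD.Jd A p ^ p) =
      ((jBar p : FN p) : LaurentSeries KQ) -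
        ((algebraMap KQ (FN p) (c : KQ) : FN p) : LaurentSeries KQ) *
          ((jN p : FN p) : LaurentSeries KQ) ^ p
    rw [map_sub, map_mul, map_pow, incl_C, h1, h2,
      Fermat.Agent.CAR.Ell.coe_algebraMap_laurentBaseChange]
  have hyk : coeffMap π y = ((Fermat.Agent.Lib.FF.ModL.Jbar k p :
      ↥(modularFunctionFieldFullC k p)) : LaurentSeries k) := by
    show rbar A π (TD.Jd A 1 - HahnSeries.C c * TD.Jd A p ^ p) = jqModC k
    rw [map_sub, map_mul, rbar_C, hc, map_zero, zero_mul, sub_zero, rbar_Jd, TD.Jd_one]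
  have hJ0 : Fermat.Agent.Lib.FF.ModL.Jbar k p ≠ 0 := by
    rw [Jbar_eq_jC]
    exact jC_ne_zero k p
  have hyL0 : yL ≠ 0 := by
    intro h0
    have h1 : incl A y = 0 := by
      show coeffMap A.subtype y = 0
      rw [hyL, h0]
      rfl
    have h2 : y = 0 := incl_injective A (by rw [h1, map_zero])
    apply hJ0
    apply Subtype.ext
    rw [← hyk, h2, map_zero]
    rfl
  have hxy : 0 < x.ord yL := ord_sub_mul_pow_pos x p hxb hxa hcab hyL0
  have hjB0 : jBar p ≠ 0 := by
    rw [jBar_eq_jL]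
    exact jL_ne_zero KQ p
  have hjN0 : jN p ≠ 0 := by
    rw [jN_eq_xL]
    exact xL_ne_zero
  have hcF : algebraMap KQ (FN p) (c : KQ) ≠ 0 := (map_ne_zero _).mpr hc0
  have hb := fibre_bound hp hπ hsurj hNk hr y yL (Fermat.Agent.Lib.FF.ModL.Jbar k p) hyL hyk hJ0
    (fun P h1 h2 => ord_nonneg_of_mem P (sub_mem (mem_of_ord_nonneg P h1)
      (mul_mem (P.algebraMap_mem' _) (pow_mem (mem_of_ord_nonneg P h2) p))))
    (p : ℤ) (Int.natCast_nonneg p) x ?_ (by rw [ord_eq_zero_of_sub_pos x ha0 hxa]) hxy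
  · rw [hQJ] at hb
    omega
  · intro P hP hrP
    rcases ord_pole hp hπ hsurj hNk hr P hP with ⟨h1, -, -⟩ | ⟨-, hB, hN⟩
    · exact absurd (hrP ▸ h1) hrx
    · have hA := ord_sub_ge P hjB0 (mul_ne_zero hcF (pow_ne_zero p hjN0)) hyL0
      rw [hB, Place.ord_mul _ hcF (pow_ne_zero p hjN0), Fermat.Agent.S24.ord_algebraMap,
        ← zpow_natCast, Place.ord_zpow, hN] at hA
      have e : min (-(p : ℤ)) (0 + (p : ℤ) * -1) = -(p : ℤ) := by
        rw [zero_add, mul_neg_one, min_self]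
      rw [e] at hA
      rw [hyLdef, ← zpow_natCast]
      exact hA

/-! ### Non-integrality transfers from `j_p` to `j` -/

/-- **A place over `(j, j_p) = (a, b)` with `1/b` in the maximal ideal of `A` has `a ∉ A`.** -/
theorem not_integral (hp : p.Prime) (hπ : ∀ a : A, ¬ IsUnit a → π a = 0)
    (hsurj : Function.Surjective π) (hNk : (p : k) ≠ 0)
    {r : Place KQ (FN p) → Place k ↥(modularFunctionFieldFullC k p)}
    (hr : IsPlaceReductionAlong A π p r) (b : KQ) (a z : A) (hz : π z = 0)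
    (hzb : (z : KQ) = b⁻¹) (hb0 : b ≠ 0)
    (x : Place KQ (FN p)) (hxa : 0 < x.ord (jBar p - algebraMap KQ (FN p) (a : KQ)))
    (hxb : 0 < x.ord (jN p - algebraMap KQ (FN p) b)) : False := by
  have hx1 : 0 < x.ord ((xL KQ p)⁻¹ - algebraMap KQ _ (z : KQ)) := by
    rw [hzb, ← jN_eq_xL, ord_inv_sub_inv x hb0 hxb]
    exact hxb
  have hQ := ord_xk_neg_of_inv hπ hsurj hNk hr z hz x hx1
  have hJ : (r x).ord (Fermat.Agent.Lib.FF.ModL.Jbar k p) < 0 := by
    by_cases hrx : r x = placeInfC k p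
    · rw [hrx, placeInfC_ord_Jbar]
      norm_num
    · rw [ord_Jbar_of_pole_ne_inf hp hπ hsurj hNk _ hQ hrx]
      have := hp.pos
      omega
  -- the integral series `y = J(q) - a`
  set y : LaurentSeries A := TD.Jd A 1 - HahnSeries.C a with hy
  have hyL : coeffMap A.subtype y =
      ((jBar p - algebraMap KQ (FN p) (a : KQ) : FN p) : LaurentSeries KQ) := by
    have h2 : ((jBar p : FN p) : LaurentSeries KQ) = incl A (TD.Jd A 1) :=
      congrArg Subtype.val (Fermat.Agent.CAR.Ell.FrickeRed.jFormal_eq A p ⟨1, one_dvd p⟩)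
    show incl A (TD.Jd A 1 - HahnSeries.C a) =
      ((jBar p : FN p) : LaurentSeries KQ) -
        ((algebraMap KQ (FN p) (a : KQ) : FN p) : LaurentSeries KQ)
    rw [map_sub, incl_C, h2, Fermat.Agent.CAR.Ell.coe_algebraMap_laurentBaseChange]
  have hyk : coeffMap π y = ((Fermat.Agent.Lib.FF.ModL.Jbar k p - algebraMap k _ (π a) :
      ↥(modularFunctionFieldFullC k p)) : LaurentSeries k) := by
    show rbar A π (TD.Jd A 1 - HahnSeries.C a) =
      ((Fermat.Agent.Lib.FF.ModL.Jbar k p : ↥(modularFunctionFieldFullC k p)) : LaurentSeries k) -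
        ((algebraMap k ↥(modularFunctionFieldFullC k p) (π a) :
          ↥(modularFunctionFieldFullC k p)) : LaurentSeries k)
    rw [map_sub, rbar_C, rbar_Jd, TD.Jd_one, Fermat.Agent.CAR.Ell.coe_algebraMap_fullC]
    rfl
  have hord : (r x).ord (Fermat.Agent.Lib.FF.ModL.Jbar k p - algebraMap k _ (π a)) =
      (r x).ord (Fermat.Agent.Lib.FF.ModL.Jbar k p) := RH.ord_sub_const_of_neg _ hJ _
  have hyk0 : Fermat.Agent.Lib.FF.ModL.Jbar k p - algebraMap k _ (π a) ≠ 0 := by
    intro h0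
    rw [h0, Place.ord_zero] at hord
    omega
  have hb := fibre_bound hp hπ hsurj hNk hr y (jBar p - algebraMap KQ (FN p) (a : KQ))
    (Fermat.Agent.Lib.FF.ModL.Jbar k p - algebraMap k _ (π a)) hyL hyk hyk0
    (fun P h1 _ => ord_nonneg_of_mem P (sub_mem (mem_of_ord_nonneg P h1)
      (P.algebraMap_mem' _)))
    (-(r x).ord (Fermat.Agent.Lib.FF.ModL.Jbar k p)) (by omega) x ?_
    (by rw [ord_eq_zero_of_sub_pos x hb0 hxb]) hxa
  · rw [hord] at hb
    omega
  · intro P hP hrP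
    have h1 := ord_jBar_eq_red hp hπ hsurj hNk hr P hP
    have h2 := ord_jBar_neg_of_ord_jN_neg hp P hP
    rw [RH.ord_sub_const_of_neg P h2, h1, hrP, neg_neg]

/-! ### Uniqueness with two values of `j` -/

/-- **Uniqueness, Fricke-transported form, two values.** -/
theorem unique_core2 (hp : p.Prime) (hπ : ∀ a : A, ¬ IsUnit a → π a = 0)
    (hsurj : Function.Surjective π) (hNk : (p : k) ≠ 0)
    {r : Place KQ (FN p) → Place k ↥(modularFunctionFieldFullC k p)}
    (hr : IsPlaceReductionAlong A π p r) (a a' b : KQ) (c c' z : A) (hc : π c = 0)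
    (hc' : π c' = 0) (hz : π z = 0) (hcab : (c : KQ) * a ^ p = b) (hcab' : (c' : KQ) * a' ^ p = b)
    (hzb : (z : KQ) = b⁻¹) (hb0 : b ≠ 0) (x x' : Place KQ (FN p))
    (hxa : 0 < x.ord (jBar p - algebraMap KQ (FN p) a))
    (hxb : 0 < x.ord (jN p - algebraMap KQ (FN p) b))
    (hxa' : 0 < x'.ord (jBar p - algebraMap KQ (FN p) a'))
    (hxb' : 0 < x'.ord (jN p - algebraMap KQ (FN p) b)) :
    x = x' ∧ x.ord (jN p - algebraMap KQ (FN p) b) = 1 := by
  have hc0 : (c : KQ) ≠ 0 := by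
    intro h
    rw [h, zero_mul] at hcab
    exact hb0 hcab.symm
  have hc0' : (c' : KQ) ≠ 0 := by
    intro h
    rw [h, zero_mul] at hcab'
    exact hb0 hcab'.symm
  have e1 := ord_inv_sub_inv x hb0 hxb
  have e1' := ord_inv_sub_inv x' hb0 hxb'
  have hx1 : 0 < x.ord ((xL KQ p)⁻¹ - algebraMap KQ _ (z : KQ)) := by
    rw [hzb, ← jN_eq_xL, e1]
    exact hxb
  have hx1' : 0 < x'.ord ((xL KQ p)⁻¹ - algebraMap KQ _ (z : KQ)) := by
    rw [hzb, ← jN_eq_xL, e1']
    exact hxb'
  have hQ := ord_xk_neg_of_inv hπ hsurj hNk hr z hz x hx1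
  have hQ' := ord_xk_neg_of_inv hπ hsurj hNk hr z hz x' hx1'
  have hne := r_ne_placeInfC hp hπ hsurj hNk hr a b c hc hc0 hcab hb0 x hxa hxb
  have hne' := r_ne_placeInfC hp hπ hsurj hNk hr a' b c' hc' hc0' hcab' hb0 x' hxa' hxb'
  obtain ⟨hs1, hs2⟩ := poles_xk hp hπ hsurj hNk
  have hQQ : r x' = r x := hs2 _ _ hQ' hQ hne' hne
  constructor
  · by_contra hxx
    have h := ord_inv_add_le hπ hsurj hNk hr z hz x x' hx1 hx1' hxx hQQ
    rw [hs1 _ hQ hne] at h
    have h2 := le_trans (add_le_add (Int.add_one_le_of_lt hx1) (Int.add_one_le_of_lt hx1')) h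
    omega
  · have h := ord_inv_le hπ hsurj hNk hr z hz x hx1
    rw [hs1 _ hQ hne, hzb, ← jN_eq_xL, e1] at h
    have h3 : (0 : ℤ) + 1 ≤ x.ord (jN p - algebraMap KQ (FN p) b) := Int.add_one_le_of_lt hxb
    have h4 : x.ord (jN p - algebraMap KQ (FN p) b) ≤ 1 := by
      rw [neg_neg] at h
      exact h
    omega

/-! ### Fricke transport -/

theorem ord_fricke_smul_jBar_sub (x : Place KQ (FN p)) (c : KQ) :
    (fricke p • x).ord (jBar p - algebraMap KQ (FN p) c) =
      x.ord (jN p - algebraMap KQ (FN p) c) := by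
  rw [ord_fricke_smul, map_sub, fricke_jBar_eq_jN, AlgEquiv.commutes]

theorem ord_fricke_smul_jN_sub (x : Place KQ (FN p)) (c : KQ) :
    (fricke p • x).ord (jN p - algebraMap KQ (FN p) c) =
      x.ord (jBar p - algebraMap KQ (FN p) c) := by
  rw [ord_fricke_smul, map_sub, fricke_jN, AlgEquiv.commutes]

end Core

/-! ### Valuations -/

section Val

variable (A : ValuationSubring KQ)

theorem exists_mem_of_val_lt_one {c : KQ} (h : A.valuation c < 1) :
    ∃ c' : A, (c' : KQ) = c ∧ IsLocalRing.residue A c' = 0 :=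
  ⟨⟨c, (A.valuation_le_one_iff _).mp h.le⟩, rfl,
    Fermat.Agent.ESJ.residue_eq_zero_of_not_isUnit' A _ (fun hunit =>
      (ne_of_lt h) ((A.valuation_eq_one_iff _).mp hunit))⟩

theorem one_lt_val_of_notMem {b : KQ} (hb : b ∉ A) : 1 < A.valuation b := by
  rw [← not_le, A.valuation_le_one_iff]
  exact hb

theorem val_inv_lt_one_of_notMem {b : KQ} (hb : b ∉ A) : A.valuation b⁻¹ < 1 := by
  rw [map_inv₀]
  exact inv_lt_one_of_one_lt₀ (one_lt_val_of_notMem A hb)

/-- Type `∞`: `b ∉ A`, `|a / b^p| = 1` give `a ∉ A` and `|b / a^p| < 1`. -/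
theorem val_type_inf {b a : KQ} {p : ℕ} (hp : p.Prime) (hb : b ∉ A)
    (hu : A.valuation (a / b ^ p) = 1) :
    b ≠ 0 ∧ a ≠ 0 ∧ a ∉ A ∧ A.valuation (b / a ^ p) < 1 := by
  have hb0 : b ≠ 0 := fun h => hb (h ▸ A.zero_mem)
  have hvb := one_lt_val_of_notMem A hb
  have hvb0 : 0 < A.valuation b := lt_trans zero_lt_one hvb
  have ha0 : a ≠ 0 := by
    rintro rfl
    rw [zero_div, map_zero] at hu
    exact zero_ne_one hu
  have hva : A.valuation a = A.valuation b ^ p := by
    rw [map_div₀, map_pow] at hu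
    exact (div_eq_one_iff_eq (pow_ne_zero p hvb0.ne')).mp hu
  refine ⟨hb0, ha0, ?_, ?_⟩
  · rw [← A.valuation_le_one_iff, not_le, hva]
    exact one_lt_pow₀ hvb hp.ne_zero
  · rw [map_div₀, map_pow, hva, ← pow_mul, div_lt_one₀ (pow_pos hvb0 _)]
    exact lt_self_pow₀ hvb (by nlinarith [hp.two_le])

end Val

/-! ### The statements -/

set_option synthInstance.maxHeartbeats 400000 in
set_option maxHeartbeats 1000000 in
/-- **Non-integrality transfers.**  A place of `X₀(p)` over `(j, j_p) = (b, a)` with `b ∉ A` has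
`a ∉ A` (`A` of residue characteristic `ℓ ≠ p`, `r` any place reduction along `A`). -/
theorem not_mem_of_over {p ℓ : ℕ} [NeZero p] (hp : p.Prime) (hℓ : ℓ.Prime) (hℓp : ℓ ≠ p)
    (A : ValuationSubring (AlgebraicClosure ℚ)) (hA : A.LiesOverPrime ℓ)
    {r : Place (AlgebraicClosure ℚ) (modularFunctionFieldBar p) →
      Place (IsLocalRing.ResidueField A) (modularFunctionFieldFullC (IsLocalRing.ResidueField A) p)}
    (hr : IsPlaceReductionModL A p r)
    (b a : AlgebraicClosure ℚ) (hb : b ∉ A)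
    (x : Place (AlgebraicClosure ℚ) (modularFunctionFieldBar p))
    (hxb : 0 < x.ord (jFormal p ⟨1, one_dvd p⟩ -
      algebraMap (AlgebraicClosure ℚ) (modularFunctionFieldBar p) b))
    (hxa : 0 < x.ord (jFormal p ⟨p, dvd_rfl⟩ -
      algebraMap (AlgebraicClosure ℚ) (modularFunctionFieldBar p) a)) :
    a ∉ A := by
  have : IsAlgClosed (IsLocalRing.ResidueField A) :=
    Fermat.Agent.Lib.FF.CharP.isAlgClosed_residueField A
  have hℓp' : ¬ ℓ ∣ p := fun h => hℓp ((Nat.prime_dvd_prime_iff_eq hℓ hp).mp h)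
  have hNk : (p : IsLocalRing.ResidueField A) ≠ 0 :=
    Fermat.Agent.ESJ.natCast_residue_ne_zero' A hℓ hA p hℓp'
  have hπ := Fermat.Agent.ESJ.residue_eq_zero_of_not_isUnit' A
  have hsurj : Function.Surjective (IsLocalRing.residue A) := IsLocalRing.residue_surjective
  have hb0 : b ≠ 0 := fun h => hb (h ▸ A.zero_mem)
  obtain ⟨z, hzb, hz⟩ := exists_mem_of_val_lt_one A (val_inv_lt_one_of_notMem A hb)
  intro ha
  exact not_integral hp hπ hsurj hNk hr b ⟨a, ha⟩ z hz hzb hb0 (fricke p • x)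
    (by rw [ord_fricke_smul_jBar_sub]; exact hxa) (by rw [ord_fricke_smul_jN_sub]; exact hxb)

set_option synthInstance.maxHeartbeats 400000 in
set_option maxHeartbeats 1000000 in
/-- **Type `∞` ⟹ the reduction is the reduction of the cusp `∞`.**  `x` over `(j, j_p) = (b, a)`,
`b ∉ A`, `|a / b^p| = 1`; `P` a place with `ord_P j_p = -p` (the cusp `∞`); `r` any place
reduction along `A` (residue characteristic `ℓ ≠ p`).  Then `r x = r P`. -/
theorem red_type_inf {p ℓ : ℕ} [NeZero p] (hp : p.Prime) (hℓ : ℓ.Prime) (hℓp : ℓ ≠ p)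
    (A : ValuationSubring (AlgebraicClosure ℚ)) (hA : A.LiesOverPrime ℓ)
    {r : Place (AlgebraicClosure ℚ) (modularFunctionFieldBar p) →
      Place (IsLocalRing.ResidueField A) (modularFunctionFieldFullC (IsLocalRing.ResidueField A) p)}
    (hr : IsPlaceReductionModL A p r)
    (b a : AlgebraicClosure ℚ) (hb : b ∉ A) (hu : A.valuation (a / b ^ p) = 1)
    (x : Place (AlgebraicClosure ℚ) (modularFunctionFieldBar p))
    (hxb : 0 < x.ord (jFormal p ⟨1, one_dvd p⟩ -
      algebraMap (AlgebraicClosure ℚ) (modularFunctionFieldBar p) b))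
    (hxa : 0 < x.ord (jFormal p ⟨p, dvd_rfl⟩ -
      algebraMap (AlgebraicClosure ℚ) (modularFunctionFieldBar p) a))
    (P : Place (AlgebraicClosure ℚ) (modularFunctionFieldBar p))
    (hP : P.ord (jFormal p ⟨p, dvd_rfl⟩) = -(p : ℤ)) :
    r x = r P := by
  have : IsAlgClosed (IsLocalRing.ResidueField A) :=
    Fermat.Agent.Lib.FF.CharP.isAlgClosed_residueField A
  have hℓp' : ¬ ℓ ∣ p := fun h => hℓp ((Nat.prime_dvd_prime_iff_eq hℓ hp).mp h)
  have hNk : (p : IsLocalRing.ResidueField A) ≠ 0 :=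
    Fermat.Agent.ESJ.natCast_residue_ne_zero' A hℓ hA p hℓp'
  have hπ := Fermat.Agent.ESJ.residue_eq_zero_of_not_isUnit' A
  have hsurj : Function.Surjective (IsLocalRing.residue A) := IsLocalRing.residue_surjective
  obtain ⟨hb0, ha0, haA, hvc⟩ := val_type_inf A hp hb hu
  obtain ⟨c, hcc, hc⟩ := exists_mem_of_val_lt_one A hvc
  obtain ⟨z, hza, hz⟩ := exists_mem_of_val_lt_one A (val_inv_lt_one_of_notMem A haA)
  have hcab : (c : AlgebraicClosure ℚ) * a ^ p = b := by
    rw [hcc]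
    exact div_mul_cancel₀ b (pow_ne_zero p ha0)
  have h1 := r_eq_placeInfC hp hπ hsurj hNk hr b a c z hc hz hcab hza ha0 hb0 x hxb hxa
  have hPN : P.ord (jN p) < 0 := by
    have h2 : P.ord (jN p) = -(p : ℤ) := hP
    have := hp.pos
    omega
  rcases ord_pole hp hπ hsurj hNk hr P hPN with ⟨h2, -, -⟩ | ⟨-, -, h3⟩
  · rw [h1, h2]
  · exfalso
    have h4 : P.ord (jN p) = -(p : ℤ) := hP
    have := hp.two_le
    omega

set_option synthInstance.maxHeartbeats 400000 in
set_option maxHeartbeats 1000000 in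
/-- **Type `0` ⟹ the reduction is the reduction of the cusp `0`.**  `x` over `(j, j_p) = (b, a)`,
`b ∉ A`, `|a / b^p| < 1`; `P` a place with `ord_P j_p = -1` (the cusp `0`); `r` any place
reduction along `A` (residue characteristic `ℓ ≠ p`).  Then `r x = r P`. -/
theorem red_type_zero {p ℓ : ℕ} [NeZero p] (hp : p.Prime) (hℓ : ℓ.Prime) (hℓp : ℓ ≠ p)
    (A : ValuationSubring (AlgebraicClosure ℚ)) (hA : A.LiesOverPrime ℓ)
    {r : Place (AlgebraicClosure ℚ) (modularFunctionFieldBar p) →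
      Place (IsLocalRing.ResidueField A) (modularFunctionFieldFullC (IsLocalRing.ResidueField A) p)}
    (hr : IsPlaceReductionModL A p r)
    (b a : AlgebraicClosure ℚ) (hb : b ∉ A) (hu : A.valuation (a / b ^ p) < 1)
    (x : Place (AlgebraicClosure ℚ) (modularFunctionFieldBar p))
    (hxb : 0 < x.ord (jFormal p ⟨1, one_dvd p⟩ -
      algebraMap (AlgebraicClosure ℚ) (modularFunctionFieldBar p) b))
    (hxa : 0 < x.ord (jFormal p ⟨p, dvd_rfl⟩ -
      algebraMap (AlgebraicClosure ℚ) (modularFunctionFieldBar p) a))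
    (P : Place (AlgebraicClosure ℚ) (modularFunctionFieldBar p))
    (hP : P.ord (jFormal p ⟨p, dvd_rfl⟩) = -1) :
    r x = r P := by
  have haA := not_mem_of_over hp hℓ hℓp A hA hr b a hb x hxb hxa
  have : IsAlgClosed (IsLocalRing.ResidueField A) :=
    Fermat.Agent.Lib.FF.CharP.isAlgClosed_residueField A
  have hℓp' : ¬ ℓ ∣ p := fun h => hℓp ((Nat.prime_dvd_prime_iff_eq hℓ hp).mp h)
  have hNk : (p : IsLocalRing.ResidueField A) ≠ 0 :=
    Fermat.Agent.ESJ.natCast_residue_ne_zero' A hℓ hA p hℓp'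
  have hπ := Fermat.Agent.ESJ.residue_eq_zero_of_not_isUnit' A
  have hsurj : Function.Surjective (IsLocalRing.residue A) := IsLocalRing.residue_surjective
  have hb0 : b ≠ 0 := fun h => hb (h ▸ A.zero_mem)
  have ha0 : a ≠ 0 := fun h => haA (h ▸ A.zero_mem)
  obtain ⟨c, hcc, hc⟩ := exists_mem_of_val_lt_one A hu
  obtain ⟨z, hza, hz⟩ := exists_mem_of_val_lt_one A (val_inv_lt_one_of_notMem A haA)
  have hcab : (c : AlgebraicClosure ℚ) * b ^ p = a := by
    rw [hcc]
    exact div_mul_cancel₀ a (pow_ne_zero p hb0)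
  have hc0 : (c : AlgebraicClosure ℚ) ≠ 0 := by
    rw [hcc]
    exact div_ne_zero ha0 (pow_ne_zero p hb0)
  -- `r x` is a pole of `x̄`, not `∞̄`
  have hxaN : 0 < x.ord (jN p - algebraMap KQ (FN p) a) := hxa
  have hx1 : 0 < x.ord ((xL KQ p)⁻¹ - algebraMap KQ _ (z : KQ)) := by
    rw [hza, ← jN_eq_xL, ord_inv_sub_inv x ha0 hxaN]
    exact hxaN
  have hQ := ord_xk_neg_of_inv hπ hsurj hNk hr z hz x hx1
  have hne := r_ne_placeInfC hp hπ hsurj hNk hr b a c hc hc0 hcab ha0 x hxb hxa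
  -- so is `r P`
  have hPN : P.ord (jN p) < 0 := by
    have h2 : P.ord (jN p) = -1 := hP
    omega
  have hQP := ord_xk_neg_of_inv hπ hsurj hNk hr (0 : A) (map_zero _) P
    (ord_inv_pos_of_pole (A := A) P hPN)
  have hneP : r P ≠ Fermat.Agent.Lib.FF.PlaceInf.placeInfC (IsLocalRing.ResidueField A) p := by
    rcases ord_pole hp hπ hsurj hNk hr P hPN with ⟨-, -, h3⟩ | ⟨h2, -, -⟩
    · exfalso
      have h4 : P.ord (jN p) = -1 := hP
      have := hp.two_le
      omega
    · exact h2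
  exact (poles_xk hp hπ hsurj hNk).2 _ _ hQ hQP hne hneP

set_option synthInstance.maxHeartbeats 400000 in
set_option maxHeartbeats 1000000 in
/-- **(M3c'): the place of type `∞` over `j = b` is unique and unramified over `b`.**  `b ∉ A`,
`x` over `(b, a)`, `x'` over `(b, a')` with `|a / b^p| = |a' / b^p| = 1`; `A` of residue
characteristic `ℓ ≠ p` with reduction inputs at level `p`. -/
theorem place_unique_of_inputs {p ℓ : ℕ} [NeZero p] (hp : p.Prime) (hℓ : ℓ.Prime) (hℓp : ℓ ≠ p)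
    (A : ValuationSubring (AlgebraicClosure ℚ)) (hA : A.LiesOverPrime ℓ)
    (h : ReductionInputsModL A p)
    (b a a' : AlgebraicClosure ℚ) (hb : b ∉ A) (hu : A.valuation (a / b ^ p) = 1)
    (hu' : A.valuation (a' / b ^ p) = 1)
    (x x' : Place (AlgebraicClosure ℚ) (modularFunctionFieldBar p))
    (hxb : 0 < x.ord (jFormal p ⟨1, one_dvd p⟩ -
      algebraMap (AlgebraicClosure ℚ) (modularFunctionFieldBar p) b))
    (hxa : 0 < x.ord (jFormal p ⟨p, dvd_rfl⟩ -
      algebraMap (AlgebraicClosure ℚ) (modularFunctionFieldBar p) a))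
    (hxb' : 0 < x'.ord (jFormal p ⟨1, one_dvd p⟩ -
      algebraMap (AlgebraicClosure ℚ) (modularFunctionFieldBar p) b))
    (hxa' : 0 < x'.ord (jFormal p ⟨p, dvd_rfl⟩ -
      algebraMap (AlgebraicClosure ℚ) (modularFunctionFieldBar p) a')) :
    x = x' ∧ x.ord (jFormal p ⟨1, one_dvd p⟩ -
      algebraMap (AlgebraicClosure ℚ) (modularFunctionFieldBar p) b) = 1 := by
  have : IsAlgClosed (IsLocalRing.ResidueField A) :=
    Fermat.Agent.Lib.FF.CharP.isAlgClosed_residueField A
  have hℓp' : ¬ ℓ ∣ p := fun h => hℓp ((Nat.prime_dvd_prime_iff_eq hℓ hp).mp h)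
  have hNk : (p : IsLocalRing.ResidueField A) ≠ 0 :=
    Fermat.Agent.ESJ.natCast_residue_ne_zero' A hℓ hA p hℓp'
  have hπ := Fermat.Agent.ESJ.residue_eq_zero_of_not_isUnit' A
  have hsurj : Function.Surjective (IsLocalRing.residue A) := IsLocalRing.residue_surjective
  have hr := isPlaceReductionModL_placeReductionModL h
  obtain ⟨hb0, ha0, -, hvc⟩ := val_type_inf A hp hb hu
  obtain ⟨-, ha0', -, hvc'⟩ := val_type_inf A hp hb hu'
  obtain ⟨c, hcc, hc⟩ := exists_mem_of_val_lt_one A hvc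
  obtain ⟨c', hcc', hc'⟩ := exists_mem_of_val_lt_one A hvc'
  obtain ⟨z, hzb, hz⟩ := exists_mem_of_val_lt_one A (val_inv_lt_one_of_notMem A hb)
  have hcab : (c : AlgebraicClosure ℚ) * a ^ p = b := by
    rw [hcc]
    exact div_mul_cancel₀ b (pow_ne_zero p ha0)
  have hcab' : (c' : AlgebraicClosure ℚ) * a' ^ p = b := by
    rw [hcc']
    exact div_mul_cancel₀ b (pow_ne_zero p ha0')
  have key := unique_core2 hp hπ hsurj hNk hr a a' b c c' z hc hc' hz hcab hcab' hzb hb0
    (fricke p • x) (fricke p • x')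
    (by rw [ord_fricke_smul_jBar_sub]; exact hxa) (by rw [ord_fricke_smul_jN_sub]; exact hxb)
    (by rw [ord_fricke_smul_jBar_sub]; exact hxa') (by rw [ord_fricke_smul_jN_sub]; exact hxb')
  refine ⟨smul_left_cancel _ key.1, ?_⟩
  have h2 := key.2
  rw [ord_fricke_smul_jN_sub] at h2
  exact h2

set_option synthInstance.maxHeartbeats 400000 in
set_option maxHeartbeats 1000000 in
/-- **Type `∞`, with the `q`-expansion place:** `r x = r (∞)` for `r = placeReductionModL h`. -/
theorem placeReductionModL_eq_of_type_inf {p ℓ : ℕ} [NeZero p] (hp : p.Prime) (hℓ : ℓ.Prime)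
    (hℓp : ℓ ≠ p) (A : ValuationSubring (AlgebraicClosure ℚ)) (hA : A.LiesOverPrime ℓ)
    (h : ReductionInputsModL A p)
    (b a : AlgebraicClosure ℚ) (hb : b ∉ A) (hu : A.valuation (a / b ^ p) = 1)
    (x : Place (AlgebraicClosure ℚ) (modularFunctionFieldBar p))
    (hxb : 0 < x.ord (jFormal p ⟨1, one_dvd p⟩ -
      algebraMap (AlgebraicClosure ℚ) (modularFunctionFieldBar p) b))
    (hxa : 0 < x.ord (jFormal p ⟨p, dvd_rfl⟩ -
      algebraMap (AlgebraicClosure ℚ) (modularFunctionFieldBar p) a)) :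
    placeReductionModL h x =
      placeReductionModL h (Fermat.Agent.Lib.FF.PlaceInf.placeInfL (AlgebraicClosure ℚ) p) :=
  red_type_inf hp hℓ hℓp A hA (isPlaceReductionModL_placeReductionModL h) b a hb hu x hxb hxa _
    (by
      have h1 : (Fermat.Agent.Lib.FF.PlaceInf.placeInfL (AlgebraicClosure ℚ) p).ord (jN p) =
          -(p : ℤ) := by
        rw [jN_eq_xL]
        exact placeInfL_ord_xL
      exact h1)

end

end Fermat.Agent.S15P.M3.RedInf11
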