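/-
S15 / (M3c): uniqueness of the place of type `∞` over a pair `(b, a)` (helper6's literal
`place_unique_of_type_inf`, report #4902).

`p` a prime, `ℓ ≠ p` a prime, `A` a valuation subring of `ℚ̄` over `ℓ`, `k` its residue field,
`r` a place reduction of level `p` (Prelude: `IsPlaceReductionAlong`), `Q∞ = placeInfC k p` the
cusp `∞` of the mod-`ℓ` function field.

* `finrank_JNbar_le` : `[F̄_p : k(J̄(q^p))] ≤ p + 1` (modular equation), any field `k`;
* `eq_placeInfC_of_type_inf` : the only place `Q` of `F̄_p` with `ord_Q J̄ < 0` and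
  `ord_Q J̄(q^p) = p · ord_Q J̄` is `Q∞`;
* `ord_j_nonpos_of_red_inf` : no zero of `J` reduces to `Q∞`;
* `exists_unique_red_inf`, `unique_of_red_inf` : for `b ∉ A`, exactly one place over `J = b`
  reduces to `Q∞`, and it is a simple zero of `J - b`;
* `unique_of_type_inf` : the same with "type `∞`" instead of `r x = Q∞`;
* `place_unique_of_type_inf` : helper6's literal, with (M3b) as a hypothesis `M3b`.
-/
import Mathlib
import Fermat.Agent.CAR.Ell.InstJ
import Fermat.Agent.Lib.Red.SpecUnit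
import Fermat.Agent.Lib.Red.SpecCharL
import Fermat.Agent.Lib.FF.PlaceInf
import Fermat.Agent.Lib.ECHeight.Pole
import Fermat.Agent.ESJ.Red.R2Good
import Fermat.Agent.ESJ.Cong.LevelGen
import Fermat.Agent.Lib.Red.TorsionOneStep

set_option autoImplicit false
set_option linter.unusedSectionVars false
set_option linter.style.haveILetI false

namespace Fermat.Agent.S15P.M3.Unique81

open ModularCurve AlgebraicCurve Polynomial IntermediateField
open Fermat.Agent.S28 Fermat.Agent.S24 Fermat.Agent.Lib.Red Fermat.Agent.Lib.FF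

noncomputable section

/-! ### The degree of `F̄_p` over `k(J̄(q^p))` -/

section Degree

variable (k : Type*) [Field k]

/-- The level-`p` field is generated by `J(q)` and `J(q^p)`. -/
theorem fullC_prime_le {p : ℕ} [NeZero p] (hp : p.Prime) :
    modularFunctionFieldFullC k p ≤ IntermediateField.adjoin k {TD.Jd k 1, TD.Jd k p} := by
  rw [fullC_eq_FF]
  unfold TD.FF
  refine IntermediateField.adjoin.mono k _ _ ?_
  rintro _ ⟨d, hd, rfl⟩
  rcases (Nat.dvd_prime hp).mp hd with rfl | rfl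
  · left; simp
  · right; simp

/-- `J̄` is a root of the monic polynomial `Φ_p(X, J̄(q^p))` of degree `p + 1`. -/
theorem eval_polyAt_Jbar {p : ℕ} [NeZero p] (hp : p.Prime) (D : TD.ModEq p) :
    (TD.polyAt D.Φ (ModL.JNbar k p)).eval (ModL.Jbar k p) = 0 := by
  have hinj : Function.Injective (algebraMap ↥(modularFunctionFieldFullC k p) (LaurentSeries k)) :=
    (algebraMap ↥(modularFunctionFieldFullC k p) (LaurentSeries k)).injective
  apply hinj
  rw [TD.map_eval_polyAt, map_zero]
  have h := D.rel₁' hp.ne_zero k 1 one_ne_zero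
  rw [one_mul] at h
  have e1 : algebraMap ↥(modularFunctionFieldFullC k p) (LaurentSeries k) (ModL.JNbar k p) =
      TD.Jd k p := ModL.coe_JNbar k p
  have e2 : algebraMap ↥(modularFunctionFieldFullC k p) (LaurentSeries k) (ModL.Jbar k p) =
      TD.Jd k 1 := by
    rw [TD.Jd_one]; rfl
  rw [e1, e2]
  exact h

set_option synthInstance.maxHeartbeats 400000 in
/-- **`[F̄_p : k(J̄(q^p))] ≤ p + 1`.** -/
theorem finrank_JNbar_le {p : ℕ} [NeZero p] (hp : p.Prime) :
    Module.finrank k⟮ModL.JNbar k p⟯ ↥(modularFunctionFieldFullC k p) ≤ p + 1 := by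
  obtain ⟨D⟩ := Fermat.Agent.ESJ.Cong.LevelGen.modEq_prime p hp
  set Jp := ModL.JNbar k p with hJp
  set J := ModL.Jbar k p with hJ
  -- the monic polynomial over `k(J_p)`
  set P : Polynomial ↥(k⟮Jp⟯) := TD.polyAt D.Φ (AdjoinSimple.gen k Jp) with hP
  have hPmonic : P.Monic := TD.polyAt_monic D.monic _
  have hPdeg : P.natDegree = p + 1 := by
    rw [hP, TD.polyAt_natDegree D.monic, D.natDegree_eq]
  have hPeval : Polynomial.aeval J P = 0 := by
    rw [Polynomial.aeval_def, ← Polynomial.eval_map, hP, TD.polyAt_map, AdjoinSimple.algebraMap_gen]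
    exact eval_polyAt_Jbar k hp D
  have hint : IsIntegral ↥(k⟮Jp⟯) J := ⟨P, hPmonic, hPeval⟩
  -- `k(J_p)(J)` is everything
  have htop : (k⟮Jp⟯)⟮J⟯ = ⊤ := by
    rw [eq_top_iff]
    intro f _
    have hf : (f : LaurentSeries k) ∈ IntermediateField.adjoin k {TD.Jd k 1, TD.Jd k p} :=
      fullC_prime_le k hp f.2
    set T : IntermediateField k ↥(modularFunctionFieldFullC k p) :=
      ((k⟮Jp⟯)⟮J⟯).restrictScalars k with hT
    have hle : IntermediateField.adjoin k {TD.Jd k 1, TD.Jd k p} ≤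
        T.map (modularFunctionFieldFullC k p).val := by
      rw [IntermediateField.adjoin_le_iff]
      rintro y (rfl | rfl)
      · refine ⟨J, ?_, ?_⟩
        · show J ∈ (k⟮Jp⟯)⟮J⟯
          exact IntermediateField.mem_adjoin_simple_self _ J
        · show (J : LaurentSeries k) = _
          rw [TD.Jd_one]; rfl
      · refine ⟨Jp, ?_, ?_⟩
        · have h1 : Jp ∈ k⟮Jp⟯ := IntermediateField.mem_adjoin_simple_self k Jp
          have h2 : ((⟨Jp, h1⟩ : ↥(k⟮Jp⟯)) : ↥(modularFunctionFieldFullC k p)) ∈ (k⟮Jp⟯)⟮J⟯ :=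
            IntermediateField.algebraMap_mem _ (⟨Jp, h1⟩ : ↥(k⟮Jp⟯))
          show Jp ∈ (k⟮Jp⟯)⟮J⟯
          exact h2
        · exact ModL.coe_JNbar k p
    obtain ⟨g, hg, hgf⟩ := hle hf
    have : g = f := Subtype.ext hgf
    rw [← this]
    have hg' : g ∈ (k⟮Jp⟯)⟮J⟯ := hg
    exact hg'
  have h1 : Module.finrank ↥(k⟮Jp⟯) ↥((k⟮Jp⟯)⟮J⟯) = (minpoly ↥(k⟮Jp⟯) J).natDegree :=
    IntermediateField.adjoin.finrank hint
  have h2 : (minpoly ↥(k⟮Jp⟯) J).natDegree ≤ P.natDegree :=
    Polynomial.natDegree_le_natDegree (minpoly.min _ J hPmonic hPeval)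
  rw [htop, IntermediateField.finrank_top'] at h1
  omega

end Degree

/-! ### The cusp `∞` of the mod-`ℓ` curve is the only place of type `∞` -/

section TypeInf

open Fermat.Agent.Lib.FF.PlaceInf

variable (k : Type*) [Field k]

theorem JNbar_ne_zero (p : ℕ) [NeZero p] : ModL.JNbar k p ≠ 0 := by
  intro h0
  have h := congrArg (fun f : ↥(modularFunctionFieldFullC k p) => (f : LaurentSeries k)) h0
  simp only [ModL.coe_JNbar, ZeroMemClass.coe_zero] at h
  exact ValInd.Jd_ne_zero (K := k) p (NeZero.ne p) h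

theorem Jbar_ne_zero (p : ℕ) [NeZero p] : ModL.Jbar k p ≠ 0 := by
  intro h0
  have h := congrArg (fun f : ↥(modularFunctionFieldFullC k p) => (f : LaurentSeries k)) h0
  simp only [ModL.coe_Jbar, ZeroMemClass.coe_zero] at h
  have h1 := ValInd.Jd_ne_zero (K := k) 1 one_ne_zero
  rw [TD.Jd_one] at h1
  exact h1 h

/-- `ord_∞ J̄(q^p) = -p`. -/
theorem placeInfC_ord_JNbar (p : ℕ) [NeZero p] :
    (placeInfC k p).ord (ModL.JNbar k p) = -(p : ℤ) := by
  rw [placeInfC_ord k p _ (JNbar_ne_zero k p), ModL.coe_JNbar]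
  exact ValInd.order_Jd (K := k) p (NeZero.ne p)

/-- `ord_∞ J̄ = -1`. -/
theorem placeInfC_ord_Jbar (p : ℕ) [NeZero p] :
    (placeInfC k p).ord (ModL.Jbar k p) = -1 := by
  rw [placeInfC_ord k p _ (Jbar_ne_zero k p), ModL.coe_Jbar]
  have h := ValInd.order_Jd (K := k) 1 one_ne_zero
  rw [TD.Jd_one] at h
  rw [h]; simp

/-- **The only place of type `∞`** (`ord J̄ < 0`, `ord J̄(q^p) = p · ord J̄`) of the mod-`ℓ`
function field of prime level `p` is the cusp `∞`. -/
theorem eq_placeInfC_of_type_inf [IsAlgClosed k] {p : ℕ} [NeZero p] (hp : p.Prime)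
    (Q : Place k ↥(modularFunctionFieldFullC k p))
    (h1 : Q.ord (ModL.Jbar k p) < 0)
    (h2 : Q.ord (ModL.JNbar k p) = p * Q.ord (ModL.Jbar k p)) :
    Q = placeInfC k p := by
  classical
  by_contra hne
  obtain ⟨hfin, hsum⟩ := Fermat.Agent.Lib.Red.SpecInst.poles_JNbar k p
  have hle := finrank_JNbar_le k hp
  have hp2 := hp.two_le
  have hpos : (0 : ℤ) < p := by exact_mod_cast hp.pos
  have hQ : Q.ord (ModL.JNbar k p) < 0 := by
    rw [h2]
    exact mul_neg_of_pos_of_neg hpos h1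
  have hQmem : Q ∈ hfin.toFinset := hfin.mem_toFinset.mpr hQ
  have hImem : placeInfC k p ∈ hfin.toFinset :=
    hfin.mem_toFinset.mpr
      (show (placeInfC k p).ord (ModL.JNbar k p) < 0 by rw [placeInfC_ord_JNbar]; omega)
  have hsub : ({Q, placeInfC k p} : Finset (Place k ↥(modularFunctionFieldFullC k p))) ⊆
      hfin.toFinset := by
    intro v hv
    rcases Finset.mem_insert.mp hv with rfl | hv
    · exact hQmem
    · rw [Finset.mem_singleton.mp hv]; exact hImem
  have hge : ∑ v ∈ ({Q, placeInfC k p} : Finset (Place k ↥(modularFunctionFieldFullC k p))),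
      (-v.ord (ModL.JNbar k p)) ≤ ∑ v ∈ hfin.toFinset, (-v.ord (ModL.JNbar k p)) :=
    Finset.sum_le_sum_of_subset_of_nonneg hsub fun v hv _ => by
      have : v.ord (ModL.JNbar k p) < 0 := hfin.mem_toFinset.mp hv
      omega
  rw [Finset.sum_pair hne, placeInfC_ord_JNbar, hsum, h2] at hge
  have h3 : (p : ℤ) ≤ -(p * Q.ord (ModL.Jbar k p)) := by nlinarith
  have h4 : (Module.finrank ↥(k⟮ModL.JNbar k p⟯) ↥(modularFunctionFieldFullC k p) : ℤ) ≤ p + 1 := by
    exact_mod_cast hle
  have hp2' : (2 : ℤ) ≤ p := by exact_mod_cast hp2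
  omega

end TypeInf

/-! ### Generalities on places -/

section Gen

variable {K F : Type*} [Field K] [Field F] [Algebra K F]

/-- A polynomial in a function regular at `P` is regular at `P`. -/
theorem aeval_mem_place (P : Place K F) {x : F} (hx : x ∈ P.toValuationSubring) (R : K[X]) :
    Polynomial.aeval x R ∈ P.toValuationSubring := by
  rw [Polynomial.aeval_eq_sum_range]
  refine sum_mem fun i _ => ?_
  rw [Algebra.smul_def]
  exact mul_mem (P.algebraMap_mem' _) (pow_mem hx i)

/-- At a pole of `f`, `f - c` has the same order as `f`. -/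
theorem ord_sub_algebraMap_of_neg (P : Place K F) {f : F} (hf : P.ord f < 0) (c : K) :
    P.ord (f - algebraMap K F c) = P.ord f := by
  rcases eq_or_ne c 0 with rfl | hc
  · simp
  have hf0 : f ≠ 0 := by rintro rfl; simp at hf
  have hc0 : algebraMap K F c ≠ 0 := fun h =>
    hc ((algebraMap K F).injective (by rw [h, map_zero]))
  have hoc : P.ord (algebraMap K F c) = 0 := Fermat.Agent.S24.ord_algebraMap P c
  have hg0 : f - algebraMap K F c ≠ 0 := by
    intro h
    rw [sub_eq_zero] at h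
    rw [h, hoc] at hf
    exact lt_irrefl _ hf
  have h1 := ord_sub_ge P hf0 hc0 hg0
  have h2 := ord_add_ge P hg0 hc0 (by rw [sub_add_cancel]; exact hf0)
  rw [sub_add_cancel] at h2
  rw [hoc] at h1 h2
  rcases le_total (P.ord f) 0 with h | h
  · rw [min_eq_left h] at h1
    rcases le_total (P.ord (f - algebraMap K F c)) 0 with h' | h'
    · rw [min_eq_left h'] at h2
      omega
    · rw [min_eq_right h'] at h2
      omega
  · omega

/-- Push-forward of a difference, pointwise. -/
theorem mapDomain_sub_zsmul {α β : Type*} (r : α → β) (D₁ D₂ : α →₀ ℤ) (n : ℤ) (Q : β) :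
    Finsupp.mapDomain r (D₁ - n • D₂) Q =
      Finsupp.mapDomain r D₁ Q - n * Finsupp.mapDomain r D₂ Q := by
  rw [← Finsupp.mapDomain.addMonoidHom_apply, map_sub, map_zsmul, Finsupp.sub_apply,
    Finsupp.smul_apply, Finsupp.mapDomain.addMonoidHom_apply, Finsupp.mapDomain.addMonoidHom_apply,
    smul_eq_mul]

/-- If `Φ(J_p, J) = 0` with `J` a non-unit and `J_p` an element of a valuation ring `O`, then
`Φ(J_p, 0)` is a non-unit of `O`. -/
theorem eval_polyAt_zero_not_isUnit {F : Type*} [Field F] (O : ValuationSubring F)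
    (Φ : Polynomial (Polynomial ℤ)) (J Jp : O)
    (hrel : (TD.polyAt Φ (J : F)).eval (Jp : F) = 0) (hJ : ¬ IsUnit J) :
    ¬ IsUnit ((TD.polyAt Φ (0 : O)).eval Jp) := by
  have h1 : (TD.polyAt Φ J).eval Jp = 0 := by
    apply Subtype.val_injective
    have h := TD.map_eval_polyAt O.subtype Φ Jp J
    exact h.trans hrel
  intro hu
  have h2 := TD.map_eval_polyAt (IsLocalRing.residue O) Φ Jp J
  have h3 := TD.map_eval_polyAt (IsLocalRing.residue O) Φ Jp (0 : O)
  have hJ0 : IsLocalRing.residue O J = 0 :=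
    (IsLocalRing.residue_eq_zero_iff J).2 ((IsLocalRing.mem_maximalIdeal J).2 hJ)
  rw [h1, map_zero, hJ0] at h2
  rw [map_zero, ← h2] at h3
  have h4 := hu.map (IsLocalRing.residue O)
  rw [h3] at h4
  exact not_isUnit_zero h4

/-- The same in terms of orders at a place. -/
theorem ord_eval_polyAt_zero_pos (P : Place K F) (Φ : Polynomial (Polynomial ℤ)) (J Jp : F)
    (hrel : (TD.polyAt Φ J).eval Jp = 0) (hJ : 0 < P.ord J) (hJp : 0 ≤ P.ord Jp)
    (hne : (TD.polyAt Φ (0 : F)).eval Jp ≠ 0) :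
    0 < P.ord ((TD.polyAt Φ (0 : F)).eval Jp) := by
  have hJm : J ∈ P.toValuationSubring := mem_of_ord_nonneg P hJ.le
  have hJpm : Jp ∈ P.toValuationSubring := mem_of_ord_nonneg P hJp
  have hJnu : ¬ IsUnit (⟨J, hJm⟩ : P.toValuationSubring) := by
    intro hu
    have h := P.ord_coe_unit hu.unit
    rw [IsUnit.unit_spec] at h
    have h' : P.ord J = 0 := h
    omega
  have h := eval_polyAt_zero_not_isUnit P.toValuationSubring Φ ⟨J, hJm⟩ ⟨Jp, hJpm⟩ hrel hJnu
  have hzc : (((TD.polyAt Φ (0 : P.toValuationSubring)).eval ⟨Jp, hJpm⟩ : P.toValuationSubring) : F)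
      = (TD.polyAt Φ (0 : F)).eval Jp := by
    have h5 := TD.map_eval_polyAt P.toValuationSubring.subtype Φ ⟨Jp, hJpm⟩
      (0 : P.toValuationSubring)
    rw [map_zero] at h5
    exact h5
  rw [ord_pos_iff]
  intro hinv
  apply h
  rw [← hzc] at hinv hne
  refine IsUnit.of_mul_eq_one ⟨_, hinv⟩ ?_
  apply Subtype.ext
  exact mul_inv_cancel₀ hne

end Gen

/-! ### The fibre of a place reduction over the cusp `∞` -/

section Upstairs

set_option synthInstance.maxHeartbeats 400000

open Fermat.Agent.Lib.FF.PlaceInf Fermat.Agent.Lib.Red.OneStep Fermat.Agent.CAR.Ell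
  Fermat.Agent.ESJ

/-- The divisor of a function of `ℚ̄·F_p`. -/
def dv (p : ℕ) [NeZero p] (f : FN p) : Divisor KQ (FN p) :=
  haveI := finiteDimensional_jBar p
  Finsupp.ofSupportFinite (fun P => P.ord f)
    (Fermat.Agent.Lib.FF.CharP.finite_ord_ne_zero (jBar p) f)

theorem dv_apply (p : ℕ) [NeZero p] (f : FN p) (P : Place KQ (FN p)) : dv p f P = P.ord f := rfl

variable {p : ℕ} [NeZero p] (A : ValuationSubring KQ)
  (hNk : (p : IsLocalRing.ResidueField A) ≠ 0)
  {r : Place KQ (FN p) → Place (IsLocalRing.ResidueField A)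
    ↥(modularFunctionFieldFullC (IsLocalRing.ResidueField A) p)}

/-- `r_* div f = div (red f)` for `f` in the Gauss valuation ring with nonzero reduction. -/
theorem push_ord (hr : IsPlaceReductionAlong A (IsLocalRing.residue A) p r)
    (f : Ow A (IsLocalRing.residue A) p hNk)
    (hf : redF A (IsLocalRing.residue A) p (residue_eq_zero_of_not_isUnit' A) hNk f ≠ 0)
    (Q : Place (IsLocalRing.ResidueField A)
      ↥(modularFunctionFieldFullC (IsLocalRing.ResidueField A) p)) :
    Finsupp.mapDomain r (dv p (f : FN p)) Q =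
      Q.ord (redF A (IsLocalRing.residue A) p (residue_eq_zero_of_not_isUnit' A) hNk f) :=
  SpecUnit.mapDomain_eq_ord_redF (residue_eq_zero_of_not_isUnit' A) hNk
    (fun g _ => ⟨dv p g, fun _ => rfl⟩) r hr f hf (dv p (f : FN p)) (fun _ => rfl) Q

/-- The reduction of an element of the Gauss ring given by an `A`-integral series. -/
theorem coe_redF_of_incl (f : Ow A (IsLocalRing.residue A) p hNk) (y : LaurentSeries A)
    (hy : ((f : FN p) : LaurentSeries KQ) = incl A y) :
    ((redF A (IsLocalRing.residue A) p (residue_eq_zero_of_not_isUnit' A) hNk f :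
      ↥(modularFunctionFieldFullC (IsLocalRing.ResidueField A) p)) :
        LaurentSeries (IsLocalRing.ResidueField A)) = rbar A (IsLocalRing.residue A) y := by
  have hy' : incl A y ∈ laurentBaseChange KQ (modularFunctionFieldFull p) := hy ▸ (f : FN p).2
  have e : f = ⟨⟨incl A y, hy'⟩, incl_mem_gaussRing A _ y⟩ := Subtype.ext (Subtype.ext hy)
  have h := coe_redF_incl (residue_eq_zero_of_not_isUnit' A) hNk y hy'
  rwa [← e] at h

/-- `J` as an element of the Gauss valuation ring. -/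
def Jw : Ow A (IsLocalRing.residue A) p hNk :=
  ⟨jBar p, by
    rw [mem_Ow_iff, coe_jBar_eq_Jd, ← incl_Jd A 1]
    exact incl_mem_gaussRing A _ _⟩

theorem coe_Jw : ((Jw A hNk : Ow A (IsLocalRing.residue A) p hNk) : FN p) = jBar p := rfl

theorem redF_Jw :
    redF A (IsLocalRing.residue A) p (residue_eq_zero_of_not_isUnit' A) hNk (Jw A hNk) =
      ModL.Jbar (IsLocalRing.ResidueField A) p := by
  apply Subtype.ext
  rw [coe_redF_of_incl A hNk (Jw A hNk) (TD.Jd A 1)
    (by rw [coe_Jw, coe_jBar_eq_Jd, incl_Jd]), rbar_Jd, TD.Jd_one]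
  rfl

theorem xk_eq_JNbar (k : Type*) [Field k] : xk k p = ModL.JNbar k p :=
  Subtype.ext (by rw [coe_xk, ModL.coe_JNbar])

/-- The modular equation in `ℚ̄·F_p`: `Φ_p(J(q^p), J) = 0`. -/
theorem eval_polyAt_xL (hp : p.Prime) (D : TD.ModEq p) :
    (TD.polyAt D.Φ (jBar p)).eval (xL KQ p) = 0 := by
  have hinj : Function.Injective (algebraMap (FN p) (LaurentSeries KQ)) :=
    (algebraMap (FN p) (LaurentSeries KQ)).injective
  apply hinj
  rw [TD.map_eval_polyAt, map_zero]
  have h := D.rel₂' hp.ne_zero KQ 1 one_ne_zero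
  rw [one_mul] at h
  have e1 : algebraMap (FN p) (LaurentSeries KQ) (jBar p) = TD.Jd KQ 1 := coe_jBar_eq_Jd p
  have e2 : algebraMap (FN p) (LaurentSeries KQ) (xL KQ p) = TD.Jd KQ p := rfl
  rw [e1, e2]
  exact h

include hNk

/-- No zero of `J(q^p)` reduces to the cusp `∞`. -/
theorem not_ord_xL_pos_of_red_inf (hr : IsPlaceReductionAlong A (IsLocalRing.residue A) p r)
    (P : Place KQ (FN p)) (hP : r P = placeInfC (IsLocalRing.ResidueField A) p) :
    ¬ 0 < P.ord (xL KQ p) := by
  intro hpos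
  haveI : IsAlgClosed (IsLocalRing.ResidueField A) :=
    Fermat.Agent.Lib.FF.CharP.isAlgClosed_residueField A
  have h := ord_xt_pos_of_ord_x_pos (residue_eq_zero_of_not_isUnit' A)
    IsLocalRing.residue_surjective hNk (BaseFn.Data.ofJ A (IsLocalRing.residue A) p) hr P
    (by rw [BaseFn.Data.ofJ_x]; exact hpos)
  rw [BaseFn.Data.ofJ_xt, hP, xk_eq_JNbar, placeInfC_ord_JNbar] at h
  have : (0 : ℤ) ≤ p := Int.natCast_nonneg p
  omega

set_option maxHeartbeats 1000000 in
/-- **No zero of `J` reduces to the cusp `∞`.** -/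
theorem ord_jBar_nonpos_of_red_inf (hp : p.Prime)
    (hr : IsPlaceReductionAlong A (IsLocalRing.residue A) p r)
    (P : Place KQ (FN p)) (hP : r P = placeInfC (IsLocalRing.ResidueField A) p) :
    P.ord (jBar p) ≤ 0 := by
  by_contra hcon
  have hJpos : 0 < P.ord (jBar p) := not_le.mp hcon
  haveI : IsAlgClosed (IsLocalRing.ResidueField A) :=
    Fermat.Agent.Lib.FF.CharP.isAlgClosed_residueField A
  obtain ⟨D⟩ := Fermat.Agent.ESJ.Cong.LevelGen.modEq_prime p hp
  have hpZ : (0 : ℤ) < p := by exact_mod_cast hp.pos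
  set B := BaseFn.Data.ofJ A (IsLocalRing.residue A) p with hB
  have hBx : B.x = xL KQ p := BaseFn.Data.ofJ_x A _ p
  have hBxt : B.xt (residue_eq_zero_of_not_isUnit' A) hNk = ModL.JNbar _ p := by
    rw [hB, BaseFn.Data.ofJ_xt, xk_eq_JNbar]
  -- the polynomial `R = Φ_p(X, 0)`
  set RA : Polynomial A := TD.polyAt D.Φ (0 : A) with hRA
  have hRQ : RA.map A.subtype = TD.polyAt D.Φ (0 : KQ) := by
    rw [hRA, TD.polyAt_map, map_zero]
  have hRk : RA.map (IsLocalRing.residue A) = TD.polyAt D.Φ (0 : IsLocalRing.ResidueField A) := by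
    rw [hRA, TD.polyAt_map, map_zero]
  have hRQmonic : (TD.polyAt D.Φ (0 : KQ)).Monic := TD.polyAt_monic D.monic _
  have hRQdeg : (TD.polyAt D.Φ (0 : KQ)).natDegree = p + 1 := by
    rw [TD.polyAt_natDegree D.monic, D.natDegree_eq]
  have hRkmonic : (TD.polyAt D.Φ (0 : IsLocalRing.ResidueField A)).Monic :=
    TD.polyAt_monic D.monic _
  have hRkdeg : (TD.polyAt D.Φ (0 : IsLocalRing.ResidueField A)).natDegree = p + 1 := by
    rw [TD.polyAt_natDegree D.monic, D.natDegree_eq]
  -- the two elements of the Gauss ring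
  set fJ : Ow A (IsLocalRing.residue A) p hNk := ⟨B.x, B.x_mem_Ow hNk⟩ with hfJ
  set fR : Ow A (IsLocalRing.residue A) p hNk :=
    ⟨Polynomial.aeval B.x (RA.map A.subtype), B.aeval_map_mem_Ow hNk RA⟩ with hfR
  have hredJ : redF A (IsLocalRing.residue A) p (residue_eq_zero_of_not_isUnit' A) hNk fJ =
      ModL.JNbar _ p := by
    rw [hfJ, B.redF_x, hBxt]
  have hredR : redF A (IsLocalRing.residue A) p (residue_eq_zero_of_not_isUnit' A) hNk fR =
      Polynomial.aeval (ModL.JNbar (IsLocalRing.ResidueField A) p)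
        (TD.polyAt D.Φ (0 : IsLocalRing.ResidueField A)) := by
    rw [hfR, B.redF_aeval_map, hBxt, hRk]
  have hordJ : (placeInfC (IsLocalRing.ResidueField A) p).ord
      (ModL.JNbar (IsLocalRing.ResidueField A) p) = -(p : ℤ) := placeInfC_ord_JNbar _ p
  have hordR : (placeInfC (IsLocalRing.ResidueField A) p).ord
      (Polynomial.aeval (ModL.JNbar (IsLocalRing.ResidueField A) p)
        (TD.polyAt D.Φ (0 : IsLocalRing.ResidueField A))) = ((p : ℤ) + 1) * (-(p : ℤ)) := by
    rw [Fermat.Agent.Lib.ECHeight.ord_aeval_monic _ hRkmonic (by rw [hordJ]; omega), hRkdeg,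
      hordJ]
    push_cast
    ring
  have hredJ0 : redF A (IsLocalRing.residue A) p (residue_eq_zero_of_not_isUnit' A) hNk fJ ≠ 0 := by
    rw [hredJ]; exact JNbar_ne_zero _ p
  have hredR0 : redF A (IsLocalRing.residue A) p (residue_eq_zero_of_not_isUnit' A) hNk fR ≠ 0 := by
    rw [hredR]
    intro h0
    rw [h0, Place.ord_zero] at hordR
    nlinarith
  have hpushJ := push_ord A hNk hr fJ hredJ0 (placeInfC (IsLocalRing.ResidueField A) p)
  have hpushR := push_ord A hNk hr fR hredR0 (placeInfC (IsLocalRing.ResidueField A) p)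
  rw [hredJ, hordJ] at hpushJ
  rw [hredR, hordR] at hpushR
  have hcJ : ((fJ : Ow A (IsLocalRing.residue A) p hNk) : FN p) = xL KQ p := hBx
  have hcR : ((fR : Ow A (IsLocalRing.residue A) p hNk) : FN p) =
      Polynomial.aeval (xL KQ p) (TD.polyAt D.Φ (0 : KQ)) := by
    show Polynomial.aeval B.x (RA.map A.subtype) = _
    rw [hBx, hRQ]
  rw [hcJ] at hpushJ
  rw [hcR] at hpushR
  -- the divisor `E = div R(J_p) - (p + 1) div J_p`
  set E : Place KQ (FN p) →₀ ℤ :=
    dv p (Polynomial.aeval (xL KQ p) (TD.polyAt D.Φ (0 : KQ))) - ((p : ℤ) + 1) • dv p (xL KQ p)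
    with hE
  have hEapply : ∀ P' : Place KQ (FN p), E P' =
      P'.ord (Polynomial.aeval (xL KQ p) (TD.polyAt D.Φ (0 : KQ))) -
        ((p : ℤ) + 1) * P'.ord (xL KQ p) := by
    intro P'
    rw [hE, Finsupp.sub_apply, Finsupp.smul_apply, dv_apply, dv_apply, smul_eq_mul]
  have hEpush : Finsupp.mapDomain r E (placeInfC (IsLocalRing.ResidueField A) p) = 0 := by
    rw [hE, mapDomain_sub_zsmul, hpushJ, hpushR]
    ring
  have hEnn : ∀ P' : Place KQ (FN p), r P' = placeInfC (IsLocalRing.ResidueField A) p →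
      0 ≤ E P' := by
    intro P' hP'
    rw [hEapply]
    rcases lt_trichotomy (P'.ord (xL KQ p)) 0 with h | h | h
    · rw [Fermat.Agent.Lib.ECHeight.ord_aeval_monic P' hRQmonic h, hRQdeg]
      push_cast
      linarith
    · rw [h, mul_zero, sub_zero]
      exact ord_nonneg_of_mem P' (aeval_mem_place P' (mem_of_ord_nonneg P' h.ge) _)
    · exact absurd h (not_ord_xL_pos_of_red_inf A hNk hr P' hP')
  have hE0 := eq_zero_of_mapDomain_eq_zero r E _ hEnn hEpush P hP
  -- at `P`
  have hJp0 : P.ord (xL KQ p) = 0 := by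
    have h1 : ¬ P.ord (xL KQ p) < 0 := by
      intro h
      have := (ord_Jd_neg_iff P p (NeZero.ne p) (jBar p) (xL KQ p) (coe_jBar_eq_Jd p) rfl).mpr h
      omega
    have h2 := not_ord_xL_pos_of_red_inf A hNk hr P hP
    omega
  have haev : Polynomial.aeval (xL KQ p) (TD.polyAt D.Φ (0 : KQ)) =
      (TD.polyAt D.Φ (0 : FN p)).eval (xL KQ p) := by
    rw [Polynomial.aeval_def, ← Polynomial.eval_map, TD.polyAt_map, map_zero]
  have hne : (TD.polyAt D.Φ (0 : FN p)).eval (xL KQ p) ≠ 0 := by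
    rw [← haev, ← hcR]
    intro h0
    apply hredR0
    have : fR = 0 := Subtype.ext h0
    rw [this, map_zero]
  have hpos := ord_eval_polyAt_zero_pos P D.Φ (jBar p) (xL KQ p) (eval_polyAt_xL hp D) hJpos
    hJp0.ge hne
  rw [hEapply, hJp0, mul_zero, sub_zero, haev] at hE0
  omega

set_option maxHeartbeats 1000000 in
/-- **Exactly one place over `J = b`, `b ∉ A`, reduces to the cusp `∞`, and it is simple.** -/
theorem exists_unique_red_inf (hp : p.Prime)
    (hr : IsPlaceReductionAlong A (IsLocalRing.residue A) p r)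
    (b : KQ) (hb : b ∉ A) :
    ∃ P₀ : Place KQ (FN p), r P₀ = placeInfC (IsLocalRing.ResidueField A) p ∧
      P₀.ord (jBar p - algebraMap KQ (FN p) b) = 1 ∧
      ∀ y : Place KQ (FN p), r y = placeInfC (IsLocalRing.ResidueField A) p →
        0 < y.ord (jBar p - algebraMap KQ (FN p) b) → y = P₀ := by
  haveI : IsAlgClosed (IsLocalRing.ResidueField A) :=
    Fermat.Agent.Lib.FF.CharP.isAlgClosed_residueField A
  have hb0 : b ≠ 0 := fun h => hb (h ▸ A.zero_mem)
  have hc : b⁻¹ ∈ A := (A.mem_or_inv_mem b).resolve_left hb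
  have hcnu : ¬ IsUnit (⟨b⁻¹, hc⟩ : A) := by
    intro hu
    obtain ⟨w, hw⟩ := hu.exists_right_inv
    have hw' : b⁻¹ * (w : KQ) = 1 := congrArg Subtype.val hw
    have hwb : (w : KQ) = b := by
      have h1 : b * (b⁻¹ * (w : KQ)) = b * 1 := by rw [hw']
      rwa [← mul_assoc, mul_inv_cancel₀ hb0, one_mul, mul_one] at h1
    exact hb (hwb ▸ w.2)
  set cw : Ow A (IsLocalRing.residue A) p hNk :=
    ⟨algebraMap KQ (FN p) ((⟨b⁻¹, hc⟩ : A) : KQ),
      (algebraMap_mem_Ow_iff (residue_eq_zero_of_not_isUnit' A) hNk _).mpr hc⟩ with hcw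
  have hredc : redF A (IsLocalRing.residue A) p (residue_eq_zero_of_not_isUnit' A) hNk cw = 0 := by
    have h := redF_algebraMap (N := p) (residue_eq_zero_of_not_isUnit' A) hNk (⟨b⁻¹, hc⟩ : A)
    rw [residue_eq_zero_of_not_isUnit' A _ hcnu, map_zero] at h
    exact h
  set f₂ : Ow A (IsLocalRing.residue A) p hNk := cw * Jw A hNk - 1 with hf₂
  have hred2 : redF A (IsLocalRing.residue A) p (residue_eq_zero_of_not_isUnit' A) hNk f₂ = -1 := by
    rw [hf₂, map_sub, map_mul, hredc, zero_mul, map_one, zero_sub]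
  have hred20 : redF A (IsLocalRing.residue A) p (residue_eq_zero_of_not_isUnit' A) hNk f₂ ≠ 0 := by
    rw [hred2]; exact neg_ne_zero.mpr one_ne_zero
  have hredJ0 : redF A (IsLocalRing.residue A) p (residue_eq_zero_of_not_isUnit' A) hNk
      (Jw A hNk) ≠ 0 := by
    rw [redF_Jw]; exact Jbar_ne_zero _ p
  have hpush2 := push_ord A hNk hr f₂ hred20 (placeInfC (IsLocalRing.ResidueField A) p)
  have hpushJ := push_ord A hNk hr (Jw A hNk) hredJ0 (placeInfC (IsLocalRing.ResidueField A) p)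
  have hneg1 : (placeInfC (IsLocalRing.ResidueField A) p).ord
      (-1 : ↥(modularFunctionFieldFullC (IsLocalRing.ResidueField A) p)) = 0 := by
    have h := Fermat.Agent.S24.ord_algebraMap (placeInfC (IsLocalRing.ResidueField A) p)
      (-1 : IsLocalRing.ResidueField A)
    rwa [map_neg, map_one] at h
  rw [hred2, hneg1] at hpush2
  rw [redF_Jw, placeInfC_ord_Jbar, coe_Jw] at hpushJ
  have hc2 : ((f₂ : Ow A (IsLocalRing.residue A) p hNk) : FN p) =
      algebraMap KQ (FN p) b⁻¹ * (jBar p - algebraMap KQ (FN p) b) := by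
    show algebraMap KQ (FN p) b⁻¹ * jBar p - 1 = _
    rw [mul_sub, ← map_mul, inv_mul_cancel₀ hb0, map_one]
  have hJb0 : jBar p - algebraMap KQ (FN p) b ≠ 0 := by
    intro h0
    apply hred20
    have h1 : f₂ = 0 := Subtype.ext (by rw [hc2, h0, mul_zero]; rfl)
    rw [h1, map_zero]
  have hcinv0 : algebraMap KQ (FN p) b⁻¹ ≠ 0 := fun h =>
    inv_ne_zero hb0 ((algebraMap KQ (FN p)).injective (by rw [h, map_zero]))
  have hord2 : ∀ P : Place KQ (FN p), P.ord ((f₂ : Ow A (IsLocalRing.residue A) p hNk) : FN p) =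
      P.ord (jBar p - algebraMap KQ (FN p) b) := by
    intro P
    rw [hc2, P.ord_mul hcinv0 hJb0, Fermat.Agent.S24.ord_algebraMap, zero_add]
  set E : Place KQ (FN p) →₀ ℤ :=
    dv p ((f₂ : Ow A (IsLocalRing.residue A) p hNk) : FN p) - (1 : ℤ) • dv p (jBar p) with hE
  have hEapply : ∀ P : Place KQ (FN p), E P =
      P.ord (jBar p - algebraMap KQ (FN p) b) - P.ord (jBar p) := by
    intro P
    rw [hE, Finsupp.sub_apply, Finsupp.smul_apply, dv_apply, dv_apply, smul_eq_mul, one_mul,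
      hord2]
  have hEpush : Finsupp.mapDomain r E (placeInfC (IsLocalRing.ResidueField A) p) = 1 := by
    rw [hE, mapDomain_sub_zsmul, hpush2, hpushJ]
    ring
  have hEnn : ∀ P : Place KQ (FN p), r P = placeInfC (IsLocalRing.ResidueField A) p →
      0 ≤ E P := by
    intro P hP
    rw [hEapply]
    rcases lt_or_ge (P.ord (jBar p)) 0 with h | h
    · rw [ord_sub_algebraMap_of_neg P h b, sub_self]
    · have h0 : P.ord (jBar p) = 0 :=
        le_antisymm (ord_jBar_nonpos_of_red_inf A hNk hp hr P hP) h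
      rw [h0, sub_zero]
      exact ord_nonneg_of_mem P (sub_mem (mem_of_ord_nonneg P h) (P.algebraMap_mem' b))
  obtain ⟨P₀, hrP₀, hEP₀, hP₀⟩ := exists_of_mapDomain_eq_one r E _ hEnn hEpush
  refine ⟨P₀, hrP₀, ?_, ?_⟩
  · rw [hEapply] at hEP₀
    rcases lt_or_ge (P₀.ord (jBar p)) 0 with h | h
    · rw [ord_sub_algebraMap_of_neg P₀ h b, sub_self] at hEP₀
      exact absurd hEP₀ (by norm_num)
    · have h0 : P₀.ord (jBar p) = 0 :=
        le_antisymm (ord_jBar_nonpos_of_red_inf A hNk hp hr P₀ hrP₀) h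
      rw [h0, sub_zero] at hEP₀
      exact hEP₀
  · intro y hy hyb
    by_contra hne
    have h0 := hP₀ y hy hne
    rw [hEapply] at h0
    have hJ0 : y.ord (jBar p) = 0 := by
      have h1 := ord_add_algebraMap_eq_zero y hyb b hb0
      rwa [sub_add_cancel] at h1
    omega

/-- **At most one place over `J = b`, `b ∉ A`, reduces to the cusp `∞`.** -/
theorem unique_of_red_inf (hp : p.Prime)
    (hr : IsPlaceReductionAlong A (IsLocalRing.residue A) p r)
    (b : KQ) (hb : b ∉ A) (x x' : Place KQ (FN p))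
    (hxb : 0 < x.ord (jBar p - algebraMap KQ (FN p) b))
    (hxb' : 0 < x'.ord (jBar p - algebraMap KQ (FN p) b))
    (hx : r x = placeInfC (IsLocalRing.ResidueField A) p)
    (hx' : r x' = placeInfC (IsLocalRing.ResidueField A) p) : x = x' := by
  obtain ⟨P₀, -, -, key⟩ := exists_unique_red_inf A hNk hp hr b hb
  rw [key x hx hxb, key x' hx' hxb']

end Upstairs

/-! ### Type `∞`, and helper6's literal -/

section Literal

set_option synthInstance.maxHeartbeats 400000

open Fermat.Agent.Lib.FF.PlaceInf Fermat.Agent.ESJ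

local notation "Qb" => AlgebraicClosure ℚ

/-- **Uniqueness of the place of type `∞` over `J = b`** (`b ∉ A`): two places over `b` whose
reductions (along ANY place reduction `r` of level `p`) are of type `∞` coincide. -/
theorem unique_of_type_inf {p ℓ : ℕ} [NeZero p] (hp : p.Prime) (hℓ : ℓ.Prime) (hℓp : ℓ ≠ p)
    (A : ValuationSubring Qb) (hA : A.LiesOverPrime ℓ)
    {r : Place KQ (FN p) → Place (IsLocalRing.ResidueField A)
      ↥(modularFunctionFieldFullC (IsLocalRing.ResidueField A) p)}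
    (hr : IsPlaceReductionAlong A (IsLocalRing.residue A) p r)
    (b : Qb) (hb : b ∉ A) (x x' : Place KQ (FN p))
    (hxb : 0 < x.ord (jBar p - algebraMap KQ (FN p) b))
    (hxb' : 0 < x'.ord (jBar p - algebraMap KQ (FN p) b))
    (hx1 : (r x).ord (ModL.Jbar (IsLocalRing.ResidueField A) p) < 0)
    (hx2 : (r x).ord (ModL.JNbar (IsLocalRing.ResidueField A) p) =
      p * (r x).ord (ModL.Jbar (IsLocalRing.ResidueField A) p))
    (hx1' : (r x').ord (ModL.Jbar (IsLocalRing.ResidueField A) p) < 0)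
    (hx2' : (r x').ord (ModL.JNbar (IsLocalRing.ResidueField A) p) =
      p * (r x').ord (ModL.Jbar (IsLocalRing.ResidueField A) p)) : x = x' := by
  haveI : IsAlgClosed (IsLocalRing.ResidueField A) :=
    Fermat.Agent.Lib.FF.CharP.isAlgClosed_residueField A
  have hNk : (p : IsLocalRing.ResidueField A) ≠ 0 :=
    natCast_residue_ne_zero' A hℓ hA p
      (fun h => hℓp ((Nat.prime_dvd_prime_iff_eq hℓ hp).mp h))
  exact unique_of_red_inf A hNk hp hr b hb x x' hxb hxb'
    (eq_placeInfC_of_type_inf _ hp (r x) hx1 hx2) (eq_placeInfC_of_type_inf _ hp (r x') hx1' hx2')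

/-- The function `j(q^d)` on `X₀(N)`, `d ∣ N` (verbatim helper6's `jd`, #4902). -/
def jd (N d : ℕ) [NeZero d] (hd : d ∣ N) : modularFunctionFieldBar N :=
  ⟨coeffEmb Qb (qExpand ℚ d jq), coeffEmb_mem_laurentBaseChange Qb (jqd_mem_full N hd)⟩

/-- The function `j̄(q^d)` on the reduction (verbatim helper6's `jbar`, #4902). -/
def jbar (k : Type*) [Field k] (N d : ℕ) [NeZero d] (hd : d ∣ N) :
    modularFunctionFieldFullC k N :=
  ⟨qExpand k d (jqModC k), jqModCd_mem_full k N hd⟩

theorem jd_one_eq (p : ℕ) [NeZero p] : jd p 1 (one_dvd p) = jBar p := rfl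

theorem jbar_one_eq (k : Type*) [Field k] (p : ℕ) [NeZero p] :
    jbar k p 1 (one_dvd p) = ModL.Jbar k p :=
  Subtype.ext (qExpand_one_apply _)

theorem jbar_self_eq (k : Type*) [Field k] (p : ℕ) [NeZero p] :
    jbar k p p dvd_rfl = ModL.JNbar k p := rfl

/-- **(M3c), with the two instances of (M3b) as hypotheses**: `h` ANY reduction datum of level
`p` at `A`; `x`, `x'` over `J = b ∉ A` whose reductions are of type `∞`. -/
theorem place_unique_of_type_inf' {p ℓ : ℕ} [NeZero p] (hp : p.Prime) (hℓ : ℓ.Prime)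
    (hℓp : ℓ ≠ p) (A : ValuationSubring Qb) (hA : A.LiesOverPrime ℓ)
    (h : ReductionInputsModL A p) (b : Qb) (hb : b ∉ A)
    (x x' : Place Qb (modularFunctionFieldBar p))
    (hxb : 0 < x.ord (jd p 1 (one_dvd p) - algebraMap Qb (modularFunctionFieldBar p) b))
    (hxb' : 0 < x'.ord (jd p 1 (one_dvd p) - algebraMap Qb (modularFunctionFieldBar p) b))
    (hx1 : (placeReductionModL h x).ord (jbar _ p 1 (one_dvd p)) < 0)
    (hx2 : (placeReductionModL h x).ord (jbar _ p p dvd_rfl) =
      p * (placeReductionModL h x).ord (jbar _ p 1 (one_dvd p)))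
    (hx1' : (placeReductionModL h x').ord (jbar _ p 1 (one_dvd p)) < 0)
    (hx2' : (placeReductionModL h x').ord (jbar _ p p dvd_rfl) =
      p * (placeReductionModL h x').ord (jbar _ p 1 (one_dvd p))) : x = x' := by
  rw [jbar_one_eq, jbar_self_eq] at hx2 hx2'
  rw [jbar_one_eq] at hx1 hx1'
  exact unique_of_type_inf hp hℓ hℓp A hA (isPlaceReductionModL_placeReductionModL h) b hb x x'
    hxb hxb' hx1 hx2 hx1' hx2'

/-- The statement of (M3b) — helper6's literal `place_reduction_cusp` (#4902), `∀`-closed. -/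
def M3b : Prop :=
  ∀ {M p ℓ : ℕ} [NeZero M] [NeZero p] (hpM : p ∣ M) (A : ValuationSubring Qb)
    (_ : A.LiesOverPrime ℓ) (h : ReductionInputsModL A M)
    (x : Place Qb (modularFunctionFieldBar M)) (b a : Qb) (_ : b ∉ A)
    (_ : 0 < x.ord (jd M 1 (one_dvd M) - algebraMap Qb (modularFunctionFieldBar M) b))
    (_ : 0 < x.ord (jd M p hpM - algebraMap Qb (modularFunctionFieldBar M) a)),
    (placeReductionModL h x).ord (jbar _ M 1 (one_dvd M)) < 0 ∧
    (A.valuation (a / b ^ p) = 1 →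
      (placeReductionModL h x).ord (jbar _ M p hpM) =
        p * (placeReductionModL h x).ord (jbar _ M 1 (one_dvd M))) ∧
    (A.valuation (a / b ^ p) < 1 →
      (placeReductionModL h x).ord (jbar _ M 1 (one_dvd M)) =
        p * (placeReductionModL h x).ord (jbar _ M p hpM))

/-- **(M3c)** uniqueness of the place of type `∞` over `(b, a)` — helper6's literal (#4902),
with (M3b) as the hypothesis `hM3b`. -/
theorem place_unique_of_type_inf (hM3b : M3b) {p ℓ : ℕ} [NeZero p] (hp : p.Prime)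
    (hℓ : ℓ.Prime) (hℓp : ℓ ≠ p) (h5 : 5 ≤ ℓ) (A : ValuationSubring Qb)
    (hA : A.LiesOverPrime ℓ) (b a : Qb) (hb : b ∉ A) (hu : A.valuation (a / b ^ p) = 1)
    (x x' : Place Qb (modularFunctionFieldBar p))
    (hxb : 0 < x.ord (jd p 1 (one_dvd p) - algebraMap Qb (modularFunctionFieldBar p) b))
    (hxa : 0 < x.ord (jd p p dvd_rfl - algebraMap Qb (modularFunctionFieldBar p) a))
    (hxb' : 0 < x'.ord (jd p 1 (one_dvd p) - algebraMap Qb (modularFunctionFieldBar p) b))
    (hxa' : 0 < x'.ord (jd p p dvd_rfl - algebraMap Qb (modularFunctionFieldBar p) a)) :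
    x = x' := by
  have hℓp' : ¬ ℓ ∣ p := fun h => hℓp ((Nat.prime_dvd_prime_iff_eq hℓ hp).mp h)
  have h : ReductionInputsModL A p := (good_pairs p ℓ hℓ hℓp' (Or.inl h5) A hA).1
  obtain ⟨h1, h2, -⟩ := hM3b (dvd_refl p) A hA h x b a hb hxb hxa
  obtain ⟨h1', h2', -⟩ := hM3b (dvd_refl p) A hA h x' b a hb hxb' hxa'
  exact place_unique_of_type_inf' hp hℓ hℓp A hA h b hb x x' hxb hxb' h1 (h2 hu) h1' (h2' hu)

end Literal

end

end Fermat.Agent.S15P.M3.Unique81
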