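/-
S15 / (G2-M3c′), row 628: the place of type `∞` over a non-integral `j`-value, at a PRIME level
`q` and ANY residue characteristic `ℓ ≠ q` (`2` and `3` included).

`A` a valuation ring of `ℚ̄` over `ℓ`, `b ∉ A`.  A place `x` of `ℚ̄(X₀(q))` over `j = b` is of
type `∞` when `j_q(x) = a` with `|a / b^q| = 1` (`M6.TypeInf`).  Then

* `typeInf_exists` : there is a place of type `∞` over `b`;
* `typeInf_unique` : it is unique (the values `a` are not assumed equal);
* `typeInf_simple` : it is a simple zero of `j - b`;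
* `red_typeInf`    : it reduces to the cusp `∞̄` (along any place reduction of level `q`).

Proofs.  Existence: the fibre of the place reduction `r` over the cusp `∞̄` contains exactly one
zero `P₀` of `j - b` (`Unique81.exists_unique_red_inf`), and for every `c` which is not a unit of
`A` the function `j_q - c j^q` has no zero of order `> q · ord j` over `∞̄`
(`ord_sub_mul_pow_of_red_inf`: push-forward of the divisor of the Gauss unit `j_q - c j^q`,
resp. `c⁻¹ j_q - j^q`, whose reduction `j̄_q`, resp. `- j̄^q`, has order `-q` at `∞̄`); hence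
`a / b^q` is a unit at `P₀`.  Uniqueness: helper11's argument of `Unique11` (Fricke involution,
the second pole of `j̄_q` is simple), run with two values `a`, `a'`.  Simplicity:
`S24.Fricke.ord_jBar_sub_eq_one` (`b ≠ 0, 1728`).
-/
import Mathlib
import Fermat.Agent.S15P.M3.Unique11
import Fermat.Agent.S15P.M3.Unique81
import Fermat.Agent.S15P.M6.Defs
import Fermat.Agent.S24.ARest
import Fermat.Agent.S24.FrickeRamif

set_option autoImplicit false
set_option linter.unusedSectionVars false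
set_option linter.unusedVariables false
set_option linter.style.haveILetI false

namespace Fermat.Agent.S15P.M3.TypeInf81

open ModularCurve AlgebraicCurve Polynomial IntermediateField
open Fermat.Agent.S28 Fermat.Agent.S24 Fermat.Agent.Lib.Red Fermat.Agent.Lib.FF
open Fermat.Agent.S15P.M3

noncomputable section

/-! ### The fibre over the cusp `∞̄`: the functions `α j_q - β j^q` -/

section Upstairs

set_option synthInstance.maxHeartbeats 400000

open Fermat.Agent.Lib.FF.PlaceInf Fermat.Agent.Lib.Red.OneStep Fermat.Agent.CAR.Ell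
  Fermat.Agent.ESJ Fermat.Agent.S15P.M3.Unique81

variable {p : ℕ} [NeZero p] (A : ValuationSubring KQ)
  (hNk : (p : IsLocalRing.ResidueField A) ≠ 0)
  {r : Place KQ (FN p) → Place (IsLocalRing.ResidueField A)
    ↥(modularFunctionFieldFullC (IsLocalRing.ResidueField A) p)}

omit [NeZero p] in
theorem jBar_ne_zero' [NeZero p] : jBar p ≠ 0 := by
  rw [Unique11.jBar_eq_jL]
  exact jL_ne_zero KQ p

include hNk

/-- `u = j_p / j^p` is regular at every place over the cusp `∞̄`. -/
theorem u_mem_of_red_inf (hp : p.Prime)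
    (hr : IsPlaceReductionAlong A (IsLocalRing.residue A) p r)
    (P : Place KQ (FN p)) (hP : r P = placeInfC (IsLocalRing.ResidueField A) p) :
    xL KQ p * (jBar p)⁻¹ ^ p ∈ P.toValuationSubring := by
  haveI : IsAlgClosed (IsLocalRing.ResidueField A) :=
    Fermat.Agent.Lib.FF.CharP.isAlgClosed_residueField A
  have hJ0 : jBar p ≠ 0 := jBar_ne_zero'
  have hx0 : xL KQ p ≠ 0 := Unique11.xL_ne_zero
  apply mem_of_ord_nonneg
  rw [P.ord_mul hx0 (pow_ne_zero p (inv_ne_zero hJ0)), ← zpow_natCast, Place.ord_zpow,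
    Place.ord_inv]
  rcases lt_or_ge (P.ord (jBar p)) 0 with h | h
  · have hxneg : P.ord (xL KQ p) < 0 :=
      (ord_Jd_neg_iff P p (NeZero.ne p) (jBar p) (xL KQ p) (coe_jBar_eq_Jd p) rfl).mp h
    have hPinf := Unique11.eq_placeInfL_of_pole hp (residue_eq_zero_of_not_isUnit' A)
      IsLocalRing.residue_surjective hNk hr P hxneg hP
    rw [hPinf, Unique11.placeInfL_ord_xL, Unique11.placeInfL_ord_jBar]
    simp
  · have h0 : P.ord (jBar p) = 0 :=
      le_antisymm (ord_jBar_nonpos_of_red_inf A hNk hp hr P hP) h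
    have hx : 0 ≤ P.ord (xL KQ p) := by
      by_contra hneg
      have := (ord_Jd_neg_iff P p (NeZero.ne p) (jBar p) (xL KQ p) (coe_jBar_eq_Jd p) rfl).mpr
        (not_le.mp hneg)
      omega
    rw [h0]
    simpa using hx

set_option maxHeartbeats 1000000 in
/-- **Core.** `α, β ∈ A` such that the reduction `ᾱ j̄_p - β̄ j̄^p` has order `-p` at the cusp
`∞̄`: then `α j_p - β j^p` has order exactly `p · ord j` at every place over `∞̄`. -/
theorem ord_comb_of_red_inf (hp : p.Prime)
    (hr : IsPlaceReductionAlong A (IsLocalRing.residue A) p r) (α β : A)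
    (hord : (placeInfC (IsLocalRing.ResidueField A) p).ord
      (algebraMap (IsLocalRing.ResidueField A)
          ↥(modularFunctionFieldFullC (IsLocalRing.ResidueField A) p)
          (IsLocalRing.residue A α) * ModL.JNbar (IsLocalRing.ResidueField A) p -
        algebraMap (IsLocalRing.ResidueField A)
          ↥(modularFunctionFieldFullC (IsLocalRing.ResidueField A) p)
          (IsLocalRing.residue A β) * ModL.Jbar (IsLocalRing.ResidueField A) p ^ p) = -(p : ℤ))
    (P : Place KQ (FN p)) (hP : r P = placeInfC (IsLocalRing.ResidueField A) p) :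
    algebraMap KQ (FN p) (α : KQ) * xL KQ p - algebraMap KQ (FN p) (β : KQ) * jBar p ^ p ≠ 0 ∧
      P.ord (algebraMap KQ (FN p) (α : KQ) * xL KQ p -
        algebraMap KQ (FN p) (β : KQ) * jBar p ^ p) = p * P.ord (jBar p) := by
  haveI : IsAlgClosed (IsLocalRing.ResidueField A) :=
    Fermat.Agent.Lib.FF.CharP.isAlgClosed_residueField A
  have hpZ : (0 : ℤ) < p := by exact_mod_cast hp.pos
  have hJ0 : jBar p ≠ 0 := jBar_ne_zero'
  set B := BaseFn.Data.ofJ A (IsLocalRing.residue A) p with hB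
  have hBx : B.x = xL KQ p := BaseFn.Data.ofJ_x A _ p
  have hBxt : B.xt (residue_eq_zero_of_not_isUnit' A) hNk = ModL.JNbar _ p := by
    rw [hB, BaseFn.Data.ofJ_xt, xk_eq_JNbar]
  set fJ : Ow A (IsLocalRing.residue A) p hNk := ⟨B.x, B.x_mem_Ow hNk⟩ with hfJ
  set cα : Ow A (IsLocalRing.residue A) p hNk :=
    ⟨algebraMap KQ (FN p) (α : KQ),
      (algebraMap_mem_Ow_iff (residue_eq_zero_of_not_isUnit' A) hNk _).mpr α.2⟩ with hcα
  set cβ : Ow A (IsLocalRing.residue A) p hNk :=
    ⟨algebraMap KQ (FN p) (β : KQ),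
      (algebraMap_mem_Ow_iff (residue_eq_zero_of_not_isUnit' A) hNk _).mpr β.2⟩ with hcβ
  set y : Ow A (IsLocalRing.residue A) p hNk := cα * fJ - cβ * Jw A hNk ^ p with hy
  have hredα : redF A (IsLocalRing.residue A) p (residue_eq_zero_of_not_isUnit' A) hNk cα =
      algebraMap _ _ (IsLocalRing.residue A α) :=
    redF_algebraMap (N := p) (residue_eq_zero_of_not_isUnit' A) hNk α
  have hredβ : redF A (IsLocalRing.residue A) p (residue_eq_zero_of_not_isUnit' A) hNk cβ =
      algebraMap _ _ (IsLocalRing.residue A β) :=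
    redF_algebraMap (N := p) (residue_eq_zero_of_not_isUnit' A) hNk β
  have hredJ : redF A (IsLocalRing.residue A) p (residue_eq_zero_of_not_isUnit' A) hNk fJ =
      ModL.JNbar _ p := by
    rw [hfJ, B.redF_x, hBxt]
  have hredy : redF A (IsLocalRing.residue A) p (residue_eq_zero_of_not_isUnit' A) hNk y =
      algebraMap _ _ (IsLocalRing.residue A α) * ModL.JNbar (IsLocalRing.ResidueField A) p -
        algebraMap _ _ (IsLocalRing.residue A β) *
          ModL.Jbar (IsLocalRing.ResidueField A) p ^ p := by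
    rw [hy, map_sub, map_mul, map_mul, map_pow, redF_Jw, hredα, hredβ, hredJ]
  have hredy0 : redF A (IsLocalRing.residue A) p (residue_eq_zero_of_not_isUnit' A) hNk y ≠ 0 := by
    intro h0
    rw [← hredy, h0, Place.ord_zero] at hord
    omega
  have hredJ0 : redF A (IsLocalRing.residue A) p (residue_eq_zero_of_not_isUnit' A) hNk
      (Jw A hNk) ≠ 0 := by
    rw [redF_Jw]; exact Jbar_ne_zero _ p
  have hpushy := push_ord A hNk hr y hredy0 (placeInfC (IsLocalRing.ResidueField A) p)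
  have hpushJ := push_ord A hNk hr (Jw A hNk) hredJ0 (placeInfC (IsLocalRing.ResidueField A) p)
  rw [hredy, hord] at hpushy
  rw [redF_Jw, placeInfC_ord_Jbar, coe_Jw] at hpushJ
  have hcy : ((y : Ow A (IsLocalRing.residue A) p hNk) : FN p) =
      algebraMap KQ (FN p) (α : KQ) * xL KQ p - algebraMap KQ (FN p) (β : KQ) * jBar p ^ p := by
    show algebraMap KQ (FN p) (α : KQ) * B.x - algebraMap KQ (FN p) (β : KQ) * jBar p ^ p = _
    rw [hBx]
  have hy0 : ((y : Ow A (IsLocalRing.residue A) p hNk) : FN p) ≠ 0 := by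
    intro h0
    apply hredy0
    have h1 : y = 0 := Subtype.ext h0
    rw [h1, map_zero]
  rw [hcy] at hpushy hy0
  set yF : FN p :=
    algebraMap KQ (FN p) (α : KQ) * xL KQ p - algebraMap KQ (FN p) (β : KQ) * jBar p ^ p with hyF
  set E : Place KQ (FN p) →₀ ℤ := dv p yF - (p : ℤ) • dv p (jBar p) with hE
  have hEapply : ∀ P' : Place KQ (FN p), E P' = P'.ord yF - p * P'.ord (jBar p) := by
    intro P'
    rw [hE, Finsupp.sub_apply, Finsupp.smul_apply, dv_apply, dv_apply, smul_eq_mul]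
  have hEpush : Finsupp.mapDomain r E (placeInfC (IsLocalRing.ResidueField A) p) = 0 := by
    rw [hE, mapDomain_sub_zsmul, hpushy, hpushJ]
    ring
  have hEnn : ∀ P' : Place KQ (FN p), r P' = placeInfC (IsLocalRing.ResidueField A) p →
      0 ≤ E P' := by
    intro P' hP'
    rw [hEapply]
    have hu := u_mem_of_red_inf A hNk hp hr P' hP'
    have hmem : yF * (jBar p)⁻¹ ^ p ∈ P'.toValuationSubring := by
      have e : yF * (jBar p)⁻¹ ^ p =
          algebraMap KQ (FN p) (α : KQ) * (xL KQ p * (jBar p)⁻¹ ^ p) -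
            algebraMap KQ (FN p) (β : KQ) := by
        rw [hyF, sub_mul, mul_assoc, mul_assoc, ← mul_pow, mul_inv_cancel₀ hJ0, one_pow, mul_one]
      rw [e]
      exact sub_mem (mul_mem (P'.algebraMap_mem' _) hu) (P'.algebraMap_mem' _)
    have h1 := ord_nonneg_of_mem P' hmem
    rw [P'.ord_mul hy0 (pow_ne_zero p (inv_ne_zero hJ0)), ← zpow_natCast, Place.ord_zpow,
      Place.ord_inv] at h1
    linarith
  have hE0 := eq_zero_of_mapDomain_eq_zero r E _ hEnn hEpush P hP
  rw [hEapply] at hE0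
  exact ⟨hy0, by linarith⟩

/-- **No zero over `∞̄`.** For `c` not a unit of `A` (`|c| ≠ 1`), the function `j_p - c j^p` has
order exactly `p · ord j` at every place over the cusp `∞̄`. -/
theorem ord_sub_mul_pow_of_red_inf (hp : p.Prime)
    (hr : IsPlaceReductionAlong A (IsLocalRing.residue A) p r) (c : KQ)
    (hc : A.valuation c ≠ 1) (P : Place KQ (FN p))
    (hP : r P = placeInfC (IsLocalRing.ResidueField A) p) :
    xL KQ p - algebraMap KQ (FN p) c * jBar p ^ p ≠ 0 ∧
      P.ord (xL KQ p - algebraMap KQ (FN p) c * jBar p ^ p) = p * P.ord (jBar p) := by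
  rcases lt_or_gt_of_ne hc with hlt | hgt
  · have hcA : c ∈ A := (A.valuation_le_one_iff c).mp hlt.le
    have hnu : ¬ IsUnit (⟨c, hcA⟩ : A) := fun hu =>
      hlt.ne ((A.valuation_eq_one_iff (⟨c, hcA⟩ : A)).mp hu)
    have hres : IsLocalRing.residue A ⟨c, hcA⟩ = 0 := residue_eq_zero_of_not_isUnit' A _ hnu
    have h := ord_comb_of_red_inf A hNk hp hr (1 : A) ⟨c, hcA⟩ (by
      rw [hres]
      simp only [map_one, map_zero, one_mul, zero_mul, sub_zero]
      exact placeInfC_ord_JNbar _ p) P hP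
    simpa using h
  · have hc0 : c ≠ 0 := by
      rintro rfl
      rw [map_zero] at hgt
      exact not_lt_of_ge zero_le_one hgt
    have hinv : A.valuation c⁻¹ < 1 := by
      rw [map_inv₀]
      exact inv_lt_one_of_one_lt₀ hgt
    have hcA : c⁻¹ ∈ A := (A.valuation_le_one_iff _).mp hinv.le
    have hnu : ¬ IsUnit (⟨c⁻¹, hcA⟩ : A) := fun hu =>
      hinv.ne ((A.valuation_eq_one_iff (⟨c⁻¹, hcA⟩ : A)).mp hu)
    have hres : IsLocalRing.residue A ⟨c⁻¹, hcA⟩ = 0 := residue_eq_zero_of_not_isUnit' A _ hnu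
    obtain ⟨h1, h2⟩ := ord_comb_of_red_inf A hNk hp hr ⟨c⁻¹, hcA⟩ (1 : A) (by
      rw [hres]
      simp only [map_one, map_zero, one_mul, zero_mul, zero_sub]
      rw [RH.ord_neg, ← zpow_natCast, Place.ord_zpow, placeInfC_ord_Jbar]
      ring) P hP
    have e : algebraMap KQ (FN p) ((⟨c⁻¹, hcA⟩ : A) : KQ) * xL KQ p -
        algebraMap KQ (FN p) (((1 : A) : A) : KQ) * jBar p ^ p =
        algebraMap KQ (FN p) c⁻¹ * (xL KQ p - algebraMap KQ (FN p) c * jBar p ^ p) := by
      rw [mul_sub, ← mul_assoc, ← map_mul, inv_mul_cancel₀ hc0]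
      simp
    rw [e] at h1 h2
    have hci : algebraMap KQ (FN p) c⁻¹ ≠ 0 := (_root_.map_ne_zero _).mpr (inv_ne_zero hc0)
    have hne : xL KQ p - algebraMap KQ (FN p) c * jBar p ^ p ≠ 0 := right_ne_zero_of_mul h1
    refine ⟨hne, ?_⟩
    rw [P.ord_mul hci hne, Fermat.Agent.S24.ord_algebraMap, zero_add] at h2
    exact h2

/-- **A point over the cusp `∞̄` is of type `∞`.** If `P` lies over `(j, j_p) = (b, a)`, `b ≠ 0`,
and reduces to the cusp `∞̄`, then `a / b^p` is a unit of `A`. -/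
theorem valuation_eq_one_of_red_inf (hp : p.Prime)
    (hr : IsPlaceReductionAlong A (IsLocalRing.residue A) p r) (b a : KQ) (hb0 : b ≠ 0)
    (P : Place KQ (FN p)) (hP : r P = placeInfC (IsLocalRing.ResidueField A) p)
    (hPb : 0 < P.ord (jBar p - algebraMap KQ (FN p) b))
    (hPa : 0 < P.ord (xL KQ p - algebraMap KQ (FN p) a)) :
    A.valuation (a / b ^ p) = 1 := by
  by_contra hc
  obtain ⟨hne, hord⟩ := ord_sub_mul_pow_of_red_inf A hNk hp hr (a / b ^ p) hc P hP
  have hJ0 : P.ord (jBar p) = 0 := Unique11.ord_eq_zero_of_sub_pos P hb0 hPb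
  have hpos := Unique11.ord_sub_mul_pow_pos P p hPa hPb
    (div_mul_cancel₀ a (pow_ne_zero p hb0)) hne
  rw [hord, hJ0, mul_zero] at hpos
  exact lt_irrefl _ hpos

/-- **Existence of the place of type `∞`** over `j = b`, `b ∉ A`: a simple zero `x` of `j - b`
reducing to the cusp `∞̄`, with `j_p(x) = a` and `|a / b^p| = 1`. -/
theorem exists_typeInf (hp : p.Prime)
    (hr : IsPlaceReductionAlong A (IsLocalRing.residue A) p r) (b : KQ) (hb : b ∉ A) :
    ∃ (x : Place KQ (FN p)) (a : KQ), x.ord (jBar p - algebraMap KQ (FN p) b) = 1 ∧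
      0 < x.ord (xL KQ p - algebraMap KQ (FN p) a) ∧ A.valuation (a / b ^ p) = 1 ∧
      r x = placeInfC (IsLocalRing.ResidueField A) p := by
  haveI : IsAlgClosed (IsLocalRing.ResidueField A) :=
    Fermat.Agent.Lib.FF.CharP.isAlgClosed_residueField A
  have hb0 : b ≠ 0 := fun h => hb (h ▸ A.zero_mem)
  obtain ⟨P₀, hrP₀, hord, -⟩ := exists_unique_red_inf A hNk hp hr b hb
  have hPb : 0 < P₀.ord (jBar p - algebraMap KQ (FN p) b) := by
    rw [hord]; exact one_pos
  have hJ0 : P₀.ord (jBar p) = 0 := Unique11.ord_eq_zero_of_sub_pos P₀ hb0 hPb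
  set B := BaseFn.Data.ofJ A (IsLocalRing.residue A) p with hB
  have hBx : B.x = xL KQ p := BaseFn.Data.ofJ_x A _ p
  have htr : Transcendental KQ (xL KQ p) := by
    have h := B.transcendental_x (residue_eq_zero_of_not_isUnit' A) hNk
    rwa [hBx] at h
  haveI hfin : Module.Finite ↥(KQ⟮xL KQ p⟯) (FN p) := by
    have h := B.finite_L (residue_eq_zero_of_not_isUnit' A) IsLocalRing.residue_surjective hNk
    rwa [hBx] at h
  haveI : Algebra.IsAlgebraic ↥(KQ⟮xL KQ p⟯) (FN p) := Algebra.IsAlgebraic.of_finite _ _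
  rcases Fermat.Agent.S24.exists_value (xL KQ p) htr P₀ with hneg | ⟨a, ha⟩
  · exfalso
    have := (ord_Jd_neg_iff P₀ p (NeZero.ne p) (jBar p) (xL KQ p) (coe_jBar_eq_Jd p) rfl).mpr hneg
    omega
  · exact ⟨P₀, a, hord, ha, valuation_eq_one_of_red_inf A hNk hp hr b a hb0 P₀ hrP₀ hPb ha, hrP₀⟩

end Upstairs

/-! ### Uniqueness (helper11's argument with two values `a`, `a'`) -/

section Fricke

open Fermat.Agent.Lib.FF.PlaceInf Fermat.Agent.S24.Fricke

variable {p : ℕ} [NeZero p] {A : ValuationSubring KQ} {k : Type} [Field k] [IsAlgClosed k]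
  {π : A →+* k}

omit [NeZero p] [IsAlgClosed k] in
/-- `b ∉ A`, `|a / b^p| = 1`: then `c = b / a^p` is in the maximal ideal of `A`. -/
theorem exists_c (hp : p.Prime) (hπ : ∀ a : A, ¬ IsUnit a → π a = 0) (b a : KQ) (hb : b ∉ A)
    (hu : A.valuation (a / b ^ p) = 1) :
    ∃ c : A, π c = 0 ∧ (c : KQ) ≠ 0 ∧ (c : KQ) * a ^ p = b := by
  have hb0 : b ≠ 0 := fun h => hb (h ▸ A.zero_mem)
  have hvb : 1 < A.valuation b := by
    rw [← not_le, A.valuation_le_one_iff]
    exact hb
  have hvb0 : 0 < A.valuation b := lt_trans zero_lt_one hvb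
  have ha0 : a ≠ 0 := by
    rintro rfl
    rw [zero_div, map_zero] at hu
    exact zero_ne_one hu
  have hva : A.valuation a = A.valuation b ^ p := by
    rw [map_div₀, map_pow] at hu
    exact (div_eq_one_iff_eq (pow_ne_zero p hvb0.ne')).mp hu
  have hvc : A.valuation (b / a ^ p) < 1 := by
    rw [map_div₀, map_pow, hva, ← pow_mul, div_lt_one₀ (pow_pos hvb0 _)]
    exact lt_self_pow₀ hvb (by nlinarith [hp.two_le])
  refine ⟨⟨b / a ^ p, (A.valuation_le_one_iff _).mp hvc.le⟩, hπ _ (fun hunit =>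
    (ne_of_lt hvc) ((A.valuation_eq_one_iff
      (⟨b / a ^ p, (A.valuation_le_one_iff _).mp hvc.le⟩ : A)).mp hunit)),
    div_ne_zero hb0 (pow_ne_zero p ha0), div_mul_cancel₀ b (pow_ne_zero p ha0)⟩

/-- **Uniqueness of the place of type `∞` over `j = b`**, `b ∉ A`: two places over `(b, a)` and
`(b, a')` with `|a / b^p| = |a' / b^p| = 1` coincide. -/
theorem unique_of_pairs (hp : p.Prime) (hπ : ∀ a : A, ¬ IsUnit a → π a = 0)
    (hsurj : Function.Surjective π) (hNk : (p : k) ≠ 0)
    {r : Place KQ (FN p) → Place k ↥(modularFunctionFieldFullC k p)}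
    (hr : IsPlaceReductionAlong A π p r) (b a a' : KQ) (hb : b ∉ A)
    (hu : A.valuation (a / b ^ p) = 1) (hu' : A.valuation (a' / b ^ p) = 1)
    (x x' : Place KQ (FN p))
    (hxb : 0 < x.ord (jBar p - algebraMap KQ (FN p) b))
    (hxa : 0 < x.ord (jN p - algebraMap KQ (FN p) a))
    (hxb' : 0 < x'.ord (jBar p - algebraMap KQ (FN p) b))
    (hxa' : 0 < x'.ord (jN p - algebraMap KQ (FN p) a')) : x = x' := by
  have hb0 : b ≠ 0 := fun h => hb (h ▸ A.zero_mem)
  have hvb : 1 < A.valuation b := by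
    rw [← not_le, A.valuation_le_one_iff]
    exact hb
  obtain ⟨c, hc, hc0, hcab⟩ := exists_c hp hπ b a hb hu
  obtain ⟨c', hc', hc0', hcab'⟩ := exists_c hp hπ b a' hb hu'
  have hvz : A.valuation b⁻¹ < 1 := by
    rw [map_inv₀]
    exact inv_lt_one_of_one_lt₀ hvb
  let z : A := ⟨b⁻¹, (A.valuation_le_one_iff _).mp hvz.le⟩
  have hz : π z = 0 := hπ z (fun hunit => (ne_of_lt hvz) ((A.valuation_eq_one_iff z).mp hunit))
  -- the Fricke involution exchanges `j` and `j_p`
  have hya : 0 < (fricke p • x).ord (jBar p - algebraMap KQ (FN p) a) := by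
    rw [ord_fricke_smul, map_sub, fricke_jBar_eq_jN, AlgEquiv.commutes]
    exact hxa
  have hyb : 0 < (fricke p • x).ord (jN p - algebraMap KQ (FN p) b) := by
    rw [ord_fricke_smul, map_sub, fricke_jN, AlgEquiv.commutes]
    exact hxb
  have hya' : 0 < (fricke p • x').ord (jBar p - algebraMap KQ (FN p) a') := by
    rw [ord_fricke_smul, map_sub, fricke_jBar_eq_jN, AlgEquiv.commutes]
    exact hxa'
  have hyb' : 0 < (fricke p • x').ord (jN p - algebraMap KQ (FN p) b) := by
    rw [ord_fricke_smul, map_sub, fricke_jN, AlgEquiv.commutes]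
    exact hxb'
  have hy1 : 0 < (fricke p • x).ord ((xL KQ p)⁻¹ - algebraMap KQ _ (z : KQ)) := by
    show 0 < (fricke p • x).ord ((xL KQ p)⁻¹ - algebraMap KQ _ b⁻¹)
    rw [← Unique11.jN_eq_xL, Unique11.ord_inv_sub_inv _ hb0 hyb]
    exact hyb
  have hy1' : 0 < (fricke p • x').ord ((xL KQ p)⁻¹ - algebraMap KQ _ (z : KQ)) := by
    show 0 < (fricke p • x').ord ((xL KQ p)⁻¹ - algebraMap KQ _ b⁻¹)
    rw [← Unique11.jN_eq_xL, Unique11.ord_inv_sub_inv _ hb0 hyb']
    exact hyb'
  have hQ := Unique11.ord_xk_neg_of_inv hπ hsurj hNk hr z hz _ hy1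
  have hQ' := Unique11.ord_xk_neg_of_inv hπ hsurj hNk hr z hz _ hy1'
  have hne := Unique11.r_ne_placeInfC hp hπ hsurj hNk hr a b c hc hc0 hcab hb0 _ hya hyb
  have hne' := Unique11.r_ne_placeInfC hp hπ hsurj hNk hr a' b c' hc' hc0' hcab' hb0 _ hya' hyb'
  obtain ⟨hs1, hs2⟩ := Unique11.poles_xk hp hπ hsurj hNk
  have hQQ : r (fricke p • x') = r (fricke p • x) := hs2 _ _ hQ' hQ hne' hne
  have key : fricke p • x = fricke p • x' := by
    by_contra hxx
    have h := Unique11.ord_inv_add_le hπ hsurj hNk hr z hz _ _ hy1 hy1' hxx hQQ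
    rw [hs1 _ hQ hne] at h
    have h2 := le_trans (add_le_add (Int.add_one_le_of_lt hy1) (Int.add_one_le_of_lt hy1')) h
    omega
  exact smul_left_cancel _ key

end Fricke

/-! ### The literals of row 628 (`M6/G2Stmt.lean`, section M3c), on the constants of `M6/Defs` -/

section Literal

set_option synthInstance.maxHeartbeats 400000

open Fermat.Agent.Lib.FF.PlaceInf Fermat.Agent.ESJ Fermat.Agent.S15P.M6 Fermat.Agent.S24.Fricke

local notation "Qb" => AlgebraicClosure ℚ

/-- A place over `j = b` of type `∞` is a point over `(b, a)` with `|a / b^q| = 1`. -/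
theorem typeInf_pair {q : ℕ} [NeZero q] (A : ValuationSubring Qb) (b : Qb) (hb : b ∉ A)
    (x : Place Qb (FN q))
    (hx : 0 < x.ord (jFormal q ⟨1, one_dvd q⟩ - algebraMap Qb (FN q) b))
    (hT : TypeInf A (dvd_refl q) x) :
    ∃ a : Qb, 0 < x.ord (jFormal q ⟨q, dvd_refl q⟩ - algebraMap Qb (FN q) a) ∧
      A.valuation (a / b ^ q) = 1 := by
  have hb0 : b ≠ 0 := fun h => hb (h ▸ A.zero_mem)
  rcases hT with ⟨hneg, -⟩ | ⟨b₁, a, -, hx₁, hxa, hu⟩
  · exfalso
    have h0 := Unique11.ord_eq_zero_of_sub_pos x hb0 hx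
    omega
  · have hbb : b₁ = b := by
      by_contra hne
      have hc0 : b₁ - b ≠ 0 := sub_ne_zero.mpr hne
      have e : (jFormal q ⟨1, one_dvd q⟩ - algebraMap Qb (FN q) b) -
          (jFormal q ⟨1, one_dvd q⟩ - algebraMap Qb (FN q) b₁) =
          algebraMap Qb (FN q) (b₁ - b) := by
        rw [map_sub]; ring
      have hf0 := Unique11.ne_zero_of_ord_pos x hx
      have hg0 := Unique11.ne_zero_of_ord_pos x hx₁
      have hfg0 : (jFormal q ⟨1, one_dvd q⟩ - algebraMap Qb (FN q) b) -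
          (jFormal q ⟨1, one_dvd q⟩ - algebraMap Qb (FN q) b₁) ≠ 0 := by
        rw [e]; exact (_root_.map_ne_zero _).mpr hc0
      have h := ord_sub_ge x hf0 hg0 hfg0
      rw [e, Fermat.Agent.S24.ord_algebraMap] at h
      have := lt_min hx hx₁
      omega
    rw [hbb] at hu
    exact ⟨a, hxa, hu⟩

variable {q ℓ : ℕ} [NeZero q]

/-- **(M3c′) uniqueness**: two places of type `∞` over the same `j = b ∉ A` coincide. -/
theorem typeInf_unique (hq : q.Prime) (hℓ : ℓ.Prime) (hℓq : ℓ ≠ q) (A : ValuationSubring Qb)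
    (hA : A.LiesOverPrime ℓ) (h : ReductionInputsModL A q) (b : Qb) (hb : b ∉ A)
    (x x' : Place Qb (FN q))
    (hx : 0 < x.ord (jFormal q ⟨1, one_dvd q⟩ - algebraMap Qb (FN q) b))
    (hx' : 0 < x'.ord (jFormal q ⟨1, one_dvd q⟩ - algebraMap Qb (FN q) b))
    (hT : TypeInf A (dvd_refl q) x) (hT' : TypeInf A (dvd_refl q) x') : x = x' := by
  haveI : IsAlgClosed (IsLocalRing.ResidueField A) :=
    Fermat.Agent.Lib.FF.CharP.isAlgClosed_residueField A
  have hNk : (q : IsLocalRing.ResidueField A) ≠ 0 :=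
    natCast_residue_ne_zero' A hℓ hA q
      (fun hd => hℓq ((Nat.prime_dvd_prime_iff_eq hℓ hq).mp hd))
  obtain ⟨a, hxa, hu⟩ := typeInf_pair A b hb x hx hT
  obtain ⟨a', hxa', hu'⟩ := typeInf_pair A b hb x' hx' hT'
  exact unique_of_pairs hq (residue_eq_zero_of_not_isUnit' A) IsLocalRing.residue_surjective hNk
    (isPlaceReductionModL_placeReductionModL h) b a a' hb hu hu' x x' hx hxa hx' hxa'

/-- **(M3c′) simplicity**: a place of type `∞` over `j = b ∉ A` is a simple zero of `j - b`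
(true for every place over `b`: `b ≠ 0, 1728`). -/
theorem typeInf_simple (hq : q.Prime) (hℓ : ℓ.Prime) (hℓq : ℓ ≠ q) (A : ValuationSubring Qb)
    (hA : A.LiesOverPrime ℓ) (h : ReductionInputsModL A q) (b : Qb) (hb : b ∉ A)
    (x : Place Qb (FN q))
    (hx : 0 < x.ord (jFormal q ⟨1, one_dvd q⟩ - algebraMap Qb (FN q) b))
    (hT : TypeInf A (dvd_refl q) x) :
    x.ord (jFormal q ⟨1, one_dvd q⟩ - algebraMap Qb (FN q) b) = 1 := by
  have h1728 : (1728 : Qb) ∈ A := by
    have h1 := natCast_mem A 1728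
    exact_mod_cast h1
  exact ord_jBar_sub_eq_one q b (fun h0 => hb (h0 ▸ A.zero_mem)) (fun h0 => hb (h0 ▸ h1728)) x hx

/-- **(M3c′) existence**: over every `j = b ∉ A` there is a place of type `∞`. -/
theorem typeInf_exists (hq : q.Prime) (hℓ : ℓ.Prime) (hℓq : ℓ ≠ q) (A : ValuationSubring Qb)
    (hA : A.LiesOverPrime ℓ) (h : ReductionInputsModL A q) (b : Qb) (hb : b ∉ A) :
    ∃ x : Place Qb (FN q), 0 < x.ord (jFormal q ⟨1, one_dvd q⟩ - algebraMap Qb (FN q) b) ∧
      TypeInf A (dvd_refl q) x := by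
  have hNk : (q : IsLocalRing.ResidueField A) ≠ 0 :=
    natCast_residue_ne_zero' A hℓ hA q
      (fun hd => hℓq ((Nat.prime_dvd_prime_iff_eq hℓ hq).mp hd))
  obtain ⟨x, a, hord, hxa, hu, -⟩ :=
    exists_typeInf A hNk hq (isPlaceReductionModL_placeReductionModL h) b hb
  have hxb : 0 < x.ord (jFormal q ⟨1, one_dvd q⟩ - algebraMap Qb (FN q) b) := by
    show 0 < x.ord (jBar q - algebraMap Qb (FN q) b)
    rw [hord]; exact one_pos
  rw [Fermat.Agent.Lib.Red.BranchInst.xL_eq_jFormal] at hxa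
  exact ⟨x, hxb, Or.inr ⟨b, a, hb, hxb, hxa, hu⟩⟩

/-- **(RC4) for points at a prime level**: a place of type `∞` over `j = b ∉ A` reduces to the
cusp `∞̄`. -/
theorem red_typeInf (hq : q.Prime) (hℓ : ℓ.Prime) (hℓq : ℓ ≠ q) (A : ValuationSubring Qb)
    (hA : A.LiesOverPrime ℓ) (h : ReductionInputsModL A q) (b : Qb) (hb : b ∉ A)
    (x : Place Qb (FN q))
    (hx : 0 < x.ord (jFormal q ⟨1, one_dvd q⟩ - algebraMap Qb (FN q) b))
    (hT : TypeInf A (dvd_refl q) x) :
    placeReductionModL h x = placeInfC (IsLocalRing.ResidueField A) q := by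
  have hNk : (q : IsLocalRing.ResidueField A) ≠ 0 :=
    natCast_residue_ne_zero' A hℓ hA q
      (fun hd => hℓq ((Nat.prime_dvd_prime_iff_eq hℓ hq).mp hd))
  obtain ⟨x₀, a, hord, hxa, hu, hr₀⟩ :=
    exists_typeInf A hNk hq (isPlaceReductionModL_placeReductionModL h) b hb
  have hxb : 0 < x₀.ord (jFormal q ⟨1, one_dvd q⟩ - algebraMap Qb (FN q) b) := by
    show 0 < x₀.ord (jBar q - algebraMap Qb (FN q) b)
    rw [hord]; exact one_pos
  rw [Fermat.Agent.Lib.Red.BranchInst.xL_eq_jFormal] at hxa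
  have hT₀ : TypeInf A (dvd_refl q) x₀ := Or.inr ⟨b, a, hb, hxb, hxa, hu⟩
  rw [typeInf_unique hq hℓ hℓq A hA h b hb x x₀ hx hxb hT hT₀]
  exact hr₀

end Literal

end

end Fermat.Agent.S15P.M3.TypeInf81
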